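import Fermat.Agent.TWMod.Chg

set_option autoImplicit false
set_option linter.unusedSectionVars false

/-!
# Specialisation of the local component at a point `ψ : Λ → K` with values in a field
-/

open CongruenceSubgroup Fermat.Agent.Top MvPolynomial IsLocalRing
open scoped MatrixGroups TensorProduct

namespace Fermat.Agent.TWMod

section PtMod

variable {Λ : Type} [CommRing Λ] {K : Type} [Field K]

/-- `K` as a module over `Λ` through `ψ`. -/
def PtMod (_ψ : Λ →+* K) : Type := K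

variable (ψ : Λ →+* K)

instance : AddCommGroup (PtMod ψ) := inferInstanceAs (AddCommGroup K)
instance : Module K (PtMod ψ) := inferInstanceAs (Module K K)
instance : Module Λ (PtMod ψ) := Module.compHom K ψ

/-- the identity map -/
def toK (z : PtMod ψ) : K := z

theorem ptMod_smul (r : Λ) (a : PtMod ψ) : r • a = ψ r • a := rfl

/-- `ψ` as a linear map -/
def ptLin : Λ →ₗ[Λ] PtMod ψ where
  toFun r := ψ r
  map_add' := map_add ψ
  map_smul' r s := by
    change ψ (r * s) = ψ r • (ψ s)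
    rw [map_mul, smul_eq_mul]

variable {N : ℕ} (χ : DirichletCharacter Λ N)

theorem sameOn_pt : SameOn χ (χ.ringHomComp ψ) (PtMod ψ) :=
  sameOn_of fun _ _ ↦ rfl

end PtMod

variable {Λ : Type} [CommRing Λ] {K : Type} [Field K] (ψ : Λ →+* K)
variable {N : ℕ} (χ : DirichletCharacter Λ N) (S : Set ℕ)

/-- specialisation of cohomology classes -/
noncomputable def spc : H1 (kap χ) Λ →+ H1 (kap (χ.ringHomComp ψ)) (PtMod ψ) :=
  (chg (sameOn_pt ψ χ)).toAddMonoidHom.comp (mapH (ptLin ψ)).toAddMonoidHom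

theorem spc_apply (x : H1 (kap χ) Λ) :
    spc ψ χ x = chg (sameOn_pt ψ χ) (mapH (ptLin ψ) x) := rfl

theorem chg_smul_pt (r : Λ) (x : H1 (kap χ) (PtMod ψ)) :
    chg (sameOn_pt ψ χ) (r • x) = ψ r • chg (sameOn_pt ψ χ) x :=
  chgH_smul _ (r := r) (r' := ψ r) (fun _ ↦ rfl) x

theorem chg_ev_pt (P : MvPolynomial (Pr S) Λ) (x : H1 (kap χ) (PtMod ψ)) :
    chg (sameOn_pt ψ χ) (ev χ S (PtMod ψ) P x) =
      ev (χ.ringHomComp ψ) S (PtMod ψ) (MvPolynomial.map ψ P) (chg (sameOn_pt ψ χ) x) :=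
  chg_ev (sameOn_pt ψ χ) (fun _ _ ↦ rfl) P x

theorem spc_smul (r : Λ) (x : H1 (kap χ) Λ) : spc ψ χ (r • x) = ψ r • spc ψ χ x := by
  rw [spc_apply, map_smul, chg_smul_pt, spc_apply]

theorem spc_ev (P : MvPolynomial (Pr S) Λ) (x : H1 (kap χ) Λ) :
    spc ψ χ (ev χ S Λ P x) =
      ev (χ.ringHomComp ψ) S (PtMod ψ) (MvPolynomial.map ψ P) (spc ψ χ x) := by
  rw [spc_apply, ← ev_mapH, chg_ev_pt, spc_apply]

/-- The local component at a point. -/
noncomputable def MP (E : MvPolynomial (Pr S) Λ) :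
    Submodule K (H1 (kap (χ.ringHomComp ψ)) (PtMod ψ)) :=
  LinearMap.range (ev (χ.ringHomComp ψ) S (PtMod ψ) (MvPolynomial.map ψ E))

variable {S} {E : MvPolynomial (Pr S) Λ}

theorem spc_mem {x : H1 (kap χ) Λ} (hx : x ∈ MM Λ χ S E) : spc ψ χ x ∈ MP ψ χ S E := by
  obtain ⟨y, rfl⟩ := hx
  exact ⟨spc ψ χ y, (spc_ev ψ χ S E y).symm⟩

theorem chg_mem_iff (x : H1 (kap χ) (PtMod ψ)) :
    chg (sameOn_pt ψ χ) x ∈ MP ψ χ S E ↔ x ∈ MM (PtMod ψ) χ S E := by
  constructor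
  · rintro ⟨y, hy⟩
    obtain ⟨z, rfl⟩ := (chg (sameOn_pt ψ χ)).surjective y
    refine ⟨z, (chg (sameOn_pt ψ χ)).injective ?_⟩
    rw [chg_ev_pt, hy]
  · rintro ⟨y, rfl⟩
    exact ⟨_, (chg_ev_pt ψ χ S E y).symm⟩

variable [IsLocalRing Λ] [NeZero N] {χ₁ χ₂ : DirichletCharacter Λ N}
variable {a : Pr S → ResidueField Λ} (hE : IsProj χ₁ χ₂ S a E)
  (h2 : IsUnit (2 : Λ)) (h3 : Three Λ N)
  {χ : DirichletCharacter Λ N} (hχ : χ ∈ ({χ₁, χ₂} : Set (DirichletCharacter Λ N)))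

/-- scalar multiples of specialised classes -/
theorem chg_tau_tmul (x : H1 (kap χ) Λ) (z : PtMod ψ) :
    chg (sameOn_pt ψ χ) (tau (kap χ) (PtMod ψ) (x ⊗ₜ z)) = toK ψ z • spc ψ χ x := by
  obtain ⟨f, rfl⟩ := cls_surjective _ _ x
  rw [tau_tmul, spc_apply, mapH_cls, mapH_cls]
  change chgH _ _ = toK ψ z • chgH _ _
  rw [chgH_cls, chgH_cls, ← map_smul]
  congr 1
  refine Subtype.ext (funext fun γ ↦ ?_)
  change (ψ (f.1 γ)) * toK ψ z = toK ψ z * ψ (f.1 γ)
  exact mul_comm _ _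

include hE h2 h3 hχ

set_option maxHeartbeats 2000000 in
/-- **Base change of bases to points.** -/
theorem exists_basis_pt {ι : Type*} [Finite ι] (b : Module.Basis ι Λ (MM Λ χ S E)) :
    ∃ b' : Module.Basis ι K (MP ψ χ S E), ∀ i, ((b' i : MP ψ χ S E) : H1 _ _) = spc ψ χ (b i) := by
  classical
  have := Fintype.ofFinite ι
  let v : ι → MP ψ χ S E := fun i ↦ ⟨spc ψ χ (b i), spc_mem ψ χ (b i).2⟩
  -- the key isomorphism
  let e1 := TensorProduct.equivFinsuppOfBasisLeft (N := PtMod ψ) b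
  let e2 := tauE hE h2 h3 hχ (PtMod ψ)
  obtain ⟨V, hV⟩ : ∃ V : (ι → K) → MP ψ χ S E, ∀ z, V z = ∑ i, z i • v i := ⟨_, fun _ ↦ rfl⟩
  have key : ∀ z : ι →₀ PtMod ψ,
      chg (sameOn_pt ψ χ) ((e2 (e1.symm z) : MM (PtMod ψ) χ S E) : H1 (kap χ) (PtMod ψ)) =
        (V (fun i ↦ toK ψ (z i))).1 := by
    intro z
    rw [TensorProduct.equivFinsuppOfBasisLeft_symm_apply, Finsupp.sum_fintype _ _ (by simp)]
    rw [coe_tauE, map_sum, map_sum, hV, Submodule.coe_sum]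
    refine Finset.sum_congr rfl fun i _ ↦ ?_
    rw [tauM, LinearMap.comp_apply, LinearMap.rTensor_tmul, chg_tau_tmul]
    rfl
  have hinj : ∀ z : ι → K, V z = 0 → ∀ i, z i = 0 := by
    intro z hz
    have h := key (Finsupp.equivFunOnFinite.symm z)
    have h0 : (V (fun i ↦ toK ψ ((Finsupp.equivFunOnFinite.symm z : ι →₀ PtMod ψ) i))).1 =
        (V z).1 := rfl
    rw [h0, hz, Submodule.coe_zero, map_eq_zero_iff _ (chg (sameOn_pt ψ χ)).injective,
      ZeroMemClass.coe_eq_zero, map_eq_zero_iff _ e2.injective,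
      map_eq_zero_iff _ e1.symm.injective] at h
    intro i
    exact DFunLike.congr_fun h i
  have hsurj : ∀ y : MP ψ χ S E, ∃ z, y = V z := by
    rintro ⟨y, hy⟩
    obtain ⟨x, hx⟩ := (chg (sameOn_pt ψ χ)).surjective y
    have hy' := hy
    rw [← hx, chg_mem_iff] at hy'
    obtain ⟨t, ht⟩ := e2.surjective ⟨x, hy'⟩
    refine ⟨fun i ↦ toK ψ (e1 t i), Subtype.ext ?_⟩
    have h := key (e1 t)
    rw [LinearEquiv.symm_apply_apply, ht] at h
    exact hx.symm.trans h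
  have hli : LinearIndependent K v := by
    rw [Fintype.linearIndependent_iff]
    intro z hz
    exact hinj z ((hV z).trans hz)
  have hsp : ⊤ ≤ Submodule.span K (Set.range v) := by
    intro y _
    obtain ⟨z, rfl⟩ := hsurj y
    rw [hV]
    exact Submodule.sum_mem _ fun i _ ↦ Submodule.smul_mem _ _ (Submodule.subset_span ⟨i, rfl⟩)
  exact ⟨Module.Basis.mk hli hsp, fun i ↦ by rw [Module.Basis.mk_apply]⟩

theorem spc_eq_zero_iff {ι : Type*} [Finite ι] (b : Module.Basis ι Λ (MM Λ χ S E))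
    (x : MM Λ χ S E) : spc ψ χ x = 0 ↔ ∀ i, ψ (b.repr x i) = 0 := by
  classical
  have := Fintype.ofFinite ι
  obtain ⟨b', hb'⟩ := exists_basis_pt ψ hE h2 h3 hχ b
  have h1 : spc ψ χ x = ((∑ i, ψ (b.repr x i) • b' i : MP ψ χ S E) : H1 _ _) := by
    conv_lhs => rw [← b.sum_repr x]
    rw [Submodule.coe_sum, map_sum, Submodule.coe_sum]
    refine Finset.sum_congr rfl fun i _ ↦ ?_
    rw [Submodule.coe_smul, spc_smul, Submodule.coe_smul, hb']
  rw [h1, ZeroMemClass.coe_eq_zero]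
  constructor
  · intro h i
    exact (Fintype.linearIndependent_iff.mp b'.linearIndependent) _ h i
  · intro h
    exact Finset.sum_eq_zero fun i _ ↦ by rw [h i, zero_smul]

/-- If the points `ψ ∈ Ψ` separate the elements of `Λ`, they separate classes in the local
component. -/
theorem eq_zero_of_spc [Module.Free Λ (MM Λ χ S E)] [Module.Finite Λ (MM Λ χ S E)]
    {Ψ : Set (Λ →+* K)} (hsep : ∀ r : Λ, (∀ ψ ∈ Ψ, ψ r = 0) → r = 0) {x : MM Λ χ S E}
    (hx : ∀ ψ ∈ Ψ, spc ψ χ x = 0) : x = 0 := by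
  let b := Module.Free.chooseBasis Λ (MM Λ χ S E)
  apply b.repr.injective
  ext i
  rw [map_zero, Finsupp.zero_apply]
  exact hsep _ fun ψ hψ ↦ (spc_eq_zero_iff ψ hE h2 h3 hχ b x).1 (hx ψ hψ) i

end Fermat.Agent.TWMod
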