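import Mathlib
import Fermat.Prelude.Thm_IsLocalRing_isAdicComplete_of_module_finite

set_option autoImplicit false
set_option linter.unusedSectionVars false

/-!
# Group rings `𝒪[∏ ℤ/p^{a_i}]`, through their properties
-/

open IsLocalRing Polynomial

namespace Fermat.Agent.TWMod

/-- A group ring `𝒪[∏ ℤ/p^{a_i}]`. -/
structure GrpRing (𝒪 : Type) [CommRing 𝒪] [IsLocalRing 𝒪] (p : ℕ) {r : ℕ} (a : Fin r → ℕ) where
  Λ : Type
  [commRing : CommRing Λ]
  [isLocalRing : IsLocalRing Λ]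
  [isNoetherianRing : IsNoetherianRing Λ]
  [isAdicComplete : IsAdicComplete (maximalIdeal Λ) Λ]
  [algebra : Algebra 𝒪 Λ]
  [finite : Module.Finite 𝒪 Λ]
  [free : Module.Free 𝒪 Λ]
  [isLocalHom : IsLocalHom (algebraMap 𝒪 Λ)]
  finrank_eq : Module.finrank 𝒪 Λ = ∏ i, p ^ a i
  res_surj : Function.Surjective (residue Λ ∘ algebraMap 𝒪 Λ)
  /-- generators of the group -/
  d : Fin r → Λ
  d_pow : ∀ i, d i ^ p ^ a i = 1
  d_res : ∀ i, residue Λ (d i) = 1
  /-- augmentation -/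
  aug : Λ →ₐ[𝒪] 𝒪
  aug_d : ∀ i, aug (d i) = 1
  ker_aug : ∀ x, aug x = 0 → x ∈ Ideal.span (Set.range fun i ↦ d i - 1)
  univ : ∀ (B : Type) [CommRing B] (f : 𝒪 →+* B) (z : Fin r → B), (∀ i, z i ^ p ^ a i = 1) →
    ∃ ψ : Λ →+* B, ψ.comp (algebraMap 𝒪 Λ) = f ∧ ∀ i, ψ (d i) = z i
  sep : ∀ (j : 𝒪 →+* ℂ), Function.Injective j → ∀ x : Λ,
    (∀ ψ : Λ →+* ℂ, ψ.comp (algebraMap 𝒪 Λ) = j → ψ x = 0) → x = 0
  ex : ∀ i (f g : ℤ[X]), f.Monic → f * g = X ^ (p ^ a i) - 1 → ∀ x, aeval (d i) f * x = 0 →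
    ∃ y, x = aeval (d i) g * y

attribute [instance] GrpRing.commRing GrpRing.isLocalRing GrpRing.isNoetherianRing
  GrpRing.isAdicComplete GrpRing.algebra GrpRing.finite GrpRing.free GrpRing.isLocalHom

section Step

variable {Λ : Type} [CommRing Λ] (m : ℕ)

/-- one more variable -/
abbrev Adj (Λ : Type) [CommRing Λ] (m : ℕ) : Type := AdjoinRoot (X ^ m - 1 : Λ[X])

theorem monic_step (hm : m ≠ 0) : (X ^ m - 1 : Λ[X]).Monic := monic_X_pow_sub_C 1 hm

theorem root_pow : (AdjoinRoot.root (X ^ m - 1 : Λ[X])) ^ m = 1 := by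
  have h := AdjoinRoot.eval₂_root (X ^ m - 1 : Λ[X])
  simpa [sub_eq_zero] using h

/-- the powers of the root are a basis -/
noncomputable def adjBasis [Nontrivial Λ] (hm : m ≠ 0) : Module.Basis (Fin m) Λ (Adj Λ m) :=
  (AdjoinRoot.powerBasis' (monic_step (Λ := Λ) m hm)).basis.reindex
    (finCongr (by
      rw [AdjoinRoot.powerBasis'_dim]
      exact natDegree_X_pow_sub_C))

theorem adjBasis_apply [Nontrivial Λ] (hm : m ≠ 0) (i : Fin m) :
    adjBasis (Λ := Λ) m hm i = (AdjoinRoot.root (X ^ m - 1 : Λ[X])) ^ (i : ℕ) := by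
  simp [adjBasis]

/-- Lift of a ring hom. -/
theorem exists_lift {B : Type} [CommRing B] (f : Λ →+* B) (z : B) (hz : z ^ m = 1) :
    ∃ ψ : Adj Λ m →+* B, ψ.comp (algebraMap Λ (Adj Λ m)) = f ∧
      ψ (AdjoinRoot.root (X ^ m - 1 : Λ[X])) = z := by
  have h : (X ^ m - 1 : Λ[X]).eval₂ f z = 0 := by simp [hz]
  refine ⟨AdjoinRoot.lift f z h, ?_, AdjoinRoot.lift_root _⟩
  ext x
  exact AdjoinRoot.lift_of h

/-- exactness for the new variable -/
theorem ex_new (f g : ℤ[X]) (hf : f.Monic) (hfg : f * g = X ^ m - 1) (x : Adj Λ m)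
    (hx : aeval (AdjoinRoot.root (X ^ m - 1 : Λ[X])) f * x = 0) :
    ∃ y, x = aeval (AdjoinRoot.root (X ^ m - 1 : Λ[X])) g * y := by
  obtain ⟨F, rfl⟩ := AdjoinRoot.mk_surjective x
  have e : ∀ h : ℤ[X], aeval (AdjoinRoot.root (X ^ m - 1 : Λ[X])) h =
      AdjoinRoot.mk (X ^ m - 1 : Λ[X]) (h.map (Int.castRingHom Λ)) := by
    intro h
    rw [← AdjoinRoot.aeval_eq (R := Λ), aeval_def, aeval_def, eval₂_map]
    congr 1
  rw [e, ← map_mul, AdjoinRoot.mk_eq_zero] at hx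
  have h1 : (X ^ m - 1 : Λ[X]) = f.map (Int.castRingHom Λ) * g.map (Int.castRingHom Λ) := by
    rw [← Polynomial.map_mul, hfg]
    simp
  obtain ⟨G, hG⟩ := hx
  rw [h1, mul_assoc] at hG
  have h2 : F = g.map (Int.castRingHom Λ) * G :=
    (hf.map (Int.castRingHom Λ)).isRegular.left hG
  exact ⟨AdjoinRoot.mk _ G, by rw [e, ← map_mul, ← h2]⟩

/-- coefficientwise divisibility -/
theorem ex_old [Nontrivial Λ] (hm : m ≠ 0) (u v : Λ) (huv : ∀ x : Λ, u * x = 0 → ∃ y, x = v * y)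
    (x : Adj Λ m) (hx : algebraMap Λ (Adj Λ m) u * x = 0) :
    ∃ y, x = algebraMap Λ (Adj Λ m) v * y := by
  let b := adjBasis (Λ := Λ) m hm
  have h1 : ∀ i, ∃ y, b.repr x i = v * y := by
    intro i
    apply huv
    rw [← Algebra.smul_def] at hx
    have h2 := congrArg (fun w ↦ b.repr w i) hx
    simpa using h2
  choose c hc using h1
  refine ⟨∑ i, c i • b i, ?_⟩
  rw [← Algebra.smul_def, Finset.smul_sum]
  conv_lhs => rw [← b.sum_repr x]
  refine Finset.sum_congr rfl fun i _ ↦ ?_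
  rw [hc, mul_smul]

/-- separation -/
theorem sep_step [Nontrivial Λ] (hm : m ≠ 0) {Ψ : Set (Λ →+* ℂ)}
    (hsep : ∀ x : Λ, (∀ ψ ∈ Ψ, ψ x = 0) → x = 0) (x : Adj Λ m)
    (hx : ∀ ψ : Adj Λ m →+* ℂ, ψ.comp (algebraMap Λ (Adj Λ m)) ∈ Ψ → ψ x = 0) : x = 0 := by
  let b := adjBasis (Λ := Λ) m hm
  apply b.repr.injective
  ext i
  rw [map_zero, Finsupp.zero_apply]
  apply hsep
  intro ψ hψ
  -- the polynomial ∑ ψ(c_i) X^i has the m-th roots of unity as roots
  let F : ℂ[X] := ∑ k : Fin m, C (ψ (b.repr x k)) * X ^ (k : ℕ)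
  have hF : ∀ z : ℂ, z ^ m = 1 → F.eval z = 0 := by
    intro z hz
    obtain ⟨ψ', h1, h2⟩ := exists_lift m ψ z hz
    have h3 := hx ψ' (h1 ▸ hψ)
    rw [← b.sum_repr x, map_sum] at h3
    rw [eval_finsetSum, ← h3]
    refine Finset.sum_congr rfl fun k _ ↦ ?_
    rw [eval_mul, eval_C, eval_pow, eval_X, Algebra.smul_def, map_mul, adjBasis_apply, map_pow, h2]
    congr 1
    exact (RingHom.congr_fun h1 _).symm
  have hdeg : F.degree < m := degree_sum_fin_lt _
  have hF0 : F = 0 := by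
    by_contra hne
    have h1 := card_le_degree_of_subset_roots (p := F) (Z := (nthRootsFinset m (1 : ℂ))) (by
      intro z hz
      rw [Finset.mem_val, mem_nthRootsFinset (Nat.pos_of_ne_zero hm)] at hz
      exact (mem_roots hne).2 (hF z hz))
    have h2 : (nthRootsFinset m (1 : ℂ)).card = m := by
      have : NeZero m := ⟨hm⟩
      exact (Complex.isPrimitiveRoot_exp m hm).card_nthRootsFinset
    rw [h2] at h1
    rw [degree_eq_natDegree hne] at hdeg
    have : F.natDegree < m := by exact_mod_cast hdeg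
    omega
  have h4 := congrArg (fun G : ℂ[X] ↦ G.coeff i) hF0
  simp only [F, finsetSum_coeff, coeff_C_mul, coeff_X_pow, coeff_zero] at h4
  rw [Finset.sum_eq_single i] at h4
  · simpa using h4
  · intro k _ hk
    rw [if_neg (fun h ↦ hk (Fin.ext h.symm)), mul_zero]
  · simp

/-- locality of one step -/
theorem isUnit_of_step [IsLocalRing Λ] {p : ℕ} (hp : p.Prime) (hpm : (p : Λ) ∈ maximalIdeal Λ)
    {a : ℕ} (ε : Adj Λ (p ^ a) →+* ResidueField Λ)
    (hε : ε.comp (algebraMap Λ _) = residue Λ) (hε1 : ε (AdjoinRoot.root _) = 1) :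
    IsLocalHom ε := by
  constructor
  intro x hx
  by_contra hxu
  obtain ⟨𝔫, h𝔫, hx𝔫⟩ := exists_max_ideal_of_mem_nonunits hxu
  have hmle : (maximalIdeal Λ).map (algebraMap Λ (Adj Λ (p ^ a))) ≤ 𝔫 := by
    have : Module.Finite Λ (Adj Λ (p ^ a)) :=
      Module.Finite.of_basis (adjBasis (Λ := Λ) (p ^ a) (pow_ne_zero _ hp.ne_zero))
    rw [Ideal.map_le_iff_le_comap]
    have := Ideal.isMaximal_comap_of_isIntegral_of_isMaximal (R := Λ) 𝔫
    rw [IsLocalRing.eq_maximalIdeal this]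
  have hroot : AdjoinRoot.root (X ^ (p ^ a) - 1 : Λ[X]) - 1 ∈ 𝔫 := by
    have hρ := root_pow (Λ := Λ) (p ^ a)
    generalize AdjoinRoot.root (X ^ (p ^ a) - 1 : Λ[X]) = ρ at hρ ⊢
    apply Ideal.IsPrime.mem_of_pow_mem (I := 𝔫) h𝔫.isPrime (p ^ a)
    obtain ⟨z, hz⟩ := exists_add_pow_prime_pow_eq hp ρ (-1) a
    rw [sub_eq_add_neg ρ 1, hz, hρ]
    have hpn : (p : Adj Λ (p ^ a)) ∈ 𝔫 := by
      rw [← map_natCast (algebraMap Λ (Adj Λ (p ^ a)))]
      exact hmle (Ideal.mem_map_of_mem _ hpm)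
    rcases hp.eq_two_or_odd' with rfl | hodd
    · rcases Nat.eq_zero_or_pos a with rfl | ha
      · simp only [pow_zero, pow_one]
        rw [show (1 : Adj Λ (2 ^ 0)) + -1 = 0 by ring, zero_add]
        exact Ideal.mul_mem_right _ _ (Ideal.mul_mem_right _ _ (Ideal.mul_mem_right _ _ hpn))
      · have h1 : (-1 : Adj Λ (2 ^ a)) ^ 2 ^ a = 1 := by
          rw [Even.neg_one_pow]
          exact (Nat.even_pow' ha.ne').2 even_two
        rw [h1, show (1 : Adj Λ (2 ^ a)) + 1 = ((2 : ℕ) : Adj Λ (2 ^ a)) by norm_num]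
        exact Ideal.add_mem _ hpn (Ideal.mul_mem_right _ _ (Ideal.mul_mem_right _ _
          (Ideal.mul_mem_right _ _ hpn)))
    · rw [Odd.neg_one_pow (hodd.pow), add_neg_cancel, zero_add]
      exact Ideal.mul_mem_right _ _ (Ideal.mul_mem_right _ _ (Ideal.mul_mem_right _ _ hpn))
  have hker : RingHom.ker ε ≤ 𝔫 := by
    intro y hy
    obtain ⟨F, rfl⟩ := AdjoinRoot.mk_surjective y
    obtain ⟨G, hG⟩ := X_sub_C_dvd_sub_C_eval (a := (1 : Λ)) (p := F)
    have h1 : AdjoinRoot.mk (X ^ (p ^ a) - 1 : Λ[X]) F =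
        (AdjoinRoot.root (X ^ (p ^ a) - 1 : Λ[X]) - 1) * AdjoinRoot.mk _ G +
          algebraMap Λ _ (F.eval 1) := by
      rw [sub_eq_iff_eq_add] at hG
      conv_lhs => rw [hG]
      rw [map_add, map_mul]
      simp [AdjoinRoot.mk_X, AdjoinRoot.mk_C]
    rw [h1]
    refine Ideal.add_mem _ (Ideal.mul_mem_right _ _ hroot) (hmle (Ideal.mem_map_of_mem _ ?_))
    rw [RingHom.mem_ker, h1, map_add, map_mul, map_sub, hε1, map_one, sub_self, zero_mul, zero_add,
      ← RingHom.comp_apply, hε] at hy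
    exact (residue_eq_zero_iff _).1 hy
  have hkm : (RingHom.ker ε).IsMaximal := by
    refine RingHom.ker_isMaximal_of_surjective _ fun y ↦ ?_
    obtain ⟨r, rfl⟩ := residue_surjective y
    exact ⟨algebraMap Λ _ r, by rw [← RingHom.comp_apply, hε]⟩
  have h5 := hkm.eq_of_le h𝔫.ne_top hker
  rw [← h5, RingHom.mem_ker] at hx𝔫
  rw [hx𝔫] at hx
  exact not_isUnit_zero hx

/-- decomposition of elements -/
theorem exists_decomp (x : Adj Λ m) : ∃ (y : Adj Λ m) (c : Λ),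
    x = (AdjoinRoot.root (X ^ m - 1 : Λ[X]) - 1) * y + algebraMap Λ _ c := by
  obtain ⟨F, rfl⟩ := AdjoinRoot.mk_surjective x
  obtain ⟨G, hG⟩ := X_sub_C_dvd_sub_C_eval (a := (1 : Λ)) (p := F)
  refine ⟨AdjoinRoot.mk _ G, F.eval 1, ?_⟩
  rw [sub_eq_iff_eq_add] at hG
  conv_lhs => rw [hG]
  rw [map_add, map_mul]
  simp [AdjoinRoot.mk_X, AdjoinRoot.mk_C]

variable {𝒪 : Type} [CommRing 𝒪] [IsLocalRing 𝒪] [IsNoetherianRing 𝒪]
  [IsAdicComplete (maximalIdeal 𝒪) 𝒪] {p : ℕ}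

theorem nonempty_grpRing_succ (hp : p.Prime) (hpm : (p : 𝒪) ∈ maximalIdeal 𝒪) {r : ℕ}
    (a : Fin (r + 1) → ℕ) (G : GrpRing 𝒪 p (fun i : Fin r ↦ a i.castSucc)) :
    Nonempty (GrpRing 𝒪 p a) := by
  let m : ℕ := p ^ a (Fin.last r)
  have hm : m ≠ 0 := pow_ne_zero _ hp.ne_zero
  let Λ' : Type := Adj G.Λ m
  have hpΛ : (p : G.Λ) ∈ maximalIdeal G.Λ := by
    rw [← map_natCast (algebraMap 𝒪 G.Λ)]
    exact map_nonunit _ _ hpm
  obtain ⟨ε, hε, hε1⟩ := exists_lift m (residue G.Λ) (1 : ResidueField G.Λ) (one_pow m)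
  have hloc : IsLocalHom ε := isUnit_of_step hp hpΛ ε hε hε1
  let iloc : IsLocalRing Λ' := RingHom.domain_isLocalRing ε
  have hfinΛ : Module.Finite G.Λ Λ' := Module.Finite.of_basis (adjBasis (Λ := G.Λ) m hm)
  have hfreeΛ : Module.Free G.Λ Λ' := Module.Free.of_basis (adjBasis (Λ := G.Λ) m hm)
  have hfin : Module.Finite 𝒪 Λ' := Module.Finite.trans G.Λ Λ'
  have hfree : Module.Free 𝒪 Λ' := Module.Free.trans (S := G.Λ)
  have hnoeth : IsNoetherianRing Λ' := IsNoetherianRing.of_finite 𝒪 Λ'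
  have halg : ∀ x : 𝒪, algebraMap 𝒪 Λ' x = algebraMap G.Λ Λ' (algebraMap 𝒪 G.Λ x) :=
    fun x ↦ IsScalarTower.algebraMap_apply 𝒪 G.Λ Λ' x
  have hεalg : ∀ x : 𝒪, ε (algebraMap 𝒪 Λ' x) = residue G.Λ (algebraMap 𝒪 G.Λ x) := by
    intro x
    rw [halg, ← RingHom.comp_apply, hε]
  have hlh : IsLocalHom (algebraMap 𝒪 Λ') := by
    constructor
    intro x hx
    have h1 := hx.map ε
    rw [hεalg] at h1
    exact isUnit_of_map_unit (algebraMap 𝒪 G.Λ) _ (isUnit_of_map_unit (residue G.Λ) _ h1)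
  have hac : IsAdicComplete (maximalIdeal Λ') Λ' := IsLocalRing.isAdicComplete_of_module_finite (𝒪 := 𝒪)
  have hker : ∀ x : Λ', ε x = 0 → x ∈ maximalIdeal Λ' := by
    intro x hx
    rw [mem_maximalIdeal, mem_nonunits_iff]
    intro hu
    have := hu.map ε
    rw [hx] at this
    exact not_isUnit_zero this
  obtain ⟨au, hau, hau1⟩ := exists_lift m (G.aug : G.Λ →+* 𝒪) (1 : 𝒪) (one_pow m)
  have hauc : ∀ x : 𝒪, au (algebraMap 𝒪 Λ' x) = x := by
    intro x
    rw [halg, ← RingHom.comp_apply, hau]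
    exact G.aug.commutes x
  refine ⟨{
    Λ := Λ'
    commRing := inferInstance
    isLocalRing := iloc
    isNoetherianRing := hnoeth
    isAdicComplete := hac
    algebra := inferInstance
    finite := hfin
    free := hfree
    isLocalHom := hlh
    finrank_eq := ?_
    res_surj := ?_
    d := Fin.lastCases (AdjoinRoot.root _) (fun i ↦ algebraMap G.Λ Λ' (G.d i))
    d_pow := ?_
    d_res := ?_
    aug := { au with commutes' := hauc }
    aug_d := ?_
    ker_aug := ?_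
    univ := ?_
    sep := ?_
    ex := ?_ }⟩
  · rw [← Module.finrank_mul_finrank 𝒪 G.Λ Λ', G.finrank_eq, Fin.prod_univ_castSucc]
    congr 1
    rw [Module.finrank_eq_card_basis (adjBasis (Λ := G.Λ) m hm), Fintype.card_fin]
  · intro y
    obtain ⟨x, rfl⟩ := residue_surjective y
    obtain ⟨o, ho⟩ := G.res_surj (ε x)
    refine ⟨o, ?_⟩
    rw [Function.comp_apply, ← sub_eq_zero, ← map_sub, residue_eq_zero_iff]
    apply hker
    rw [map_sub, hεalg]
    exact sub_eq_zero.2 ho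
  · intro i
    refine Fin.lastCases ?_ (fun i ↦ ?_) i
    · rw [Fin.lastCases_last]
      exact root_pow m
    · rw [Fin.lastCases_castSucc, ← map_pow, G.d_pow i, map_one]
  · intro i
    rw [← sub_eq_zero, ← map_one (residue Λ'), ← map_sub, residue_eq_zero_iff]
    apply hker
    rw [map_sub, map_one, sub_eq_zero]
    refine Fin.lastCases ?_ (fun i ↦ ?_) i
    · rw [Fin.lastCases_last]
      exact hε1
    · rw [Fin.lastCases_castSucc, ← RingHom.comp_apply, hε, G.d_res i]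
  · intro i
    change au _ = 1
    refine Fin.lastCases ?_ (fun i ↦ ?_) i
    · rw [Fin.lastCases_last]
      exact hau1
    · rw [Fin.lastCases_castSucc, ← RingHom.comp_apply, hau]
      exact G.aug_d i
  · intro x hx
    change au x = 0 at hx
    obtain ⟨y, c, rfl⟩ := exists_decomp m x
    rw [map_add, map_mul, map_sub, hau1, map_one, sub_self, zero_mul, zero_add,
      ← RingHom.comp_apply, hau] at hx
    have h1 := G.ker_aug c hx
    refine Ideal.add_mem _ (Ideal.mul_mem_right _ _ ?_) ?_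
    · apply Ideal.subset_span
      exact ⟨Fin.last r, by simp only [Fin.lastCases_last]⟩
    · have h2 := Ideal.mem_map_of_mem (algebraMap G.Λ Λ') h1
      rw [Ideal.map_span] at h2
      refine Ideal.span_le.2 ?_ h2
      rintro _ ⟨_, ⟨i, rfl⟩, rfl⟩
      apply Ideal.subset_span
      exact ⟨i.castSucc, by simp only [Fin.lastCases_castSucc, map_sub, map_one]⟩
  · intro B _ f z hz
    obtain ⟨ψ, h1, h2⟩ := G.univ B f (fun i ↦ z i.castSucc) (fun i ↦ hz _)
    obtain ⟨ψ', h3, h4⟩ := exists_lift m ψ (z (Fin.last r)) (hz _)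
    refine ⟨ψ', ?_, fun i ↦ ?_⟩
    · rw [← h1, ← h3]
      ext x
      rw [RingHom.comp_apply, RingHom.comp_apply, RingHom.comp_apply, halg]
    · refine Fin.lastCases ?_ (fun i ↦ ?_) i
      · rw [Fin.lastCases_last]
        exact h4
      · rw [Fin.lastCases_castSucc, ← RingHom.comp_apply, h3]
        exact h2 i
  · intro j hj x hx
    refine sep_step m hm (Ψ := {ψ | ψ.comp (algebraMap 𝒪 G.Λ) = j}) (fun y hy ↦ G.sep j hj y hy) x ?_
    intro ψ hψ
    apply hx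
    rw [← hψ]
    ext y
    rw [RingHom.comp_apply, RingHom.comp_apply, RingHom.comp_apply, halg]
  · intro i f g hf hfg
    refine Fin.lastCases ?_ (fun i ↦ ?_) i (motive := fun i ↦ f * g = X ^ (p ^ a i) - 1 → ∀ x : Λ',
      aeval (Fin.lastCases (motive := fun _ ↦ Λ') (AdjoinRoot.root _)
        (fun i ↦ algebraMap G.Λ Λ' (G.d i)) i) f * x = 0 →
      ∃ y, x = aeval (Fin.lastCases (motive := fun _ ↦ Λ') (AdjoinRoot.root _)
        (fun i ↦ algebraMap G.Λ Λ' (G.d i)) i) g * y) hfg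
    · intro hfg x hx
      rw [Fin.lastCases_last] at hx ⊢
      exact ex_new m f g hf hfg x hx
    · intro hfg x hx
      rw [Fin.lastCases_castSucc] at hx ⊢
      rw [aeval_algebraMap_apply] at hx ⊢
      exact ex_old m hm _ _ (G.ex i f g hf hfg) x hx

theorem nonempty_grpRing (hp : p.Prime) (hpm : (p : 𝒪) ∈ maximalIdeal 𝒪) :
    ∀ {r : ℕ} (a : Fin r → ℕ), Nonempty (GrpRing 𝒪 p a)
  | 0, a => ⟨{
      Λ := 𝒪
      finrank_eq := by simp
      res_surj := residue_surjective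
      d := Fin.elim0
      d_pow := fun i ↦ i.elim0
      d_res := fun i ↦ i.elim0
      aug := AlgHom.id 𝒪 𝒪
      aug_d := fun i ↦ i.elim0
      ker_aug := fun x hx ↦ by
        rw [AlgHom.id_apply] at hx
        rw [hx]
        exact zero_mem _
      univ := fun B _ f z _ ↦ ⟨f, by ext x; rfl, fun i ↦ i.elim0⟩
      sep := fun j hj x hx ↦ by
        have h := hx j (by ext y; rfl)
        exact (injective_iff_map_eq_zero j).1 hj x h
      ex := fun i ↦ i.elim0 }⟩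
  | r + 1, a => by
    obtain ⟨G⟩ := nonempty_grpRing hp hpm (fun i : Fin r ↦ a i.castSucc)
    exact nonempty_grpRing_succ hp hpm a G

end Step

end Fermat.Agent.TWMod
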