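import Fermat.Agent.Top.HeckeHom

set_option autoImplicit false

/-!
# `T_ℓ - (1 + ℓ)` has parabolic values for `ℓ ≡ 1` modulo the level
-/

open CongruenceSubgroup Fermat.Agent.Top ModularCurve.Period Fermat.Agent.Period
open scoped MatrixGroups

namespace Fermat.Agent.TWMod

open Matrix.SpecialLinearGroup ModularForm

section Reps

variable {M ℓ : ℕ}

/-- the matrix `(1, t; 0, 1)` -/
def TT0 (t : ℤ) : SL(2, ℤ) := ⟨!![1, t; 0, 1], by simp⟩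

theorem TT0_coe (t : ℤ) : (TT0 t : Matrix (Fin 2) (Fin 2) ℤ) = !![1, t; 0, 1] := rfl

theorem TT0_mul (s t : ℤ) : TT0 s * TT0 t = TT0 (s + t) := by
  apply Subtype.ext
  rw [Matrix.SpecialLinearGroup.coe_mul, TT0_coe, TT0_coe, TT0_coe]
  ext i j
  fin_cases i <;> fin_cases j <;> simp [Matrix.mul_apply, Fin.sum_univ_two, add_comm]

theorem TT0_zero : TT0 0 = 1 := by
  apply Subtype.ext
  rw [TT0_coe]
  ext i j
  fin_cases i <;> fin_cases j <;> simp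

/-- index of an element of `Option (Fin ℓ)`, as an integer -/
def uI (i : Option (Fin ℓ)) : ℤ := i.elim 0 fun j => ((j : ℕ) : ℤ)

/-- the shifted representatives, before conjugation -/
def HS (ℓ : ℕ) (i : Option (Fin ℓ)) : Matrix (Fin 2) (Fin 2) ℤ :=
  (TT0 (-uI i) : Matrix (Fin 2) (Fin 2) ℤ) * HM ℓ i

theorem HS_none : HS ℓ none = !![(ℓ : ℤ), 0; 0, 1] := by
  rw [HS, HM_none, TT0_coe]
  ext i j
  fin_cases i <;> fin_cases j <;> simp [Matrix.mul_apply, Fin.sum_univ_two, uI]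

theorem HS_some (j : Fin ℓ) : HS ℓ (some j) = !![1, ((j : ℕ) : ℤ) * (1 - ℓ); 0, (ℓ : ℤ)] := by
  rw [HS, HM_some, TT0_coe]
  ext i k
  fin_cases i <;> fin_cases k <;> simp [Matrix.mul_apply, Fin.sum_univ_two, uI]
  ring

theorem det_HS (i : Option (Fin ℓ)) : (HS ℓ i).det = ℓ := by
  rw [HS, Matrix.det_mul, (TT0 _).det_coe, one_mul, det_HM]

/-- the new representatives -/
def HN (σ : SL(2, ℤ)) (ℓ : ℕ) (i : Option (Fin ℓ)) : Matrix (Fin 2) (Fin 2) ℤ :=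
  (σ : Matrix (Fin 2) (Fin 2) ℤ) * HS ℓ i * ((σ⁻¹ : SL(2, ℤ)) : Matrix (Fin 2) (Fin 2) ℤ)

theorem det_HN (σ : SL(2, ℤ)) (i : Option (Fin ℓ)) : (HN σ ℓ i).det = ℓ := by
  rw [HN, Matrix.det_mul, Matrix.det_mul, σ.det_coe, (σ⁻¹).det_coe, det_HS, one_mul, mul_one]

theorem HN_unique (hℓ : ℓ.Prime) (σ g : SL(2, ℤ)) (i j : Option (Fin ℓ))
    (h : (g : Matrix (Fin 2) (Fin 2) ℤ) * HN σ ℓ i = HN σ ℓ j) : i = j := by
  refine HM_unique hℓ ((TT0 (-uI j))⁻¹ * σ⁻¹ * g * σ * TT0 (-uI i)) i j ?_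
  have e1 : ∀ k, HN σ ℓ k * (σ : Matrix (Fin 2) (Fin 2) ℤ) =
      (σ : Matrix (Fin 2) (Fin 2) ℤ) * ((TT0 (-uI k) : Matrix (Fin 2) (Fin 2) ℤ) * HM ℓ k) := by
    intro k
    rw [HN, Matrix.mul_assoc, ← Matrix.SpecialLinearGroup.coe_mul, inv_mul_cancel,
      Matrix.SpecialLinearGroup.coe_one, Matrix.mul_one, HS]
  have h1 : (g : Matrix (Fin 2) (Fin 2) ℤ) * (HN σ ℓ i * (σ : Matrix (Fin 2) (Fin 2) ℤ)) =
      HN σ ℓ j * (σ : Matrix (Fin 2) (Fin 2) ℤ) := by rw [← Matrix.mul_assoc, h]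
  rw [e1, e1] at h1
  have e3 : (((TT0 (-uI j))⁻¹ * σ⁻¹ * g * σ * TT0 (-uI i) : SL(2, ℤ)) : Matrix (Fin 2) (Fin 2) ℤ) =
      (((TT0 (-uI j))⁻¹ : SL(2, ℤ)) : Matrix (Fin 2) (Fin 2) ℤ) *
      (((σ⁻¹ : SL(2, ℤ)) : Matrix (Fin 2) (Fin 2) ℤ) * ((g : Matrix (Fin 2) (Fin 2) ℤ) *
      ((σ : Matrix (Fin 2) (Fin 2) ℤ) * (TT0 (-uI i) : Matrix (Fin 2) (Fin 2) ℤ)))) := by
    simp only [Matrix.SpecialLinearGroup.coe_mul, Matrix.mul_assoc]
  rw [e3, Matrix.mul_assoc, Matrix.mul_assoc, Matrix.mul_assoc, Matrix.mul_assoc, h1,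
    ← Matrix.mul_assoc (((σ⁻¹ : SL(2, ℤ)) : Matrix (Fin 2) (Fin 2) ℤ)),
    ← Matrix.SpecialLinearGroup.coe_mul, inv_mul_cancel, Matrix.SpecialLinearGroup.coe_one,
    Matrix.one_mul, ← Matrix.mul_assoc, ← Matrix.SpecialLinearGroup.coe_mul, inv_mul_cancel,
    Matrix.SpecialLinearGroup.coe_one, Matrix.one_mul]

/-- modulo `M` the new representatives are the identity -/
theorem HN_congr (hℓM : ℓ ≡ 1 [MOD M]) (σ : SL(2, ℤ)) (i : Option (Fin ℓ)) :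
    (HN σ ℓ i).map (Int.cast : ℤ → ZMod M) = 1 := by
  have h1 : ((ℓ : ℕ) : ZMod M) = 1 := by
    have := (ZMod.natCast_eq_natCast_iff ℓ 1 M).mpr hℓM
    simpa using this
  have h2 : (HS ℓ i).map (Int.cast : ℤ → ZMod M) = 1 := by
    cases i with
    | none =>
      rw [HS_none]
      ext a b
      fin_cases a <;> fin_cases b <;> simp [h1]
    | some j =>
      rw [HS_some]
      ext a b
      fin_cases a <;> fin_cases b <;> simp [h1]
  have e : ∀ A B : Matrix (Fin 2) (Fin 2) ℤ, (A * B).map (Int.cast : ℤ → ZMod M) =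
      A.map (Int.cast : ℤ → ZMod M) * B.map (Int.cast : ℤ → ZMod M) := fun A B =>
    Matrix.map_mul (f := Int.castRingHom (ZMod M))
  rw [HN, e, e, h2, Matrix.mul_one, ← e, ← Matrix.SpecialLinearGroup.coe_mul, mul_inv_cancel,
    Matrix.SpecialLinearGroup.coe_one]
  ext a b
  fin_cases a <;> fin_cases b <;> simp

theorem isDelta_HN (hℓM : ℓ ≡ 1 [MOD M]) (σ : SL(2, ℤ)) (i : Option (Fin ℓ)) :
    IsDelta M (HN σ ℓ i) := by
  have h := HN_congr hℓM σ i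
  have h10 := congrFun (congrFun h 1) 0
  have h00 := congrFun (congrFun h 0) 0
  simp only [Matrix.map_apply, Matrix.one_apply_eq] at h00
  simp only [Matrix.map_apply, ne_eq, one_ne_zero, not_false_eq_true, Matrix.one_apply_ne] at h10
  refine ⟨(ZMod.intCast_zmod_eq_zero_iff_dvd _ _).mp h10, ?_⟩
  have h3 : ((HN σ ℓ i 0 0 - 1 : ℤ) : ZMod M) = 0 := by
    push_cast
    rw [h00, sub_self]
  obtain ⟨c, hc⟩ := (ZMod.intCast_zmod_eq_zero_iff_dvd _ _).mp h3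
  exact ⟨1, -c, by linear_combination hc⟩

/-- the new representatives in `GL₂(ℝ)` -/
noncomputable def HNR (σ : SL(2, ℤ)) (ℓ : ℕ) (i : Option (Fin ℓ)) : GL (Fin 2) ℝ :=
  mapGL ℝ σ * mapGL ℝ (TT0 (-uI i)) * HR ℓ i * mapGL ℝ σ⁻¹

theorem HNR_apply (hℓ : ℓ ≠ 0) (σ : SL(2, ℤ)) (i : Option (Fin ℓ)) :
    ((HNR σ ℓ i : GL (Fin 2) ℝ) : Matrix (Fin 2) (Fin 2) ℝ) =
      (HN σ ℓ i).map (Int.cast : ℤ → ℝ) := by
  rw [HNR, Units.val_mul, Units.val_mul, Units.val_mul, mapGL_coe, mapGL_coe, mapGL_coe,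
    HR_apply hℓ, HN, HS, map_mul_cast, map_mul_cast, map_mul_cast, Matrix.mul_assoc
      (((σ : SL(2, ℤ)) : Matrix (Fin 2) (Fin 2) ℤ).map (Int.cast : ℤ → ℝ))]

theorem HNR_unique (hℓ : ℓ.Prime) (σ : SL(2, ℤ)) (g : Gamma0 M) (i j : HI M ℓ)
    (h : toGL M g * HNR σ ℓ i.1 = HNR σ ℓ j.1) : i = j := by
  rw [toGL_apply] at h
  exact Subtype.ext (HN_unique hℓ σ _ _ _
    ((eq_coe_of_mapGL_mul (HNR_apply hℓ.ne_zero σ _) (HNR_apply hℓ.ne_zero σ _)).mp h))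

theorem exists_HNR_eq (hℓ : ℓ.Prime) (hℓM : ℓ ≡ 1 [MOD M]) (σ : SL(2, ℤ)) (i : HI M ℓ) :
    ∃ (g : Gamma0 M) (j : HI M ℓ), HNR σ ℓ i.1 = toGL M g * (hreps M hℓ).δ j := by
  obtain ⟨j, B, hB, h⟩ := exists_factor hℓ (isDelta_HN hℓM σ i.1) (by rw [det_HN])
  have hdet : B.det = 1 := by
    have := congrArg Matrix.det h
    rw [Matrix.det_mul, det_HN, det_HM] at this
    have hℓ0 : (ℓ : ℤ) ≠ 0 := by exact_mod_cast hℓ.ne_zero
    exact (mul_right_cancel₀ hℓ0 (by rw [← this, one_mul]) : B.det = 1)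
  obtain ⟨g, rfl⟩ := exists_mem_of_isDelta hB hdet
  exact ⟨g, j, (((eq_coe_of_mapGL_mul (HR_apply hℓ.ne_zero j.1)
    (HNR_apply hℓ.ne_zero σ i.1)).mpr h.symm)).symm⟩

theorem exists_HR_eq (hℓ : ℓ.Prime) (hℓM : ℓ ≡ 1 [MOD M]) (σ : SL(2, ℤ)) (j : HI M ℓ) :
    ∃ (g : Gamma0 M) (i : HI M ℓ), (hreps M hℓ).δ j = toGL M g * HNR σ ℓ i.1 := by
  choose g e he using exists_HNR_eq hℓ hℓM σ
  have hinj : Function.Injective e := by
    intro i j hij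
    refine HNR_unique hℓ σ (g j * (g i)⁻¹) i j ?_
    rw [he i, he j, hij, map_mul, map_inv]
    group
  obtain ⟨i, rfl⟩ := (Finite.injective_iff_surjective.mp hinj) j
  refine ⟨(g i)⁻¹, i, ?_⟩
  rw [he i, map_inv, inv_mul_cancel_left]

/-- the new system of representatives -/
noncomputable def nreps (M : ℕ) {ℓ : ℕ} (hℓ : ℓ.Prime) (hℓM : ℓ ≡ 1 [MOD M]) (σ : SL(2, ℤ)) :
    Reps (toGL M) (HI M ℓ) :=
  Reps.mk' (toGL_injective M) (fun i ↦ HNR σ ℓ i.1)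
    (fun γ i ↦ by
      obtain ⟨g, j, h⟩ := exists_HNR_eq hℓ hℓM σ i
      obtain ⟨g', i', h'⟩ := exists_HR_eq hℓ hℓM σ ((hreps M hℓ).σ γ j)
      refine ⟨g * (hreps M hℓ).c γ j * g', i', ?_⟩
      rw [h, mul_assoc, (hreps M hℓ).mul_eq, h', map_mul, map_mul]
      simp only [mul_assoc])
    (fun g i j h ↦ HNR_unique hℓ σ g i j h)

@[simp] theorem nreps_δ (hℓ : ℓ.Prime) (hℓM : ℓ ≡ 1 [MOD M]) (σ : SL(2, ℤ)) (i : HI M ℓ) :
    (nreps M hℓ hℓM σ).δ i = HNR σ ℓ i.1 := rfl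

theorem hop_eq_nreps {A : Type*} [AddCommGroup A] (hℓ : ℓ.Prime) (hℓM : ℓ ≡ 1 [MOD M])
    (σ : SL(2, ℤ)) (φ : Additive (Gamma0 M) →+ A) :
    hop M ⟨ℓ, hℓ⟩ φ = (nreps M hℓ hℓM σ).op φ :=
  Reps.op_congr (hreps M hℓ) (nreps M hℓ hℓM σ) (fun g i j h ↦ hreps_unique M hℓ g i j h)
    (fun g i j h ↦ HNR_unique hℓ σ g i j h) (fun i ↦ exists_HR_eq hℓ hℓM σ i) rfl φ

/-- The factors for a unipotent element. -/
theorem c_nreps (hℓ : ℓ.Prime) (hℓM : ℓ ≡ 1 [MOD M]) (σ : SL(2, ℤ)) (γ : Gamma0 M) (h : ℤ)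
    (hγ : (γ : SL(2, ℤ)) = σ * TT0 h * σ⁻¹) (i : HI M ℓ) :
    ∃ t : ℤ, (((nreps M hℓ hℓM σ).c γ i : Gamma0 M) : SL(2, ℤ)) = σ * TT0 t * σ⁻¹ ∧
      ℓ * t = (if i.1 = none then ℓ * (ℓ * h) else h) +
        (uI i.1 - uI ((nreps M hℓ hℓM σ).σ γ i).1) * (1 - ℓ) := by
  have hℓ0 : (ℓ : ℤ) ≠ 0 := by exact_mod_cast hℓ.ne_zero
  have hℓ1 : ¬ (ℓ : ℤ) ∣ 1 := fun h ↦ hℓ.one_lt.ne' (by exact_mod_cast Int.eq_one_of_dvd_one (by positivity) h)
  have h1 := (nreps M hℓ hℓM σ).mul_eq γ i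
  rw [nreps_δ, nreps_δ, toGL_apply, toGL_apply, hγ] at h1
  set c : SL(2, ℤ) := (((nreps M hℓ hℓM σ).c γ i : Gamma0 M) : SL(2, ℤ)) with hc
  set i' := ((nreps M hℓ hℓM σ).σ γ i).1 with hi'
  set c' : SL(2, ℤ) := σ⁻¹ * c * σ with hc'
  have hcc : c = σ * c' * σ⁻¹ := by rw [hc']; group
  -- conjugated identity
  have h2 : HS ℓ i.1 * (TT0 h : Matrix (Fin 2) (Fin 2) ℤ) =
      (c' : Matrix (Fin 2) (Fin 2) ℤ) * HS ℓ i' := by
    have hs : ∀ k, (mapGL ℝ (TT0 (-uI k)) * HR ℓ k : GL (Fin 2) ℝ).1 =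
        (HS ℓ k).map (Int.cast : ℤ → ℝ) := by
      intro k
      rw [Units.val_mul, mapGL_coe, HR_apply hℓ.ne_zero, HS, map_mul_cast]
    have h3 : (mapGL ℝ (TT0 (-uI i.1)) * HR ℓ i.1) * mapGL ℝ (TT0 h) =
        mapGL ℝ c' * (mapGL ℝ (TT0 (-uI i')) * HR ℓ i') := by
      rw [HNR, HNR, hcc, map_mul, map_mul, map_mul, map_mul] at h1
      have h4 := congrArg (fun X => (mapGL ℝ σ)⁻¹ * X * mapGL ℝ σ) h1
      simp only [map_inv] at h4
      have e1 : (mapGL ℝ σ)⁻¹ * (mapGL ℝ σ * mapGL ℝ (TT0 (-uI i.1)) * HR ℓ i.1 * (mapGL ℝ σ)⁻¹ *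
          (mapGL ℝ σ * mapGL ℝ (TT0 h) * (mapGL ℝ σ)⁻¹)) * mapGL ℝ σ =
          (mapGL ℝ (TT0 (-uI i.1)) * HR ℓ i.1) * mapGL ℝ (TT0 h) := by group
      have e2 : (mapGL ℝ σ)⁻¹ * (mapGL ℝ σ * mapGL ℝ c' * (mapGL ℝ σ)⁻¹ *
          (mapGL ℝ σ * mapGL ℝ (TT0 (-uI i')) * HR ℓ i' * (mapGL ℝ σ)⁻¹)) * mapGL ℝ σ =
          mapGL ℝ c' * (mapGL ℝ (TT0 (-uI i')) * HR ℓ i') := by group
      rw [e1, e2] at h4
      exact h4
    apply map_cast_injective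
    rw [map_mul_cast, map_mul_cast, ← hs, ← hs, ← mapGL_coe, ← mapGL_coe, ← Units.val_mul,
      ← Units.val_mul, h3]
  have g00 := congrFun (congrFun h2 0) 0
  have g01 := congrFun (congrFun h2 0) 1
  have g10 := congrFun (congrFun h2 1) 0
  have g11 := congrFun (congrFun h2 1) 1
  have main : ∀ t : ℤ, c' 0 0 = 1 → c' 0 1 = t → c' 1 0 = 0 → c' 1 1 = 1 →
      c = σ * TT0 t * σ⁻¹ := by
    intro t a0 a1 a2 a3
    have e : c' = TT0 t := by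
      apply Subtype.ext
      rw [TT0_coe]
      refine Matrix.ext fun a b => ?_
      fin_cases a <;> fin_cases b
      · exact a0
      · exact a1
      · exact a2
      · exact a3
    rw [hcc, e]
  rcases hi1 : i.1 with _ | j
  · rcases hi2 : i' with _ | j'
    · rw [hi1, hi2, HS_none, TT0_coe] at g00 g01 g10 g11
      simp [Matrix.mul_apply, Fin.sum_univ_two] at g00 g01 g10 g11
      refine ⟨ℓ * h, main _ ?_ g01.symm ?_ ?_, ?_⟩
      · exact (mul_right_cancel₀ hℓ0 (by linear_combination -g00) : c' 0 0 = 1)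
      · exact g10.resolve_right hℓ.ne_zero
      · exact g11.symm
      · simp [uI]
    · rw [hi1, hi2, HS_none, HS_some, TT0_coe] at g00 g01 g10 g11
      simp [Matrix.mul_apply, Fin.sum_univ_two] at g00 g01 g10 g11
      exfalso
      rw [← g10, zero_mul, zero_add] at g11
      exact hℓ1 ⟨c' 1 1, by linear_combination g11⟩
  · rcases hi2 : i' with _ | j'
    · rw [hi1, hi2, HS_none, HS_some, TT0_coe] at g00 g01 g10 g11
      simp [Matrix.mul_apply, Fin.sum_univ_two] at g00 g01 g10 g11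
      exfalso
      exact hℓ1 ⟨c' 0 0, by linear_combination g00⟩
    · rw [hi1, hi2, HS_some, HS_some, TT0_coe] at g00 g01 g10 g11
      simp [Matrix.mul_apply, Fin.sum_univ_two] at g00 g01 g10 g11
      refine ⟨c' 0 1, main _ g00.symm rfl g10.symm ?_, ?_⟩
      · rw [← g10, zero_mul, zero_add] at g11
        exact (mul_right_cancel₀ hℓ0 (by linear_combination -g11) : c' 1 1 = 1)
      · simp only [uI, Option.elim_some, reduceCtorEq, if_false]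
        rw [← g00] at g01
        linear_combination -g01

theorem not_dvd_of_modEq (hℓ : ℓ.Prime) (hℓM : ℓ ≡ 1 [MOD M]) : ¬ ℓ ∣ M := by
  intro h
  have h1 : ℓ ≡ 1 [MOD ℓ] := hℓM.of_dvd h
  have h2 : ℓ ∣ 1 := (Nat.modEq_zero_iff_dvd.mp (h1.symm.trans (by simp [Nat.ModEq])))
  exact hℓ.one_lt.ne' (Nat.dvd_one.mp h2)

theorem TT0_zpow (h : ℤ) (n : ℤ) : TT0 h ^ n = TT0 (n * h) := by
  have hn : ∀ n : ℕ, TT0 h ^ n = TT0 (n * h) := by
    intro n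
    induction n with
    | zero => simp [TT0_zero]
    | succ n ih =>
      rw [pow_succ, ih, TT0_mul]
      congr 1
      push_cast
      ring
  obtain ⟨m, rfl | rfl⟩ := n.eq_nat_or_neg
  · rw [zpow_natCast, hn]
  · rw [zpow_neg, zpow_natCast, hn, inv_eq_iff_mul_eq_one, TT0_mul]
    rw [show (m : ℤ) * h + -(m : ℤ) * h = 0 by ring, TT0_zero]

theorem conj_zpow' (σ x : SL(2, ℤ)) (n : ℤ) : (σ * x * σ⁻¹) ^ n = σ * x ^ n * σ⁻¹ := by
  rw [conj_zpow]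

theorem sum_c_nreps (hℓ : ℓ.Prime) (hℓM : ℓ ≡ 1 [MOD M]) (σ : SL(2, ℤ)) (γ : Gamma0 M) (h : ℤ)
    (hγ : (γ : SL(2, ℤ)) = σ * TT0 h * σ⁻¹) {A : Type*} [AddCommGroup A] [IsAddTorsionFree A]
    (φ : Additive (Gamma0 M) →+ A) :
    hop M ⟨ℓ, hℓ⟩ φ (Additive.ofMul γ) = (1 + ℓ) • φ (Additive.ofMul γ) := by
  classical
  have hℓ0 : (ℓ : ℤ) ≠ 0 := by exact_mod_cast hℓ.ne_zero
  choose t ht ht' using c_nreps hℓ hℓM σ γ h hγ
  have hsum : ∑ i, t i = (1 + ℓ) * h := by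
    apply mul_left_cancel₀ hℓ0
    rw [Finset.mul_sum, Finset.sum_congr rfl fun i _ => ht' i, Finset.sum_add_distrib,
      ← Finset.sum_mul, Finset.sum_sub_distrib]
    have e1 : ∑ i, uI ((nreps M hℓ hℓM σ).σ γ i).1 = ∑ i : HI M ℓ, uI i.1 :=
      Equiv.sum_comp ((nreps M hℓ hℓM σ).perm γ) (fun i : HI M ℓ ↦ uI i.1)
    have e2 := sum_HI M ℓ (fun i : Option (Fin ℓ) => if i = none then (ℓ : ℤ) * (ℓ * h) else h)
    rw [e1, sub_self, zero_mul, add_zero, e2, if_neg (not_dvd_of_modEq hℓ hℓM)]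
    simp only [reduceCtorEq, if_false, if_true, Finset.sum_const, Finset.card_univ, Fintype.card_fin,
      nsmul_eq_mul]
    ring
  rw [hop_eq_nreps hℓ hℓM σ, Reps.op_apply]
  rcases eq_or_ne h 0 with h0 | h0
  · have hγ1 : γ = 1 := by
      apply Subtype.ext
      rw [hγ, h0, TT0_zero]
      simp
    subst hγ1
    simp [Reps.c_one]
  · have key : ∀ i, h • φ (Additive.ofMul ((nreps M hℓ hℓM σ).c γ i)) = t i • φ (Additive.ofMul γ) := by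
      intro i
      have e : (nreps M hℓ hℓM σ).c γ i ^ h = γ ^ t i := by
        apply Subtype.ext
        rw [Subgroup.coe_zpow, Subgroup.coe_zpow, ht i, hγ, conj_zpow', conj_zpow', TT0_zpow,
          TT0_zpow, mul_comm]
      rw [← map_zsmul φ, ← map_zsmul φ, ← ofMul_zpow, ← ofMul_zpow, e]
    have h1 : h • (∑ i, φ (Additive.ofMul ((nreps M hℓ hℓM σ).c γ i))) =
        h • ((1 + ℓ) • φ (Additive.ofMul γ)) := by
      rw [Finset.smul_sum, Finset.sum_congr rfl fun i _ => key i, ← Finset.sum_smul, hsum,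
        ← natCast_zsmul, smul_smul]
      congr 1
      push_cast
      ring
    exact (smul_right_injective A h0) h1

theorem map_neg_Gamma0 {A : Type*} [AddCommGroup A] [IsAddTorsionFree A]
    (φ : Additive (Gamma0 M) →+ A) (γ γ' : Gamma0 M) (h : (γ' : SL(2, ℤ)) = -(γ : SL(2, ℤ))) :
    φ (Additive.ofMul γ') = φ (Additive.ofMul γ) := by
  have h1 : γ' * γ' = γ * γ := by
    apply Subtype.ext
    rw [Subgroup.coe_mul, Subgroup.coe_mul, h, neg_mul_neg]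
  have h2 : (2 : ℕ) • φ (Additive.ofMul γ') = (2 : ℕ) • φ (Additive.ofMul γ) := by
    rw [two_nsmul, two_nsmul, ← map_add φ, ← map_add φ, ← ofMul_mul, ← ofMul_mul, h1]
  exact smul_right_injective A two_ne_zero h2

/-- **(P1)** for `ℓ ≡ 1` modulo the level, `T_ℓ - (1 + ℓ)` has parabolic values. -/
theorem isParabolicHom_hop_sub (hℓ : ℓ.Prime) (hℓM : ℓ ≡ 1 [MOD M]) {A : Type*} [AddCommGroup A]
    [IsAddTorsionFree A] (φ : Additive (Gamma0 M) →+ A) :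
    IsParabolicHom (Gamma0 M) (hop M ⟨ℓ, hℓ⟩ φ - (1 + ℓ) • φ) := by
  intro γ hγ
  rw [AddMonoidHom.sub_apply, AddMonoidHom.smul_apply, sub_eq_zero]
  obtain ⟨δ, hδ⟩ := exists_conj_lower_left_eq_zero (γ : SL(2, ℤ)) hγ
  set m : SL(2, ℤ) := δ⁻¹ * γ * δ with hm
  have hγm : (γ : SL(2, ℤ)) = δ * m * δ⁻¹ := by rw [hm]; group
  have hdet := m.det_coe
  rw [Matrix.det_fin_two, hδ, mul_zero, sub_zero] at hdet
  rcases Int.eq_one_or_neg_one_of_mul_eq_one hdet with h | h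
  · have h11 : m 1 1 = 1 := by rw [h] at hdet; linarith
    refine sum_c_nreps hℓ hℓM δ γ (m 0 1) ?_ φ
    rw [hγm]
    congr 2
    apply Subtype.ext
    rw [TT0_coe]
    refine Matrix.ext fun a b => ?_
    fin_cases a <;> fin_cases b
    · exact h
    · rfl
    · exact hδ
    · exact h11
  · have h11 : m 1 1 = -1 := by rw [h] at hdet; linarith
    have hmem : -(γ : SL(2, ℤ)) ∈ Gamma0 M := by
      rw [Gamma0_mem]
      have := Gamma0_mem.mp γ.2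
      simp [this]
    have e : ((⟨-(γ : SL(2, ℤ)), hmem⟩ : Gamma0 M) : SL(2, ℤ)) = δ * TT0 (-(m 0 1)) * δ⁻¹ := by
      have e1 : TT0 (-(m 0 1)) = -m := by
        apply Subtype.ext
        rw [TT0_coe, Matrix.SpecialLinearGroup.coe_neg]
        refine Matrix.ext fun a b => ?_
        fin_cases a <;> fin_cases b
        · simp [h]
        · simp
        · simp [hδ]
        · simp [h11]
      change -(γ : SL(2, ℤ)) = _
      rw [e1, hγm]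
      simp
    have h1 := sum_c_nreps hℓ hℓM δ ⟨-(γ : SL(2, ℤ)), hmem⟩ _ e φ
    rw [map_neg_Gamma0 φ γ _ rfl, map_neg_Gamma0 (hop M ⟨ℓ, hℓ⟩ φ) γ _ rfl] at h1
    exact h1

end Reps

end Fermat.Agent.TWMod
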