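import Fermat.Agent.TWMod.Ev

set_option autoImplicit false

/-!
# Localisation of twisted cohomology at a residual Hecke system
-/

open CongruenceSubgroup Fermat.Agent.Top MvPolynomial IsLocalRing
open scoped MatrixGroups TensorProduct

namespace Fermat.Agent.TWMod

section Finite

theorem finite_end {Λ : Type*} [CommRing Λ] [IsNoetherianRing Λ] (H : Type*) [AddCommGroup H]
    [Module Λ H] [Module.Finite Λ H] : Module.Finite Λ (Module.End Λ H) := by
  obtain ⟨n, s, hs⟩ := Module.Finite.exists_fin (R := Λ) (M := H)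
  let g : Module.End Λ H →ₗ[Λ] (Fin n → H) :=
    { toFun := fun f i ↦ f (s i)
      map_add' := fun f f' ↦ rfl
      map_smul' := fun r f ↦ rfl }
  refine Module.Finite.of_injective g ?_
  intro f f' h
  refine LinearMap.ext_on_range hs fun i ↦ ?_
  exact congrFun h i

theorem finite_H1 {Λ : Type*} [CommRing Λ] {Γ : Subgroup SL(2, ℤ)} [Γ.FiniteIndex] {κ : Γ →* Λ}
    (h : IsGood κ) (A : Type*) [AddCommGroup A] [Module Λ A] [Module.Finite Λ A] :
    Module.Finite Λ (H1 κ A) := by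
  obtain ⟨C⟩ := exists_csys Γ
  have : Finite (Quotient (QuotientGroup.rightRel Γ)) := by
    have e := QuotientGroup.quotientRightRelEquivQuotientLeftRel Γ
    have : Finite (SL(2, ℤ) ⧸ Γ) := inferInstance
    exact Finite.of_equiv _ e.symm
  exact Module.Finite.of_surjective (theta A h C) (theta_surjective h C)

end Finite

variable {Λ : Type} [CommRing Λ] [IsLocalRing Λ]
variable {N : ℕ} [NeZero N] (χ₁ χ₂ : DirichletCharacter Λ N) (S : Set ℕ)
variable (a : Pr S → ResidueField Λ)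

/-- the residual evaluation -/
noncomputable def resE : MvPolynomial (Pr S) Λ →+* ResidueField Λ :=
  eval₂Hom (residue Λ) a

@[simp] theorem resE_X (ℓ : Pr S) : resE S a (X ℓ) = a ℓ := eval₂Hom_X' _ _ _

@[simp] theorem resE_C (r : Λ) : resE S a (C r) = residue Λ r := eval₂Hom_C _ _ _

/-- A projector onto the local component. -/
structure IsProj (E : MvPolynomial (Pr S) Λ) : Prop where
  idem : ∀ χ ∈ ({χ₁, χ₂} : Set (DirichletCharacter Λ N)), ev χ S Λ (E * E) = ev χ S Λ E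
  res : resE S a E = 1
  unit : ∀ P, resE S a P ≠ 0 → ∃ Q, ∀ χ ∈ ({χ₁, χ₂} : Set (DirichletCharacter Λ N)),
    ev χ S Λ (Q * P * E) = ev χ S Λ E

theorem exists_isProj [IsNoetherianRing Λ] [IsAdicComplete (maximalIdeal Λ) Λ]
    (h2 : IsUnit (2 : Λ)) (h3 : Three Λ N)
    (ha : ∀ P, ev χ₁ S Λ P = 0 → ev χ₂ S Λ P = 0 → resE S a P = 0) :
    ∃ E, IsProj χ₁ χ₂ S a E := by
  have hf1 := finite_H1 (isGood_kap χ₁ h2 h3) Λ
  have hf2 := finite_H1 (isGood_kap χ₂ h2 h3) Λ
  have hf3 := finite_end (Λ := Λ) (H1 (kap χ₁) Λ)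
  have hf4 := finite_end (Λ := Λ) (H1 (kap χ₂) Λ)
  let Φ : MvPolynomial (Pr S) Λ →ₐ[Λ] Module.End Λ (H1 (kap χ₁) Λ) × Module.End Λ (H1 (kap χ₂) Λ) :=
    (ev χ₁ S Λ).prod (ev χ₂ S Λ)
  let J : Ideal (MvPolynomial (Pr S) Λ) := RingHom.ker Φ
  have hJ : ∀ P, P ∈ J ↔ ev χ₁ S Λ P = 0 ∧ ev χ₂ S Λ P = 0 := by
    intro P
    rw [RingHom.mem_ker]
    exact Prod.ext_iff
  have hfin : Module.Finite Λ (MvPolynomial (Pr S) Λ ⧸ J) :=
    Module.Finite.of_injective (Ideal.kerLiftAlg Φ).toLinearMap (Ideal.kerLiftAlg_injective Φ)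
  let 𝔪 : Ideal (MvPolynomial (Pr S) Λ ⧸ J) :=
    RingHom.ker (Ideal.Quotient.lift J (resE S a) (fun P hP ↦ ha P ((hJ P).mp hP).1 ((hJ P).mp hP).2))
  have hsurj : Function.Surjective
      (Ideal.Quotient.lift J (resE S a) (fun P hP ↦ ha P ((hJ P).mp hP).1 ((hJ P).mp hP).2)) := by
    intro x
    obtain ⟨r, rfl⟩ := residue_surjective x
    exact ⟨Ideal.Quotient.mk J (C r), by rw [Ideal.Quotient.lift_mk, resE_C]⟩
  have hmax : 𝔪.IsMaximal := RingHom.ker_isMaximal_of_surjective _ hsurj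
  obtain ⟨e, he1, he2, he3⟩ := exists_idempotent (Λ := Λ) (MvPolynomial (Pr S) Λ ⧸ J) 𝔪
  obtain ⟨E, rfl⟩ := Ideal.Quotient.mk_surjective e
  have key : ∀ P Q, (Ideal.Quotient.mk J P = Ideal.Quotient.mk J Q) →
      ∀ χ ∈ ({χ₁, χ₂} : Set (DirichletCharacter Λ N)), ev χ S Λ P = ev χ S Λ Q := by
    intro P Q h χ hχ
    rw [Ideal.Quotient.eq, hJ, map_sub, map_sub, sub_eq_zero, sub_eq_zero] at h
    rcases hχ with rfl | rfl
    · exact h.1
    · exact h.2
  refine ⟨E, ⟨key _ _ (by rw [map_mul]; exact he1), ?_, ?_⟩⟩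
  · rw [RingHom.mem_ker, map_sub, map_one, sub_eq_zero] at he2
    exact he2.symm
  · intro P hP
    obtain ⟨c, hc⟩ := he3 (Ideal.Quotient.mk J P) (by
      intro h
      rw [RingHom.mem_ker, Ideal.Quotient.lift_mk] at h
      exact hP h)
    obtain ⟨Q, rfl⟩ := Ideal.Quotient.mk_surjective c
    exact ⟨Q, key _ _ (by rw [map_mul, map_mul]; exact hc)⟩

section Proj

variable {χ₁ χ₂ S a} {E : MvPolynomial (Pr S) Λ} (hE : IsProj χ₁ χ₂ S a E)
  (h2 : IsUnit (2 : Λ)) (h3 : Three Λ N)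
  {χ : DirichletCharacter Λ N} (hχ : χ ∈ ({χ₁, χ₂} : Set (DirichletCharacter Λ N)))
  (A : Type*) [AddCommGroup A] [Module Λ A] {A' : Type*} [AddCommGroup A'] [Module Λ A']

/-- Transfer of identities from `Λ` to `A`. -/
theorem ev_congr (h2 : IsUnit (2 : Λ)) (h3 : Three Λ N) {P Q : MvPolynomial (Pr S) Λ}
    (h : ev χ S Λ P = ev χ S Λ Q) : ev χ S A P = ev χ S A Q := by
  rw [← sub_eq_zero, ← map_sub] at h ⊢
  exact ev_eq_zero_of χ S A h2 h3 h

/-- The local component. -/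
noncomputable def MM (χ : DirichletCharacter Λ N) (S : Set ℕ) (E : MvPolynomial (Pr S) Λ) :
    Submodule Λ (H1 (kap χ) A) :=
  LinearMap.range (ev χ S A E)

section Basic

include hE h2 h3 hχ

theorem IsProj.idemA (x : H1 (kap χ) A) : ev χ S A E (ev χ S A E x) = ev χ S A E x := by
  have h := ev_congr (χ := χ) A h2 h3 (hE.idem χ hχ)
  rw [map_mul] at h
  exact LinearMap.congr_fun h x

theorem IsProj.eq_of_mem {x : H1 (kap χ) A} (hx : x ∈ MM A χ S E) : ev χ S A E x = x := by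
  obtain ⟨y, rfl⟩ := hx
  exact hE.idemA h2 h3 hχ A y

theorem IsProj.mem_iff {x : H1 (kap χ) A} : x ∈ MM A χ S E ↔ ev χ S A E x = x :=
  ⟨hE.eq_of_mem h2 h3 hχ A, fun h ↦ ⟨x, h⟩⟩

/-- Hecke polynomials with nonzero residue act invertibly on the local component. -/
theorem IsProj.exists_inv {P : MvPolynomial (Pr S) Λ} (hP : resE S a P ≠ 0) :
    ∃ Q, ∀ x ∈ MM A χ S E, ev χ S A Q (ev χ S A P x) = x := by
  obtain ⟨Q, hQ⟩ := hE.unit P hP
  refine ⟨Q, fun x hx ↦ ?_⟩
  have h := ev_congr (χ := χ) A h2 h3 (hQ χ hχ)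
  have h' := LinearMap.congr_fun h x
  rw [map_mul, map_mul, Module.End.mul_apply, Module.End.mul_apply, hE.eq_of_mem h2 h3 hχ A hx] at h'
  exact h'

omit [IsLocalRing Λ] hE h2 h3 hχ in
theorem ev_mem_MM (P : MvPolynomial (Pr S) Λ) {x : H1 (kap χ) A} (hx : x ∈ MM A χ S E) :
    ev χ S A P x ∈ MM A χ S E := by
  obtain ⟨y, rfl⟩ := hx
  refine ⟨ev χ S A P y, ?_⟩
  rw [← Module.End.mul_apply, ← Module.End.mul_apply, ← map_mul, ← map_mul, mul_comm]

end Basic

/-- the inclusion -/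
noncomputable def incM (χ : DirichletCharacter Λ N) (S : Set ℕ) (E : MvPolynomial (Pr S) Λ) :
    MM Λ χ S E →ₗ[Λ] H1 (kap χ) Λ := (MM Λ χ S E).subtype

/-- the projection -/
noncomputable def prM (χ : DirichletCharacter Λ N) (S : Set ℕ) (E : MvPolynomial (Pr S) Λ) :
    H1 (kap χ) Λ →ₗ[Λ] MM Λ χ S E := (ev χ S Λ E).rangeRestrict

theorem inc_pr : (incM χ S E).comp (prM χ S E) = ev χ S Λ E := rfl

section

include hE h2 h3 hχ

theorem pr_inc : (prM χ S E).comp (incM χ S E) = LinearMap.id := by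
  refine LinearMap.ext fun x ↦ Subtype.ext ?_
  exact hE.eq_of_mem h2 h3 hχ Λ x.2

theorem inc_rTensor_injective : Function.Injective (LinearMap.rTensor A (incM χ S E)) := by
  intro x y h
  have h' := congrArg (LinearMap.rTensor A (prM χ S E)) h
  rw [← LinearMap.rTensor_comp_apply, ← LinearMap.rTensor_comp_apply, pr_inc hE h2 h3 hχ,
    LinearMap.rTensor_id_apply, LinearMap.rTensor_id_apply] at h'
  exact h'

/-- base change for the local component -/
noncomputable def tauM (χ : DirichletCharacter Λ N) (S : Set ℕ) (E : MvPolynomial (Pr S) Λ) :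
    MM Λ χ S E ⊗[Λ] A →ₗ[Λ] H1 (kap χ) A :=
  (tau (kap χ) A).comp (LinearMap.rTensor A (incM χ S E))

theorem tauM_injective : Function.Injective (tauM A χ S E) :=
  (tau_bijective (A := A) (isGood_kap χ h2 h3)).1.comp (inc_rTensor_injective hE h2 h3 hχ A)

omit hE h2 h3 hχ in
theorem rT_inc_pr : (LinearMap.rTensor A (incM χ S E)).comp (LinearMap.rTensor A (prM χ S E)) =
    LinearMap.rTensor A (ev χ S Λ E) := by
  rw [← LinearMap.rTensor_comp, inc_pr]

theorem rT_ev_inc : (LinearMap.rTensor A (ev χ S Λ E)).comp (LinearMap.rTensor A (incM χ S E)) =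
    LinearMap.rTensor A (incM χ S E) := by
  rw [← LinearMap.rTensor_comp, ← inc_pr, LinearMap.comp_assoc, pr_inc hE h2 h3 hχ,
    LinearMap.comp_id]

theorem range_tauM : LinearMap.range (tauM A χ S E) = MM A χ S E := by
  apply le_antisymm
  · rintro _ ⟨t, rfl⟩
    rw [hE.mem_iff h2 h3 hχ A, tauM, LinearMap.comp_apply, ev_tau]
    exact congrArg _ (LinearMap.congr_fun (rT_ev_inc hE h2 h3 hχ A) t)
  · rintro _ ⟨y, rfl⟩
    obtain ⟨t, rfl⟩ := (tau_bijective (A := A) (isGood_kap χ h2 h3)).2 y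
    refine ⟨LinearMap.rTensor A (prM χ S E) t, ?_⟩
    rw [tauM, LinearMap.comp_apply, ev_tau]
    exact congrArg _ (LinearMap.congr_fun (rT_inc_pr (χ := χ) (S := S) (E := E) A) t)

/-- base change for the local component, as an equivalence -/
noncomputable def tauE : MM Λ χ S E ⊗[Λ] A ≃ₗ[Λ] MM A χ S E :=
  (LinearEquiv.ofInjective (tauM A χ S E) (tauM_injective hE h2 h3 hχ A)).trans
    (LinearEquiv.ofEq _ _ (range_tauM hE h2 h3 hχ A))

theorem coe_tauE (t : MM Λ χ S E ⊗[Λ] A) :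
    ((tauE hE h2 h3 hχ A t : MM A χ S E) : H1 (kap χ) A) = tauM A χ S E t := rfl

end

section Free

variable [IsNoetherianRing Λ]

include hE h2 h3 hχ

/-- **Freeness of the local component.** -/
theorem free_MM (hS : ∀ q : ℕ, q.Prime → q ∣ N → q ∈ S) {ℓ : Pr S}
    (hℓ : a ℓ ≠ residue Λ (eis χ S ℓ)) : Module.Free Λ (MM Λ χ S E) := by
  have hf := finite_H1 (isGood_kap χ h2 h3) Λ
  have : Module.FinitePresentation Λ (MM Λ χ S E) := Module.finitePresentation_of_finite Λ _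
  refine Module.free_of_maximalIdeal_rTensor_injective ?_
  rw [← LinearMap.lTensor_inj_iff_rTensor_inj, injective_iff_map_eq_zero]
  intro t ht
  have hx : mapH (maximalIdeal Λ).subtype (tauM (maximalIdeal Λ) χ S E t) = 0 := by
    rw [tauM, LinearMap.comp_apply, tau_naturality, ← LinearMap.comp_apply (LinearMap.lTensor _ _),
      LinearMap.lTensor_comp_rTensor, ← LinearMap.rTensor_comp_lTensor, LinearMap.comp_apply, ht,
      map_zero, map_zero]
  have h1 : tauM (maximalIdeal Λ) χ S E t ∈ MM (maximalIdeal Λ) χ S E := by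
    rw [← range_tauM hE h2 h3 hχ]
    exact ⟨t, rfl⟩
  have h3' : ev χ S (maximalIdeal Λ) (X ℓ - C (eis χ S ℓ)) (tauM (maximalIdeal Λ) χ S E t) = 0 := by
    rw [map_sub, LinearMap.sub_apply, ev_X, ev_C_apply,
      hkE_of_mapH_eq_zero χ S hS (Subtype.val_injective) hx ℓ, sub_self]
  obtain ⟨Q, hQ⟩ := hE.exists_inv h2 h3 hχ (maximalIdeal Λ) (P := X ℓ - C (eis χ S ℓ)) (by
    rw [map_sub, resE_X, resE_C, sub_ne_zero]
    exact hℓ)
  have h4 := hQ _ h1
  rw [h3', map_zero] at h4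
  exact (injective_iff_map_eq_zero _).mp (tauM_injective hE h2 h3 hχ (maximalIdeal Λ)) t h4.symm

end Free

end Proj

end Fermat.Agent.TWMod
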