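import Fermat.Agent.TWMod.Gamma0
import Fermat.Prelude.Def_CuspForm_Newforms

set_option autoImplicit false

/-!
# Specification of block A2 / A5 (twisting operators), to be proved

Conventions: `H1 (kap χ) ℂ` is the twisted cohomology of `Γ₀(N)` for a Dirichlet character `χ`
modulo `N` (the nebentypus is `χ²`), `hk χ ℂ hℓ` the (normalised) Hecke operator at `ℓ ∤ N`.
-/

open CongruenceSubgroup Fermat.Agent.Top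
open scoped MatrixGroups

namespace Fermat.Agent.TWMod

/-- `χ` modulo `N` has conductor `c`, squarefree, prime to `6 N / c`, and `χ²` is ramified at every
prime dividing `c`. -/
structure TwHyp (N c : ℕ) (χ : DirichletCharacter ℂ N) : Prop where
  pos : 0 < N
  dvd : c ∣ N
  sqf : Squarefree c
  cop : Nat.Coprime c (N / c)
  six : Nat.Coprime c 6
  fac : χ.FactorsThrough c
  ram : ∀ q : ℕ, q.Prime → q ∣ c → ∃ u : ℕ, Nat.Coprime u N ∧ u ≡ 1 [MOD N / q] ∧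
    χ (u : ZMod N) ^ 2 ≠ 1

/-- `x` is an eigenvector with eigenvalues `a ℓ` at the primes `ℓ ∉ S` -/
def IsEig {N : ℕ} (χ : DirichletCharacter ℂ N) (S : Finset ℕ) (a : ℕ → ℂ) (x : H1 (kap χ) ℂ) : Prop :=
  ∀ (ℓ : ℕ) (hℓ : ℓ.Prime), ℓ ∉ S → hk χ ℂ hℓ x = a ℓ • x

/-- The eigensystem is not Eisenstein (in a strong sense). -/
def NonEis (S : Finset ℕ) (a : ℕ → ℂ) : Prop :=
  ∀ M : ℕ, 0 < M → ∃ ℓ : ℕ, ℓ.Prime ∧ ℓ ∉ S ∧ ℓ ≡ 1 [MOD M] ∧ a ℓ ≠ 1 + ℓ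

/-- (A2a): the twist operator. -/
def SpecTwist : Prop := ∀ (N c : ℕ) (χ : DirichletCharacter ℂ N), TwHyp N c χ →
  ∃ tw : H1 (kap χ) ℂ →ₗ[ℂ] (Additive (Gamma0 (N * c)) →+ ℂ), Function.Injective tw ∧
    ∀ (ℓ : ℕ) (hℓ : ℓ.Prime), ¬ ℓ ∣ N → ∀ x, tw (hk χ ℂ hℓ x) = hop (N * c) ⟨ℓ, hℓ⟩ (tw x)

/-- (A2c): every (non-Eisenstein) eigensystem in `H1 (kap χ) ℂ` is that of a newform whose level
divides `N c` and is divisible by `q²` for every prime `q ∣ c`. -/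
def SpecNew : Prop := ∀ (N c : ℕ) (χ : DirichletCharacter ℂ N), TwHyp N c χ →
  ∀ (S : Finset ℕ), (∀ q : ℕ, q.Prime → q ∣ N → q ∈ S) → ∀ (a : ℕ → ℂ), NonEis S a →
  ∀ x : H1 (kap χ) ℂ, x ≠ 0 → IsEig χ S a x →
  ∃ (M : ℕ) (_ : NeZero M) (g : CuspForm (Gamma0 M) 2), M ∣ N * c ∧ g.IsNewform ∧
    (∀ ℓ : ℕ, ℓ.Prime → ℓ ∉ S → ModularFormClass.qCoeff g ℓ = a ℓ) ∧
    ∀ q : ℕ, q.Prime → q ∣ c → q ^ 2 ∣ M

/-- (A5): lowering an auxiliary prime exactly dividing the level, outside the conductor of `χ`. -/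
def SpecLower : Prop := ∀ (N q c : ℕ) (χ : DirichletCharacter ℂ (N * q)) (χ₀ : DirichletCharacter ℂ N),
  TwHyp (N * q) c χ → q.Prime → ¬ q ∣ N →
  (∀ u : ℕ, Nat.Coprime u (N * q) → χ (u : ZMod (N * q)) = χ₀ (u : ZMod N)) →
  ∀ (S : Finset ℕ), (∀ l : ℕ, l.Prime → l ∣ N * q → l ∈ S) → ∀ (a : ℕ → ℂ), NonEis S a →
  ∀ x : H1 (kap χ) ℂ, x ≠ 0 → IsEig χ S a x →
  ∀ (M : ℕ) (_ : NeZero M) (g : CuspForm (Gamma0 M) 2), g.IsNewform →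
    (∀ ℓ : ℕ, ℓ.Prime → ℓ ∉ S → ModularFormClass.qCoeff g ℓ = a ℓ) → ¬ q ∣ M →
  ∃ y : H1 (kap χ₀) ℂ, y ≠ 0 ∧ IsEig χ₀ S a y

/-- (SS): semisimplicity of the non-Eisenstein part. -/
def SpecSS : Prop := ∀ (N c : ℕ) (χ : DirichletCharacter ℂ N), TwHyp N c χ →
  ∀ (S : Finset ℕ), (∀ q : ℕ, q.Prime → q ∣ N → q ∈ S) →
  ∀ W : Submodule ℂ (H1 (kap χ) ℂ),
    (∀ (ℓ : ℕ) (hℓ : ℓ.Prime), ℓ ∉ S → ∀ x ∈ W, hk χ ℂ hℓ x ∈ W) →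
    (∃ (ℓ : ℕ) (hℓ : ℓ.Prime), ℓ ∉ S ∧ ℓ ≡ 1 [MOD N * c] ∧
      ∀ x ∈ W, hk χ ℂ hℓ x = (1 + ℓ : ℂ) • x → x = 0) →
  W = Submodule.span ℂ {x | x ∈ W ∧ ∃ a : ℕ → ℂ, IsEig χ S a x}

end Fermat.Agent.TWMod
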