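import Mathlib
import Fermat.Prelude.Thm_Algebra_finite_maximalSpectrum_and_bijective_localization_of_module_finite

set_option autoImplicit false

/-!
# Idempotents of finite algebras over complete local rings
-/

namespace Fermat.Agent.TWMod

open IsLocalRing

theorem exists_idempotent {Λ : Type} [CommRing Λ] [IsLocalRing Λ] [IsNoetherianRing Λ]
    [IsAdicComplete (maximalIdeal Λ) Λ] (B : Type) [CommRing B] [Algebra Λ B] [Module.Finite Λ B]
    (𝔪 : Ideal B) [h𝔪 : 𝔪.IsMaximal] :
    ∃ e : B, e * e = e ∧ 1 - e ∈ 𝔪 ∧ ∀ b ∉ 𝔪, ∃ c, c * b * e = e := by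
  classical
  obtain ⟨-, hbij, -, -⟩ :=
    Algebra.finite_maximalSpectrum_and_bijective_localization_of_module_finite (𝒪 := Λ) B
  set I0 : MaximalSpectrum B := ⟨𝔪, h𝔪⟩ with hI0
  set Φ := RingHom.pi fun I : MaximalSpectrum B => algebraMap B (Localization.AtPrime I.asIdeal)
    with hΦ
  have hΦa : ∀ (b : B) (I : MaximalSpectrum B), Φ b I = algebraMap B _ b := fun b I ↦ rfl
  obtain ⟨e, he⟩ := hbij.2 (Pi.single I0 1)
  refine ⟨e, ?_, ?_, ?_⟩
  · apply hbij.1
    rw [map_mul]
    change Φ e * Φ e = Φ e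
    have he' : Φ e = Pi.single I0 1 := he
    rw [he']
    funext I
    by_cases hI : I = I0
    · subst hI; simp
    · simp [Pi.single_eq_of_ne hI]
  · have h1 : algebraMap B (Localization.AtPrime 𝔪) (1 - e) = 0 := by
      have h2 := congrFun he I0
      rw [Pi.single_eq_same] at h2
      rw [map_sub, map_one]
      have h3 : algebraMap B (Localization.AtPrime 𝔪) e = 1 := h2
      rw [h3, sub_self]
    by_contra h4
    have h5 := IsLocalization.map_units (Localization.AtPrime 𝔪)
      (⟨1 - e, h4⟩ : 𝔪.primeCompl)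
    change IsUnit (algebraMap B (Localization.AtPrime 𝔪) (1 - e)) at h5
    rw [h1] at h5
    exact not_isUnit_zero h5
  · intro b hb
    have h5 := IsLocalization.map_units (Localization.AtPrime 𝔪) (⟨b, hb⟩ : 𝔪.primeCompl)
    obtain ⟨u, hu⟩ := h5
    obtain ⟨c, hc⟩ := hbij.2 (Pi.single I0 (↑u⁻¹ : Localization.AtPrime 𝔪))
    have hc' : Φ c = Pi.single I0 (↑u⁻¹ : Localization.AtPrime 𝔪) := hc
    have he' : Φ e = Pi.single I0 1 := he
    refine ⟨c, ?_⟩
    apply hbij.1
    change Φ (c * b * e) = Φ e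
    rw [map_mul, map_mul, hc', he']
    funext I
    by_cases hI : I = I0
    · subst hI
      rw [Pi.mul_apply, Pi.mul_apply, Pi.single_eq_same, Pi.single_eq_same, mul_one, hΦa]
      have hu' : (u : Localization.AtPrime 𝔪) = algebraMap B _ b := hu
      exact (by rw [← hu']; exact Units.inv_mul u)
    · simp [Pi.single_eq_of_ne hI]

end Fermat.Agent.TWMod
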