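import Fermat.Agent.TWMod.Spec
import Fermat.Agent.TWMod.LocalPart
import Fermat.Agent.TWMod.ParEis
import Fermat.Agent.QComp.LevelPar

set_option autoImplicit false

/-!
# Semisimplicity of the non-Eisenstein part
-/

open CongruenceSubgroup Fermat.Agent.Top ModularCurve.Period Fermat.Agent.Period
  Fermat.Agent.Petersson Fermat.Agent.Eigenform CuspForm ModularFormClass Fermat.Agent.Newform
open scoped MatrixGroups

namespace Fermat.Agent.TWMod

section LinAlg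

variable {V : Type*} [AddCommGroup V] [Module ℂ V]

theorem maxGenEigenspace_eq_of (T : Module.End ℂ V) (μ : ℂ)
    (key : ∀ x : V, (T - μ • 1) ((T - μ • 1) x) = 0 → (T - μ • 1) x = 0) :
    T.maxGenEigenspace μ = T.eigenspace μ := by
  apply le_antisymm
  · intro f hf
    rw [Module.End.mem_maxGenEigenspace] at hf
    obtain ⟨k, hk⟩ := hf
    rw [Module.End.mem_eigenspace_iff]
    induction k with
    | zero =>
      rw [pow_zero, Module.End.one_apply] at hk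
      rw [hk, map_zero, smul_zero]
    | succ n ih =>
      rcases n with _ | n
      · rw [zero_add, pow_one, LinearMap.sub_apply, LinearMap.smul_apply, Module.End.one_apply,
          sub_eq_zero] at hk
        exact hk
      · apply ih
        rw [pow_succ', pow_succ', Module.End.mul_apply, Module.End.mul_apply] at hk
        rw [pow_succ', Module.End.mul_apply]
        exact key _ hk
  · intro f hf
    rw [Module.End.mem_eigenspace_iff] at hf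
    rw [Module.End.mem_maxGenEigenspace]
    exact ⟨1, by rw [pow_one, LinearMap.sub_apply, LinearMap.smul_apply, Module.End.one_apply,
      hf, sub_self]⟩

theorem iSup_iInf_eigenspace_of [FiniteDimensional ℂ V] {ι : Type*} (T : ι → Module.End ℂ V)
    (hcomm : ∀ i j, Commute (T i) (T j))
    (key : ∀ (i : ι) (μ : ℂ) (x : V), (T i - μ • 1) ((T i - μ • 1) x) = 0 → (T i - μ • 1) x = 0) :
    ⨆ a : ι → ℂ, ⨅ i, (T i).eigenspace (a i) = ⊤ := by
  have h1 := Module.End.iSup_iInf_maxGenEigenspace_eq_top_of_iSup_maxGenEigenspace_eq_top_of_commute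
    T (fun i j _ => hcomm i j) (fun i => Module.End.iSup_maxGenEigenspace_eq_top _)
  rw [← h1]
  exact iSup_congr fun a => iInf_congr fun i => (maxGenEigenspace_eq_of _ _ (key i _)).symm

end LinAlg

section ParSS

local notation "conjA" => ((starRingEnd ℂ : ℂ →+* ℂ) : ℂ →+ ℂ)

theorem hop_sub_period_add {M : ℕ} [NeZero M] (ℓ : Nat.Primes) (μ : ℂ) (F G : CuspForm (Gamma0 M) 2) :
    hop M ℓ (periodLin M F + AddMonoidHom.comp conjA (periodLin M G)) -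
      μ • (periodLin M F + AddMonoidHom.comp conjA (periodLin M G)) =
    periodLin M ((hOp M ℓ - μ • (1 : Module.End ℂ (CuspForm (Gamma0 M) 2))) F) +
      AddMonoidHom.comp conjA (periodLin M
        ((hOp M ℓ - (starRingEnd ℂ) μ • (1 : Module.End ℂ (CuspForm (Gamma0 M) 2))) G)) := by
  have e : AddMonoidHom.comp conjA (periodLin M
      ((hOp M ℓ - (starRingEnd ℂ) μ • (1 : Module.End ℂ (CuspForm (Gamma0 M) 2))) G)) =
      AddMonoidHom.comp conjA (hop M ℓ (periodLin M G)) -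
        μ • AddMonoidHom.comp conjA (periodLin M G) := by
    rw [LinearMap.sub_apply, LinearMap.smul_apply, Module.End.one_apply, map_sub, map_smul,
      QComp.periodLin_hOp]
    refine AddMonoidHom.ext fun γ => ?_
    change (starRingEnd ℂ) (hop M ℓ (periodLin M G) γ - (starRingEnd ℂ) μ * periodLin M G γ) =
      (starRingEnd ℂ) (hop M ℓ (periodLin M G) γ) - μ * (starRingEnd ℂ) (periodLin M G γ)
    rw [map_sub, map_mul, Complex.conj_conj]
  rw [e, LinearMap.sub_apply, LinearMap.smul_apply, Module.End.one_apply, map_sub, map_smul,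
    QComp.periodLin_hOp, map_add, QComp.hop_conj_comp, smul_add]
  abel

/-- **(P2)** the Hecke operators are semisimple on parabolic homomorphisms. -/
theorem hop_semisimple {M : ℕ} [NeZero M] (ℓ : Nat.Primes) (hℓ : ¬ (ℓ : ℕ) ∣ M) (μ : ℂ)
    {ψ : Additive (Gamma0 M) →+ ℂ} (hψ : IsParabolicHom (Gamma0 M) ψ)
    (h : hop M ℓ (hop M ℓ ψ - μ • ψ) - μ • (hop M ℓ ψ - μ • ψ) = 0) :
    hop M ℓ ψ - μ • ψ = 0 := by
  obtain ⟨F, G, rfl⟩ := QComp.exists_period_conj_period hψ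
  rw [hop_sub_period_add, hop_sub_period_add] at h
  obtain ⟨h1, h2⟩ := QComp.eq_zero_of_period_add_conj _ _ h
  have h3 := (isSym_hOp hℓ).eq_zero_of_sub_sq h1
  have h4 := (isSym_hOp hℓ).eq_zero_of_sub_sq h2
  rw [hop_sub_period_add, h3, h4, map_zero, AddMonoidHom.comp_zero, add_zero]

end ParSS

/-- **(SS)** -/
theorem specSS (hT : SpecTwist) : SpecSS := by
  intro N c χ hχ S hS W hW hex
  obtain ⟨tw, htw, hop_tw⟩ := hT N c χ hχ
  have hN : NeZero N := ⟨hχ.pos.ne'⟩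
  have hc : c ≠ 0 := fun h => by
    have := hχ.dvd
    rw [h, zero_dvd_iff] at this
    exact hχ.pos.ne' this
  have hNc : NeZero (N * c) := ⟨mul_ne_zero hχ.pos.ne' hc⟩
  have hfin : FiniteDimensional ℂ (H1 (kap χ) ℂ) :=
    finite_H1 (isGood_kap χ (isUnit_iff_ne_zero.mpr two_ne_zero)
      (Or.inl (isUnit_iff_ne_zero.mpr three_ne_zero))) ℂ
  have hnd : ∀ ℓ : ℕ, ℓ.Prime → ℓ ∉ S → ¬ ℓ ∣ N := fun ℓ hℓ hℓS hd => hℓS (hS ℓ hℓ hd)
  have hnd' : ∀ ℓ : ℕ, ℓ.Prime → ℓ ∉ S → ¬ ℓ ∣ N * c := fun ℓ hℓ hℓS hd =>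
    (hℓ.dvd_mul.mp hd).elim (hnd ℓ hℓ hℓS) fun h => hnd ℓ hℓ hℓS (h.trans hχ.dvd)
  -- the restricted operators
  let T : {ℓ : Nat.Primes // (ℓ : ℕ) ∉ S} → Module.End ℂ W := fun ℓ =>
    (hk χ ℂ ℓ.1.2).restrict (hW ℓ.1.1 ℓ.1.2 ℓ.2)
  have hTc : ∀ (ℓ) (x : W), ((T ℓ x : W) : H1 (kap χ) ℂ) = hk χ ℂ ℓ.1.2 x := fun ℓ x => rfl
  -- the image is parabolic
  have hpar : ∀ x ∈ W, IsParabolicHom (Gamma0 (N * c)) (tw x) := by
    obtain ⟨ℓ, hℓ, hℓS, hmod, hinj⟩ := hex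
    let A : Module.End ℂ W := T ⟨⟨ℓ, hℓ⟩, hℓS⟩ - (1 + ℓ : ℂ) • 1
    have hA : Function.Injective A := by
      rw [injective_iff_map_eq_zero]
      intro x hx
      have h1 : hk χ ℂ hℓ x - (1 + ℓ : ℂ) • (x : H1 (kap χ) ℂ) = 0 := congrArg Subtype.val hx
      exact Subtype.ext (hinj x x.2 (sub_eq_zero.mp h1))
    have hA' : Function.Surjective A := LinearMap.surjective_of_injective hA
    intro x hx
    obtain ⟨y, hy⟩ := hA' ⟨x, hx⟩
    have h1 : hk χ ℂ hℓ y - (1 + ℓ : ℂ) • (y : H1 (kap χ) ℂ) = x := congrArg Subtype.val hy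
    rw [← h1, map_sub, map_smul, hop_tw ℓ hℓ (hnd ℓ hℓ hℓS)]
    have h2 := isParabolicHom_hop_sub hℓ hmod (tw (y : H1 (kap χ) ℂ))
    have e : ((1 + ℓ : ℂ)) • tw (y : H1 (kap χ) ℂ) = (1 + ℓ) • tw (y : H1 (kap χ) ℂ) := by
      rw [← Nat.cast_smul_eq_nsmul ℂ]
      push_cast
      rfl
    rw [e]
    exact h2
  -- semisimplicity
  have key : ∀ (ℓ) (μ : ℂ) (x : W), (T ℓ - μ • 1) ((T ℓ - μ • 1) x) = 0 → (T ℓ - μ • 1) x = 0 := by
    intro ℓ μ x hx
    have h1 : hk χ ℂ ℓ.1.2 (hk χ ℂ ℓ.1.2 x - μ • (x : H1 (kap χ) ℂ)) -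
        μ • (hk χ ℂ ℓ.1.2 x - μ • (x : H1 (kap χ) ℂ)) = 0 := congrArg Subtype.val hx
    have h2 := congrArg tw h1
    have hd := hnd ℓ.1.1 ℓ.1.2 ℓ.2
    rw [map_sub, map_smul, hop_tw ℓ.1.1 ℓ.1.2 hd, map_sub, map_smul, hop_tw ℓ.1.1 ℓ.1.2 hd,
      map_zero] at h2
    have h3 := hop_semisimple ℓ.1 (hnd' ℓ.1.1 ℓ.1.2 ℓ.2) μ (hpar x x.2) h2
    apply Subtype.ext
    apply htw
    change tw (hk χ ℂ ℓ.1.2 x - μ • (x : H1 (kap χ) ℂ)) = tw 0
    rw [map_sub, map_smul, hop_tw ℓ.1.1 ℓ.1.2 hd, map_zero]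
    exact h3
  have hcomm : ∀ i j, Commute (T i) (T j) := by
    intro i j
    refine LinearMap.ext fun x => Subtype.ext ?_
    exact hk_comm χ ℂ i.1.2 j.1.2 x
  have htop := iSup_iInf_eigenspace_of T hcomm key
  apply le_antisymm
  · intro x hx
    have h1 : (⟨x, hx⟩ : W) ∈ ⨆ a : {ℓ : Nat.Primes // (ℓ : ℕ) ∉ S} → ℂ,
        ⨅ ℓ, (T ℓ).eigenspace (a ℓ) := by rw [htop]; trivial
    have h2 : (⨆ a : {ℓ : Nat.Primes // (ℓ : ℕ) ∉ S} → ℂ, ⨅ ℓ, (T ℓ).eigenspace (a ℓ)) ≤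
        (Submodule.span ℂ {x | x ∈ W ∧ ∃ a : ℕ → ℂ, IsEig χ S a x}).comap W.subtype := by
      refine iSup_le fun a y hy => ?_
      rw [Submodule.mem_comap]
      refine Submodule.subset_span ⟨y.2, ?_⟩
      classical
      refine ⟨fun ℓ => if h : ∃ hℓ : ℓ.Prime, ℓ ∉ S then a ⟨⟨ℓ, h.choose⟩, h.choose_spec⟩ else 0, ?_⟩
      intro ℓ hℓ hℓS
      have h3 := (Submodule.mem_iInf _).mp hy ⟨⟨ℓ, hℓ⟩, hℓS⟩
      rw [Module.End.mem_eigenspace_iff] at h3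
      have h4 : hk χ ℂ hℓ y = a ⟨⟨ℓ, hℓ⟩, hℓS⟩ • (y : H1 (kap χ) ℂ) := congrArg Subtype.val h3
      have h5 : (if h : ∃ hℓ : ℓ.Prime, ℓ ∉ S then a ⟨⟨ℓ, h.choose⟩, h.choose_spec⟩ else 0) =
          a ⟨⟨ℓ, hℓ⟩, hℓS⟩ := dif_pos ⟨hℓ, hℓS⟩
      refine h4.trans ?_
      change _ = (if h : ∃ hℓ : ℓ.Prime, ℓ ∉ S then a ⟨⟨ℓ, h.choose⟩, h.choose_spec⟩ else 0) •
        (y : H1 (kap χ) ℂ)
      rw [h5]
    exact h2 h1
  · rw [Submodule.span_le]
    exact fun x hx => hx.1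

end Fermat.Agent.TWMod
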