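import Mathlib

set_option autoImplicit false

/-!
# Comparison of two actions of a cyclic `p`-group

`d` and `x` are elements of a local ring `T` acting on a module `M` which is "free over
`ℤ[d]/(d^{p^a} - 1)`".  If `x - 1` is divisible by `d - 1` and is injective on the part where `d` is
a primitive `p`-th root of unity, then `(x - 1) M = (d - 1) M`.
-/

open IsLocalRing

namespace Fermat.Agent.TWMod

/-- the cyclotomic argument in a domain -/
theorem isUnit_of_domain {D : Type*} [CommRing D] [IsDomain D] {p : ℕ} (hp : p.Prime)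
    (hpD : (p : D) ≠ 0) {d x u : D} (hd : ∑ k ∈ Finset.range p, d ^ k = 0) {a : ℕ}
    (hx : x ^ p ^ a = 1) (hx1 : x ≠ 1) (hu : x - 1 = (d - 1) * u) : IsUnit u := by
  have hd1 : d ≠ 1 := by
    rintro rfl
    apply hpD
    simpa using hd
  have hdp : d ^ p = 1 := by
    have h := mul_geom_sum d p
    rw [hd, mul_zero] at h
    exact (sub_eq_zero.mp h.symm)
  have hprim : IsPrimitiveRoot d p := by
    have h := orderOf_eq_prime hdp hd1 (hp := ⟨hp⟩)
    rw [← h]
    exact IsPrimitiveRoot.orderOf d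
  -- a power of `x` which is a nontrivial `p`-th root of unity
  have hy : ∃ c, x ^ p ^ c ≠ 1 ∧ (x ^ p ^ c) ^ p = 1 := by
    classical
    have hex : ∃ c, x ^ p ^ c = 1 := ⟨a, hx⟩
    have h1 := Nat.find_spec hex
    have h0 : Nat.find hex ≠ 0 := by
      intro h0
      rw [h0] at h1
      apply hx1
      simpa using h1
    obtain ⟨c, hc⟩ := Nat.exists_eq_succ_of_ne_zero h0
    refine ⟨c, Nat.find_min hex (by omega), ?_⟩
    rw [← pow_mul, ← pow_succ, ← Nat.succ_eq_add_one, ← hc]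
    exact h1
  obtain ⟨c, hc1, hcp⟩ := hy
  have : NeZero p := ⟨hp.ne_zero⟩
  obtain ⟨k, hk, hkx⟩ := hprim.eq_pow_of_pow_eq_one hcp
  have hk0 : k ≠ 0 := by
    rintro rfl
    exact hc1 (by rw [← hkx, pow_zero])
  have hcop : k.Coprime p := 
    ((hp.coprime_iff_not_dvd.2 (Nat.not_dvd_of_pos_of_lt (Nat.pos_of_ne_zero hk0) hk)).symm)
  have hunit := hprim.geom_sum_isUnit hp.two_le hcop
  have e1 : (d - 1) * ∑ i ∈ Finset.range k, d ^ i = (d - 1) * (u * ∑ i ∈ Finset.range (p ^ c), x ^ i) := by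
    rw [mul_geom_sum, hkx, ← mul_assoc, ← hu, mul_geom_sum]
  have e2 := mul_left_cancel₀ (sub_ne_zero.mpr hd1) e1
  rw [e2] at hunit
  exact isUnit_of_mul_isUnit_left hunit

/-- the cyclotomic argument in a commutative ring -/
theorem isUnit_of_commRing {B : Type*} [CommRing B] {p : ℕ} (hp : p.Prime)
    (hpB : ∀ y : B, (p : B) * y = 0 → y = 0) {d x u : B} (hd : ∑ k ∈ Finset.range p, d ^ k = 0)
    {a : ℕ} (hx : x ^ p ^ a = 1) (hx1 : ∀ y : B, (x - 1) * y = 0 → y = 0)
    (hu : x - 1 = (d - 1) * u) : IsUnit u := by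
  by_contra hnu
  obtain ⟨𝔫, h𝔫, hu𝔫⟩ := exists_max_ideal_of_mem_nonunits hnu
  have := h𝔫.isPrime
  obtain ⟨q, hq, hqn⟩ := Ideal.exists_minimalPrimes_le (I := (⊥ : Ideal B)) (J := 𝔫) bot_le
  have hqp : q.IsPrime := hq.1.1
  have key : ∀ z ∈ q, ¬ ∀ y : B, z * y = 0 → y = 0 := by
    intro z hz h
    obtain ⟨y, hy, hzy⟩ := Ideal.exists_mul_mem_of_mem_minimalPrimes hq hz
    exact hy (by rw [Ideal.mem_bot] at hzy ⊢; exact h y hzy)
  have hunit : IsUnit (Ideal.Quotient.mk q u) := by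
    refine isUnit_of_domain hp (D := B ⧸ q) ?_ (d := Ideal.Quotient.mk q d)
      (x := Ideal.Quotient.mk q x) ?_ (a := a) ?_ ?_ ?_
    · rw [← map_natCast (Ideal.Quotient.mk q), Ne, Ideal.Quotient.eq_zero_iff_mem]
      exact fun h ↦ key _ h hpB
    · rw [← map_zero (Ideal.Quotient.mk q), ← hd]
      simp
    · rw [← map_pow, hx, map_one]
    · intro h
      rw [← map_one (Ideal.Quotient.mk q), Ideal.Quotient.eq] at h
      exact key _ h hx1
    · rw [← map_one (Ideal.Quotient.mk q), ← map_sub, ← map_sub, ← map_mul, hu]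
  have h2 := hunit.map (Ideal.Quotient.factor hqn)
  rw [Ideal.Quotient.factor_mk, Ideal.Quotient.eq_zero_iff_mem.2 hu𝔫] at h2
  exact not_isUnit_zero h2

section Module

variable {T : Type*} [CommRing T] {M : Type*} [AddCommGroup M] [Module T M]

/-- the cyclotomic argument for endomorphisms -/
theorem surjective_of_endo {p : ℕ} (hp : p.Prime) (hpM : ∀ m : M, (p : T) • m = 0 → m = 0)
    {d x : T} (hd : ∀ m : M, (∑ k ∈ Finset.range p, d ^ k) • m = 0) {a : ℕ}
    (hx : x ^ p ^ a = 1) (hx1 : ∀ m : M, (x - 1) • m = 0 → m = 0) (u : Module.End T M)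
    (hu : ∀ m : M, (x - 1) • m = (d - 1) • u m) : Function.Surjective u := by
  let _ := Algebra.adjoinCommRingOfComm T (s := ({u} : Set (Module.End T M))) (by
    rintro _ rfl _ rfl
    rfl)
  let B := Algebra.adjoin T ({u} : Set (Module.End T M))
  have hB : ∀ y : B, (∀ m : M, (y : Module.End T M) m = 0) → y = 0 := fun y hy ↦
    Subtype.ext (LinearMap.ext hy)
  have hval : ∀ (t : T) (y : B) (m : M), ((algebraMap T B t * y : B) : Module.End T M) m =
      t • (y : Module.End T M) m := fun t y m ↦ rfl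
  let u' : B := ⟨u, Algebra.subset_adjoin rfl⟩
  have hunit : IsUnit u' := by
    refine isUnit_of_commRing hp (B := B) ?_ (d := algebraMap T B d) (x := algebraMap T B x)
      ?_ (a := a) ?_ ?_ ?_
    · intro y hy
      refine hB y fun m ↦ hpM _ ?_
      rw [← map_natCast (algebraMap T B)] at hy
      rw [← hval, hy]
      rfl
    · refine hB _ fun m ↦ ?_
      have e : (∑ k ∈ Finset.range p, algebraMap T B d ^ k : B) =
          algebraMap T B (∑ k ∈ Finset.range p, d ^ k) * 1 := by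
        rw [mul_one, map_sum]
        simp
      rw [e, hval]
      exact hd m
    · rw [← map_pow, hx, map_one]
    · intro y hy
      refine hB y fun m ↦ hx1 _ ?_
      rw [← map_one (algebraMap T B), ← map_sub] at hy
      rw [← hval, hy]
      rfl
    · refine sub_eq_zero.1 (hB _ fun m ↦ ?_)
      have e : (algebraMap T B x - 1 - (algebraMap T B d - 1) * u' : B) =
          algebraMap T B (x - 1) * 1 - algebraMap T B (d - 1) * u' := by
        rw [mul_one, map_sub, map_sub, map_one]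
      rw [e]
      change (x - 1) • m - (d - 1) • u m = 0
      rw [hu, sub_self]
  obtain ⟨v, hv⟩ := hunit
  intro m
  refine ⟨((v⁻¹ : Bˣ) : B).1 m, ?_⟩
  have h : (u' * ((v⁻¹ : Bˣ) : B) : B) = 1 := by rw [← hv, Units.mul_inv]
  exact LinearMap.congr_fun (congrArg Subtype.val h) m

/-- **Comparison theorem.** -/
theorem range_sub_one_eq [IsLocalRing T] [Module.Finite T M] {p : ℕ} (hp : p.Prime)
    (hpT : (p : T) ∈ maximalIdeal T) (hpM : ∀ m : M, (p : T) • m = 0 → m = 0)
    {d x : T} {a : ℕ} (hdm : d - 1 ∈ maximalIdeal T) (hd : d ^ p ^ (a + 1) = 1)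
    (hx : x ^ p ^ (a + 1) = 1)
    (hN : ∀ m : M, (∑ k ∈ Finset.range (p ^ (a + 1)), d ^ k) • m = 0 → ∃ m', m = (d - 1) • m')
    (hΨ : ∀ m : M, ((d - 1) * ∑ k ∈ Finset.range (p ^ a), (d ^ p) ^ k) • m = 0 →
      ∃ m', m = (∑ k ∈ Finset.range p, d ^ k) • m')
    (hF : ∀ m : M, (∑ k ∈ Finset.range p, d ^ k) • m = 0 →
      ∃ m', m = ((d - 1) * ∑ k ∈ Finset.range (p ^ a), (d ^ p) ^ k) • m')
    (h1 : ∀ m : M, (∑ k ∈ Finset.range (p ^ (a + 1)), d ^ k) • (x - 1) • m = 0)
    (h2 : ∀ m : M, (∑ k ∈ Finset.range p, d ^ k) • m = 0 → (x - 1) • m = 0 → m = 0) :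
    LinearMap.range (LinearMap.lsmul T M (x - 1)) = LinearMap.range (LinearMap.lsmul T M (d - 1)) := by
  set N : T := ∑ k ∈ Finset.range (p ^ (a + 1)), d ^ k with hNdef
  set F : T := ∑ k ∈ Finset.range p, d ^ k with hFdef
  set Ψ : T := (d - 1) * ∑ k ∈ Finset.range (p ^ a), (d ^ p) ^ k with hΨdef
  have hND : N * (d - 1) = 0 := by
    rw [mul_comm, hNdef, mul_geom_sum, hd, sub_self]
  have hFΨ : F * Ψ = 0 := by
    rw [hΨdef, ← mul_assoc, mul_comm F, hFdef, mul_geom_sum, mul_geom_sum, ← pow_mul, ← pow_succ',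
      hd, sub_self]
  -- (⊂)
  have hsub : ∀ m : M, ∃ m', (x - 1) • m = (d - 1) • m' := fun m ↦ hN _ (h1 m)
  -- the submodule killed by F
  let M' : Submodule T M := LinearMap.ker (LinearMap.lsmul T M F)
  have hM' : ∀ m, m ∈ M' ↔ F • m = 0 := fun m ↦ by
    rw [LinearMap.mem_ker]; rfl
  have hΨM : ∀ m : M, Ψ • m ∈ M' := fun m ↦ by rw [hM', smul_smul, hFΨ, zero_smul]
  -- `F m = 0 → m ∈ Ψ M`: using exactness twice
  have hFp : N * F = p * N := by
    have h3 : ∀ k, N * d ^ k = N := by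
      intro k
      induction k with
      | zero => rw [pow_zero, mul_one]
      | succ k ih => rw [pow_succ, ← mul_assoc, ih]; linear_combination hND
    rw [hFdef, Finset.mul_sum, Finset.sum_congr rfl fun k _ ↦ h3 k, Finset.sum_const,
      Finset.card_range, nsmul_eq_mul]
  -- `d - 1` is injective on `M'`
  have hFd : ∃ t : T, F = (p : T) + (d - 1) * t := by
    have h3 : ∀ k, ∃ t : T, d ^ k = 1 + (d - 1) * t := fun k ↦
      ⟨∑ i ∈ Finset.range k, d ^ i, by rw [mul_geom_sum]; ring⟩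
    choose t ht using h3
    refine ⟨∑ k ∈ Finset.range p, t k, ?_⟩
    rw [hFdef, Finset.sum_congr rfl fun k _ ↦ ht k, Finset.sum_add_distrib, Finset.sum_const,
      Finset.card_range, nsmul_eq_mul, mul_one, Finset.mul_sum]
  have hdinj : ∀ m : M, F • m = 0 → (d - 1) • m = 0 → m = 0 := by
    intro m hm1 hm2
    obtain ⟨t, ht⟩ := hFd
    apply hpM
    rw [ht, add_smul, mul_comm, mul_smul, hm2, smul_zero, add_zero] at hm1
    exact hm1
  let Dm : M' →ₗ[T] M' := (d - 1) • LinearMap.id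
  have hDm : ∀ m : M', ((Dm m : M') : M) = (d - 1) • (m : M) := fun m ↦ rfl
  have hDinj : Function.Injective Dm := by
    rw [injective_iff_map_eq_zero]
    intro m hm
    refine Subtype.ext (hdinj m ((hM' _).1 m.2) ?_)
    rw [← hDm, hm]
    rfl
  have hxr : ∀ m : M', (x - 1) • m ∈ LinearMap.range Dm := by
    rintro ⟨m, hm⟩
    obtain ⟨m', rfl⟩ := hF m ((hM' _).1 hm)
    obtain ⟨m₁, hm₁⟩ := hsub m'
    refine ⟨⟨Ψ • m₁, hΨM _⟩, Subtype.ext ?_⟩
    rw [hDm]
    change (d - 1) • Ψ • m₁ = (x - 1) • Ψ • m'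
    rw [smul_comm, ← hm₁, smul_comm]
  let u : Module.End T M' := ((LinearEquiv.ofInjective Dm hDinj).symm : _ →ₗ[T] M').comp
    (((x - 1) • (LinearMap.id : M' →ₗ[T] M')).codRestrict (LinearMap.range Dm) hxr)
  have hu : ∀ m : M', (x - 1) • m = (d - 1) • u m := by
    intro m
    have h3 : Dm (u m) = (x - 1) • m := by
      have h4 := LinearEquiv.apply_symm_apply (LinearEquiv.ofInjective Dm hDinj)
        ((((x - 1) • (LinearMap.id : M' →ₗ[T] M')).codRestrict (LinearMap.range Dm) hxr) m)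
      exact congrArg Subtype.val h4
    exact h3.symm
  have husurj : Function.Surjective u := by
    refine surjective_of_endo hp (M := M') ?_ (d := d) (x := x) ?_ hx ?_ u hu
    · intro m hm
      exact Subtype.ext (hpM _ (congrArg Subtype.val hm))
    · intro m
      exact Subtype.ext ((hM' _).1 m.2)
    · intro m hm
      exact Subtype.ext (h2 _ ((hM' _).1 m.2) (congrArg Subtype.val hm))
  -- (⊃) modulo the maximal ideal
  have hFm : F ∈ maximalIdeal T := by
    obtain ⟨t, ht⟩ := hFd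
    rw [ht]
    exact Ideal.add_mem _ hpT (Ideal.mul_mem_right _ _ hdm)
  set X := LinearMap.range (LinearMap.lsmul T M (x - 1)) with hX
  set Y := LinearMap.range (LinearMap.lsmul T M (d - 1)) with hY
  have hXY : X ≤ Y := by
    rintro _ ⟨m, rfl⟩
    obtain ⟨m', hm'⟩ := hsub m
    exact ⟨m', hm'.symm⟩
  refine le_antisymm hXY ?_
  have hYfg : Y.FG := by
    rw [hY, LinearMap.range_eq_map]
    exact Submodule.FG.map _ Module.Finite.fg_top
  refine Submodule.le_of_le_smul_of_le_jacobson_bot (I := maximalIdeal T) hYfg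
    (IsLocalRing.maximalIdeal_le_jacobson _) ?_
  rintro _ ⟨m, rfl⟩
  change (d - 1) • m ∈ X ⊔ maximalIdeal T • Y
  obtain ⟨m'', hm''⟩ := husurj ⟨Ψ • m, hΨM m⟩
  have h3 : (d - 1) • Ψ • m = (x - 1) • (m'' : M) := by
    have h4 := congrArg Subtype.val (hu m'')
    rw [hm''] at h4
    exact h4.symm
  obtain ⟨m₂, hm₂⟩ := hF (m'' : M) ((hM' _).1 m''.2)
  rw [hm₂] at h3
  obtain ⟨m₃, hm₃⟩ := hΨ ((d - 1) • m - (x - 1) • m₂) (by
    rw [smul_sub, smul_comm Ψ (d - 1) m, h3, smul_comm Ψ (x - 1) m₂, sub_self])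
  have h5 : N • m₃ = 0 := by
    apply hpM
    rw [smul_smul, ← hFp, mul_smul, ← hm₃, smul_sub, h1, sub_zero, smul_smul, hND, zero_smul]
  obtain ⟨m₄, hm₄⟩ := hN m₃ h5
  have h6 : (d - 1) • m = (x - 1) • m₂ + F • (d - 1) • m₄ := by
    rw [← hm₄, ← hm₃]
    abel
  rw [h6]
  exact Submodule.add_mem_sup ⟨m₂, rfl⟩ (Submodule.smul_mem_smul hFm ⟨m₄, rfl⟩)

end Module

end Fermat.Agent.TWMod
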