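import Fermat.Agent.TWMod.RightExact

set_option autoImplicit false

/-!
# Base change for twisted cohomology of finite index subgroups of `SL₂(ℤ)`
-/

open Matrix Matrix.SpecialLinearGroup ModularGroup
open scoped MatrixGroups TensorProduct

namespace Fermat.Agent.TWMod

open CSys

variable {Γ : Subgroup SL(2, ℤ)} {Λ : Type*} [CommRing Λ] {κ : Γ →* Λ}
  {A A' : Type*} [AddCommGroup A] [Module Λ A] [AddCommGroup A'] [Module Λ A']
  {X : Type*}

theorem ind_mul_apply {G : Type*} [Group G] {Γ : Subgroup G} {κ : Γ →* Λ} (C : CSys Γ X) (s t : G)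
    (v : X → A) : C.ind κ A (s * t) v = C.ind κ A s (C.ind κ A t v) := by
  rw [map_mul, Module.End.mul_apply]

theorem exists_theta (h : IsGood κ) (C : CSys Γ X) (v : X → A) :
    ∃ F : SL(2, ℤ) → X → A, IsCoc (C.ind κ A) F ∧ F S = v - C.ind κ A S v ∧ F UU = 0 := by
  obtain ⟨F, h1, h2, h3⟩ := exists_isCoc (h.ind_neg_one C) v (0 : X → A)
  exact ⟨F, h1, h2, by rw [h3, map_zero, sub_zero]⟩

/-- The cocycle attached to `v`. -/
noncomputable def thF (h : IsGood κ) (C : CSys Γ X) (v : X → A) : SL(2, ℤ) → X → A :=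
  (exists_theta h C v).choose

theorem isCoc_thF (h : IsGood κ) (C : CSys Γ X) (v : X → A) : IsCoc (C.ind κ A) (thF h C v) :=
  (exists_theta h C v).choose_spec.1

theorem thF_S (h : IsGood κ) (C : CSys Γ X) (v : X → A) : thF h C v S = v - C.ind κ A S v :=
  (exists_theta h C v).choose_spec.2.1

theorem thF_UU (h : IsGood κ) (C : CSys Γ X) (v : X → A) : thF h C v UU = 0 :=
  (exists_theta h C v).choose_spec.2.2

theorem thF_eq (h : IsGood κ) (C : CSys Γ X) (v : X → A) {F : SL(2, ℤ) → X → A}
    (hF : IsCoc (C.ind κ A) F) (h1 : F S = v - C.ind κ A S v) (h2 : F UU = 0) : thF h C v = F :=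
  (isCoc_thF h C v).ext hF (by rw [thF_S, h1]) (by rw [thF_UU, h2])

variable (A) in
/-- The class attached to `v`. -/
noncomputable def theta (h : IsGood κ) (C : CSys Γ X) : (X → A) →ₗ[Λ] H1 κ A where
  toFun v := cls κ A (C.down (isCoc_thF h C v))
  map_add' v w := by
    rw [← map_add]
    congr 1
    have e : thF h C (v + w) = thF h C v + thF h C w := by
      refine thF_eq h C _ ?_ ?_ ?_
      · intro s s'
        simp only [Pi.add_apply, isCoc_thF h C v s s', isCoc_thF h C w s s', map_add]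
        abel
      · rw [Pi.add_apply, thF_S, thF_S, map_add]; abel
      · rw [Pi.add_apply, thF_UU, thF_UU, add_zero]
    refine Subtype.ext (funext fun γ ↦ ?_)
    rw [down_apply, e]
    rfl
  map_smul' a v := by
    rw [RingHom.id_apply, ← map_smul]
    congr 1
    have e : thF h C (a • v) = a • thF h C v := by
      refine thF_eq h C _ ?_ ?_ ?_
      · intro s s'
        simp only [Pi.smul_apply, isCoc_thF h C v s s', map_smul, smul_add]
      · rw [Pi.smul_apply, thF_S, map_smul, smul_sub]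
      · rw [Pi.smul_apply, thF_UU, smul_zero]
    refine Subtype.ext (funext fun γ ↦ ?_)
    rw [down_apply, e]
    rfl

theorem theta_apply (h : IsGood κ) (C : CSys Γ X) (v : X → A) :
    theta A h C v = cls κ A (C.down (isCoc_thF h C v)) := rfl

theorem mapH_theta (h : IsGood κ) (C : CSys Γ X) (g : A →ₗ[Λ] A') (v : X → A) :
    mapH g (theta A h C v) = theta A' h C (CSys.mapV X g v) := by
  rw [theta_apply, theta_apply, mapH_cls]
  congr 1
  have e : thF h C (CSys.mapV X g v) = fun s ↦ CSys.mapV X g (thF h C v s) := by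
    refine thF_eq h C _ ?_ ?_ ?_
    · intro s s'
      simp only [isCoc_thF h C v s s', map_add, mapV_ind]
    · simp only [thF_S, map_sub, mapV_ind]
    · simp only [thF_UU, map_zero]
  refine Subtype.ext (funext fun γ ↦ ?_)
  rw [down_apply, e]
  rfl

theorem theta_surjective (h : IsGood κ) (C : CSys Γ X) :
    Function.Surjective (theta A h C) := by
  intro x
  obtain ⟨f, rfl⟩ := cls_surjective _ _ x
  have hF := C.isCoc_up f
  obtain ⟨v2, hv2⟩ := h.exists_UU C hF
  have hF' : IsCoc (C.ind κ A) (fun s ↦ C.up f s - (v2 - C.ind κ A s v2)) := by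
    intro s s'
    simp only [hF s s', map_sub, ind_mul_apply]
    abel
  obtain ⟨v, hv⟩ := hF'.exists_S (h.ind_neg_one C) h.two
  refine ⟨v, ?_⟩
  have e := thF_eq h C v hF' hv (by rw [hv2, sub_self])
  rw [theta_apply, cls_eq_iff]
  refine ⟨v2 C.x0, Subtype.ext (funext fun γ ↦ ?_)⟩
  rw [dB_apply, Submodule.coe_sub, Pi.sub_apply, down_apply, e]
  simp only [Pi.sub_apply, ind_apply, C.c_x0, C.σ_x0, up]
  abel

theorem theta_S (h : IsGood κ) (C : CSys Γ X) (v : X → A) :
    theta A h C (v + C.ind κ A S v) = 0 := by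
  have e : thF h C (v + C.ind κ A S v) = 0 := by
    refine thF_eq h C _ ?_ ?_ ?_
    · intro s s'
      simp
    · rw [map_add, ← ind_mul_apply, S_sq, h.ind_neg_one, Module.End.one_apply, Pi.zero_apply]
      abel
    · rfl
  rw [theta_apply, cls_eq_zero_iff]
  refine ⟨0, Subtype.ext (funext fun γ ↦ ?_)⟩
  rw [down_apply, e, dB_apply]
  simp

theorem theta_UU (h : IsGood κ) (C : CSys Γ X) (v : X → A) :
    theta A h C (v + C.ind κ A UU v + C.ind κ A (UU * UU) v) = 0 := by
  set w := v + C.ind κ A UU v + C.ind κ A (UU * UU) v with hw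
  have hinv : C.ind κ A UU w = w := by
    rw [hw, map_add, map_add, ← ind_mul_apply, ← ind_mul_apply, ← mul_assoc, UU_cube,
      h.ind_neg_one, Module.End.one_apply]
    abel
  have e : thF h C w = fun s ↦ w - C.ind κ A s w := by
    refine thF_eq h C _ ?_ rfl ?_
    · intro s s'
      simp only [map_sub, ind_mul_apply]
      abel
    · rw [hinv, sub_self]
  rw [theta_apply, cls_eq_zero_iff]
  refine ⟨- w C.x0, Subtype.ext (funext fun γ ↦ ?_)⟩
  rw [down_apply, e, dB_apply]
  simp only [Pi.sub_apply, ind_apply, C.c_x0, C.σ_x0, smul_neg]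
  abel

theorem exists_of_theta_eq_zero (h : IsGood κ) (C : CSys Γ X) {v : X → A}
    (hv : theta A h C v = 0) : ∃ v1 v2 : X → A, v = (v1 + C.ind κ A S v1) +
      (v2 + C.ind κ A UU v2 + C.ind κ A (UU * UU) v2) := by
  rw [theta_apply, cls_eq_zero_iff] at hv
  obtain ⟨a, ha⟩ := hv
  obtain ⟨b, hb⟩ := C.exists_of_down _ ha
  have h1 := hb S
  have h2 := hb UU
  rw [thF_S] at h1
  rw [thF_UU] at h2
  have hU : C.ind κ A UU b = b := (sub_eq_zero.mp h2.symm)
  have hS : C.ind κ A S (v + b) = v + b := by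
    rw [map_add]
    have : C.ind κ A S v = v - (C.ind κ A S b - b) := by rw [← h1]; abel
    rw [this]; abel
  obtain ⟨u, hu⟩ := h.two
  obtain ⟨b', hb'⟩ := h.exists_inv_UU C hU
  refine ⟨(↑u⁻¹ : Λ) • (v + b), - b', ?_⟩
  rw [map_smul, hS, ← two_smul Λ, ← hu, ← mul_smul, Units.mul_inv, one_smul]
  have e : -b' + C.ind κ A UU (-b') + C.ind κ A (UU * UU) (-b') = - b := by
    conv_rhs => rw [hb']
    rw [map_neg, map_neg]
    abel
  rw [e]
  abel

section Tensor

variable (κ A) in
/-- The base change map. -/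
noncomputable def tau : H1 κ Λ ⊗[Λ] A →ₗ[Λ] H1 κ A :=
  TensorProduct.lift
    { toFun := fun x ↦
        { toFun := fun a ↦ mapH (LinearMap.toSpanSingleton Λ A a) x
          map_add' := fun a b ↦ by
            rw [← mapH_add]
            have e : LinearMap.toSpanSingleton Λ A (a + b) =
                LinearMap.toSpanSingleton Λ A a + LinearMap.toSpanSingleton Λ A b := by
              ext; simp
            rw [e]
          map_smul' := fun r a ↦ by
            obtain ⟨f, rfl⟩ := cls_surjective _ _ x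
            rw [RingHom.id_apply, mapH_cls, mapH_cls, ← map_smul]
            congr 1
            refine Subtype.ext (funext fun γ ↦ ?_)
            change f.1 γ • (r • a) = r • (f.1 γ • a)
            rw [smul_comm] }
      map_add' := fun x y ↦ LinearMap.ext fun a ↦
        map_add (mapH (κ := κ) (LinearMap.toSpanSingleton Λ A a)) x y
      map_smul' := fun r x ↦ LinearMap.ext fun a ↦
        map_smul (mapH (κ := κ) (LinearMap.toSpanSingleton Λ A a)) r x }

@[simp] theorem tau_tmul (x : H1 κ Λ) (a : A) :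
    tau κ A (x ⊗ₜ[Λ] a) = mapH (LinearMap.toSpanSingleton Λ A a) x := rfl

variable [Fintype X] [DecidableEq X]

/-- auxiliary map -/
noncomputable def psi (h : IsGood κ) (C : CSys Γ X) : (X → A) →ₗ[Λ] H1 κ Λ ⊗[Λ] A where
  toFun v := ∑ x, theta Λ h C (Pi.single x (1 : Λ)) ⊗ₜ[Λ] v x
  map_add' v w := by simp [TensorProduct.tmul_add, Finset.sum_add_distrib]
  map_smul' a v := by simp [Finset.smul_sum]

theorem psi_apply (h : IsGood κ) (C : CSys Γ X) (v : X → A) :
    psi h C v = ∑ x, theta Λ h C (Pi.single x (1 : Λ)) ⊗ₜ[Λ] v x := rfl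

theorem psi_mapV (h : IsGood κ) (C : CSys Γ X) (w : X → Λ) (a : A) :
    psi h C (CSys.mapV X (LinearMap.toSpanSingleton Λ A a) w) = theta Λ h C w ⊗ₜ[Λ] a := by
  rw [psi_apply]
  have e : w = ∑ x, w x • Pi.single x (1 : Λ) := by
    funext y
    simp [Finset.sum_apply, Pi.single_apply]
  conv_rhs => rw [e, map_sum, TensorProduct.sum_tmul]
  refine Finset.sum_congr rfl fun x _ ↦ ?_
  rw [mapV_apply, LinearMap.toSpanSingleton_apply, map_smul, TensorProduct.smul_tmul]

theorem tau_psi (h : IsGood κ) (C : CSys Γ X) (v : X → A) : tau κ A (psi h C v) = theta A h C v := by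
  rw [psi_apply, map_sum]
  have e : v = ∑ x, CSys.mapV X (LinearMap.toSpanSingleton Λ A (v x)) (Pi.single x (1 : Λ)) := by
    funext y
    simp only [Finset.sum_apply, mapV_apply, LinearMap.toSpanSingleton_apply, Pi.single_apply,
      ite_smul, one_smul, zero_smul, Finset.sum_ite_eq, Finset.mem_univ, if_true]
  conv_rhs => rw [e, map_sum]
  refine Finset.sum_congr rfl fun x _ ↦ ?_
  rw [tau_tmul, mapH_theta]

theorem psi_surjective (h : IsGood κ) (C : CSys Γ X) :
    Function.Surjective (psi (A := A) h C) := by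
  intro t
  induction t using TensorProduct.induction_on with
  | zero => exact ⟨0, map_zero _⟩
  | tmul x a =>
    obtain ⟨w, rfl⟩ := theta_surjective h C x
    exact ⟨_, psi_mapV h C w a⟩
  | add x y hx hy =>
    obtain ⟨v, rfl⟩ := hx
    obtain ⟨w, rfl⟩ := hy
    exact ⟨v + w, map_add _ _ _⟩

theorem eq_sum_mapV (v : X → A) :
    v = ∑ x, CSys.mapV X (LinearMap.toSpanSingleton Λ A (v x)) (Pi.single x (1 : Λ)) := by
  funext y
  simp only [Finset.sum_apply, mapV_apply, LinearMap.toSpanSingleton_apply, Pi.single_apply,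
    ite_smul, one_smul, zero_smul, Finset.sum_ite_eq, Finset.mem_univ, if_true]

theorem psi_S (h : IsGood κ) (C : CSys Γ X) (v : X → A) : psi h C (v + C.ind κ A S v) = 0 := by
  rw [eq_sum_mapV (Λ := Λ) v, map_sum, ← Finset.sum_add_distrib, map_sum]
  refine Finset.sum_eq_zero fun x _ ↦ ?_
  rw [← mapV_ind, ← map_add, psi_mapV, theta_S, TensorProduct.zero_tmul]

theorem psi_UU (h : IsGood κ) (C : CSys Γ X) (v : X → A) :
    psi h C (v + C.ind κ A UU v + C.ind κ A (UU * UU) v) = 0 := by
  rw [eq_sum_mapV (Λ := Λ) v, map_sum, map_sum, ← Finset.sum_add_distrib,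
    ← Finset.sum_add_distrib, map_sum]
  refine Finset.sum_eq_zero fun x _ ↦ ?_
  rw [← mapV_ind, ← mapV_ind, ← map_add, ← map_add, psi_mapV, theta_UU, TensorProduct.zero_tmul]

end Tensor

/-- **Base change**: `H¹(κ, Λ) ⊗ A ≃ H¹(κ, A)` for every `Λ`-module `A`. -/
theorem tau_bijective (h : IsGood κ) [Γ.FiniteIndex] : Function.Bijective (tau κ A) := by
  classical
  obtain ⟨C⟩ := exists_csys Γ
  have : Finite (Quotient (QuotientGroup.rightRel Γ)) := by
    have e := QuotientGroup.quotientRightRelEquivQuotientLeftRel Γ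
    have : Finite (SL(2, ℤ) ⧸ Γ) := inferInstance
    exact Finite.of_equiv _ e.symm
  have := Fintype.ofFinite (Quotient (QuotientGroup.rightRel Γ))
  constructor
  · rw [injective_iff_map_eq_zero]
    intro t ht
    obtain ⟨v, rfl⟩ := psi_surjective h C t
    rw [tau_psi] at ht
    obtain ⟨v1, v2, rfl⟩ := exists_of_theta_eq_zero h C ht
    rw [map_add, psi_S, psi_UU, add_zero]
  · intro x
    obtain ⟨v, rfl⟩ := theta_surjective h C x
    exact ⟨psi h C v, tau_psi h C v⟩

/-- Naturality of the base change map. -/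
theorem tau_naturality (g : A →ₗ[Λ] A') (t : H1 κ Λ ⊗[Λ] A) :
    mapH g (tau κ A t) = tau κ A' (LinearMap.lTensor _ g t) := by
  induction t using TensorProduct.induction_on with
  | zero => simp
  | tmul x a =>
    rw [tau_tmul, LinearMap.lTensor_tmul, tau_tmul, ← mapH_comp]
    have e : g ∘ₗ LinearMap.toSpanSingleton Λ A a = LinearMap.toSpanSingleton Λ A' (g a) := by
      ext; simp
    rw [e]
  | add x y hx hy => rw [map_add, map_add, hx, hy, map_add, map_add]

end Fermat.Agent.TWMod
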