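import Fermat.Agent.TWMod.TRing

set_option autoImplicit false

/-!
# Changing the ring of scalars in twisted cohomology

If `A` is a module over `Λ` and over `Λ'` and `κ : Γ → Λ`, `κ' : Γ → Λ'` act in the same way on `A`
then `H1 κ A` and `H1 κ' A` are the same.
-/

open CongruenceSubgroup Fermat.Agent.Top MvPolynomial IsLocalRing
open scoped MatrixGroups TensorProduct

namespace Fermat.Agent.TWMod

section Chg

variable {Γ : Type*} [Group Γ] {Λ Λ' : Type*} [CommRing Λ] [CommRing Λ'] {κ : Γ →* Λ}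
  {κ' : Γ →* Λ'} {A : Type*} [AddCommGroup A] [Module Λ A] [Module Λ' A]
  (h : ∀ (g : Γ) (a : A), κ' g • a = κ g • a)

/-- change of scalars on cocycles -/
def chgZ : Z1 κ A ≃+ Z1 κ' A where
  toFun f := ⟨f.1, fun γ γ' ↦ by rw [h]; exact f.2 γ γ'⟩
  invFun f := ⟨f.1, fun γ γ' ↦ by rw [← h]; exact f.2 γ γ'⟩
  left_inv _ := rfl
  right_inv _ := rfl
  map_add' _ _ := rfl

@[simp] theorem chgZ_apply (f : Z1 κ A) (γ : Γ) : (chgZ h f).1 γ = f.1 γ := rfl

theorem chgZ_dB (a : A) : chgZ h (dB κ A a) = dB κ' A a := by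
  refine Subtype.ext (funext fun γ ↦ ?_)
  rw [chgZ_apply, dB_apply, dB_apply, h]

/-- change of scalars on cohomology -/
def chgH : H1 κ A ≃+ H1 κ' A :=
  QuotientAddGroup.congr (LinearMap.range (dB κ A)).toAddSubgroup
    (LinearMap.range (dB κ' A)).toAddSubgroup (chgZ h) (by
      ext f
      simp only [AddSubgroup.mem_map, Submodule.mem_toAddSubgroup, LinearMap.mem_range]
      constructor
      · rintro ⟨_, ⟨a, rfl⟩, rfl⟩
        exact ⟨a, (chgZ_dB h a).symm⟩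
      · rintro ⟨a, rfl⟩
        exact ⟨_, ⟨a, rfl⟩, chgZ_dB h a⟩)

@[simp] theorem chgH_cls (f : Z1 κ A) : chgH h (cls κ A f) = cls κ' A (chgZ h f) := rfl

theorem chgH_symm_cls (f : Z1 κ' A) : (chgH h).symm (cls κ' A f) = cls κ A ((chgZ h).symm f) := rfl

theorem chgH_smul {r : Λ} {r' : Λ'} (hr : ∀ a : A, r' • a = r • a) (x : H1 κ A) :
    chgH h (r • x) = r' • chgH h x := by
  obtain ⟨f, rfl⟩ := cls_surjective _ _ x
  rw [← map_smul, chgH_cls, chgH_cls, ← map_smul]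
  congr 1
  refine Subtype.ext (funext fun γ ↦ ?_)
  exact (hr _).symm

variable {G : Type*} [Group G] {ι : Γ →* G} {I : Type*} [Fintype I] {R : Reps ι I} {w : I → Λ}
  {w' : I → Λ'} (hw : IsWeight R κ w) (hw' : IsWeight R κ' w')

theorem chgH_opH (hww : ∀ i (a : A), w' i • a = w i • a) (x : H1 κ A) :
    chgH h (opH A hw x) = opH A hw' (chgH h x) := by
  obtain ⟨f, rfl⟩ := cls_surjective _ _ x
  rw [opH_cls, chgH_cls, chgH_cls, opH_cls]
  congr 1
  refine Subtype.ext (funext fun γ ↦ ?_)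
  rw [chgZ_apply, opZ_apply, opZ_apply]
  exact Finset.sum_congr rfl fun i _ ↦ (hww i _).symm

end Chg

section Dir

variable {N : ℕ} {Λ Λ' : Type*} [CommRing Λ] [CommRing Λ'] {χ : DirichletCharacter Λ N}
  {χ' : DirichletCharacter Λ' N} {A : Type*} [AddCommGroup A] [Module Λ A] [Module Λ' A]

/-- `χ` and `χ'` act in the same way on `A`. -/
structure SameOn (χ : DirichletCharacter Λ N) (χ' : DirichletCharacter Λ' N) (A : Type*)
    [AddCommGroup A] [Module Λ A] [Module Λ' A] : Prop where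
  app : ∀ (u : ZMod N) (a : A), χ' u • a = χ u • a
  inv : ∀ (u : ZMod N) (a : A), χ'⁻¹ u • a = χ⁻¹ u • a

theorem sameOn_of (h : ∀ (u : ZMod N) (a : A), χ' u • a = χ u • a) : SameOn χ χ' A := by
  refine ⟨h, fun u a ↦ ?_⟩
  by_cases hu : IsUnit u
  · have h1 : χ u * χ⁻¹ u = 1 := char_mul_inv χ hu
    have h2 : χ' u * χ'⁻¹ u = 1 := char_mul_inv χ' hu
    have h3 : χ' u • χ'⁻¹ u • a = χ' u • χ⁻¹ u • a := by
      rw [h u (χ⁻¹ u • a), smul_smul, smul_smul, h1, h2, one_smul, one_smul]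
    have h5 : ∀ b : A, χ'⁻¹ u • χ' u • b = b := fun b ↦ by
      rw [smul_smul, mul_comm, h2, one_smul]
    rw [← h5 (χ'⁻¹ u • a), h3, h5]
  · rw [MulChar.map_nonunit _ hu, MulChar.map_nonunit _ hu, zero_smul, zero_smul]

theorem SameOn.wt (h : SameOn χ χ' A) (M : Matrix (Fin 2) (Fin 2) ℤ) (a : A) :
    TWMod.wt χ' M • a = TWMod.wt χ M • a := by
  have e : ∀ b : A, TWMod.wt χ' M • b = χ' ((M 0 0 : ℤ) : ZMod N) • χ'⁻¹ ((M 1 1 : ℤ) : ZMod N) • b :=
    fun b ↦ by rw [TWMod.wt, smul_smul]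
  rw [e, h.inv, h.app, TWMod.wt, smul_smul]

theorem SameOn.kap (h : SameOn χ χ' A) (g : Gamma0 N) (a : A) : kap χ' g • a = kap χ g • a :=
  h.wt _ a

theorem SameOn.hw (h : SameOn χ χ' A) (ℓ : ℕ) (i : HI N ℓ) (a : A) : hw χ' ℓ i • a = hw χ ℓ i • a :=
  h.wt _ a

/-- change of scalars for twisted cohomology of `Γ₀(N)` -/
noncomputable def chg (h : SameOn χ χ' A) : H1 (kap χ) A ≃+ H1 (kap χ') A := chgH h.kap

theorem chg_hk (h : SameOn χ χ' A) {ℓ : ℕ} (hℓ : ℓ.Prime) (x : H1 (kap χ) A) :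
    chg h (hk χ A hℓ x) = hk χ' A hℓ (chg h x) :=
  chgH_opH h.kap _ _ (h.hw ℓ) x

theorem chg_ev (h : SameOn χ χ' A) {S : Set ℕ} {φ : Λ →+* Λ'} (hφ : ∀ (r : Λ) (a : A), φ r • a = r • a)
    (P : MvPolynomial (Pr S) Λ) (x : H1 (kap χ) A) :
    chg h (ev χ S A P x) = ev χ' S A (MvPolynomial.map φ P) (chg h x) := by
  induction P using MvPolynomial.induction_on generalizing x with
  | C a =>
    rw [ev_C_apply, map_C, ev_C_apply]
    exact chgH_smul h.kap (hφ a) x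
  | add p q hp hq => simp [hp, hq]
  | mul_X p i hp =>
    rw [map_mul, map_mul, map_mul, Module.End.mul_apply, Module.End.mul_apply, hp, ev_X, map_X, ev_X]
    congr 1
    exact chg_hk h i.2.1 x

end Dir

end Fermat.Agent.TWMod
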