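import Fermat.Agent.Top.Reps

set_option autoImplicit false

/-!
# Twisted one-cocycles and transfer operators

`κ : Γ →* Λ` is a character with values in a commutative ring, `A` a `Λ`-module.  `Z1 κ A` is the
`Λ`-module of functions `f : Γ → A` with `f (γ γ') = f γ + κ γ • f γ'`, `dB κ A : A → Z1 κ A` the
coboundary, `H1 κ A` the quotient.  A finite system of representatives `R : Reps ι I` together with
weights `w : I → Λ` satisfying `w i * κ (c γ i) = κ γ * w (σ γ i)` defines a transfer operator.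
-/

namespace Fermat.Agent.TWMod

open Finset Fermat.Agent.Top

section Def

variable {Γ : Type*} [Group Γ] {Λ : Type*} [CommRing Λ] (κ : Γ →* Λ)
variable (A : Type*) [AddCommGroup A] [Module Λ A]

/-- Twisted cocycles. -/
def Z1 : Submodule Λ (Γ → A) where
  carrier := {f | ∀ γ γ', f (γ * γ') = f γ + κ γ • f γ'}
  zero_mem' := by intro γ γ'; simp
  add_mem' := by
    intro f g hf hg γ γ'
    simp only [Pi.add_apply, hf γ γ', hg γ γ', smul_add]
    abel
  smul_mem' := by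
    intro a f hf γ γ'
    simp only [Pi.smul_apply, hf γ γ', smul_add]
    rw [smul_comm]

variable {κ A}

theorem mem_Z1 {f : Γ → A} : f ∈ Z1 κ A ↔ ∀ γ γ', f (γ * γ') = f γ + κ γ • f γ' := Iff.rfl

theorem Z1_mul (f : Z1 κ A) (γ γ' : Γ) : f.1 (γ * γ') = f.1 γ + κ γ • f.1 γ' := f.2 γ γ'

theorem Z1_one (f : Z1 κ A) : f.1 1 = 0 := by
  have h := Z1_mul f 1 1
  rw [mul_one, map_one, one_smul] at h
  simpa using h

theorem Z1_inv (f : Z1 κ A) (γ : Γ) : f.1 γ⁻¹ = - (κ γ⁻¹ • f.1 γ) := by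
  have h := Z1_mul f γ⁻¹ γ
  rw [inv_mul_cancel, Z1_one f] at h
  exact eq_neg_of_add_eq_zero_left h.symm

variable (κ A)

/-- The coboundary map. -/
def dB : A →ₗ[Λ] Z1 κ A where
  toFun a := ⟨fun γ ↦ κ γ • a - a, by
    intro γ γ'
    simp only [map_mul, mul_smul, smul_sub]
    abel⟩
  map_add' a b := by
    ext γ
    simp only [smul_add, Submodule.coe_add, Pi.add_apply]
    abel
  map_smul' r a := by
    ext γ
    simp only [RingHom.id_apply, SetLike.val_smul, Pi.smul_apply, smul_sub]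
    rw [smul_comm]

@[simp] theorem dB_apply (a : A) (γ : Γ) : (dB κ A a).1 γ = κ γ • a - a := rfl

/-- Twisted first cohomology. -/
abbrev H1 : Type _ := Z1 κ A ⧸ LinearMap.range (dB κ A)

/-- The class of a cocycle. -/
def cls : Z1 κ A →ₗ[Λ] H1 κ A := (LinearMap.range (dB κ A)).mkQ

theorem cls_surjective : Function.Surjective (cls κ A) :=
  Submodule.mkQ_surjective _

variable {κ A}

theorem cls_eq_zero_iff {f : Z1 κ A} : cls κ A f = 0 ↔ ∃ a, dB κ A a = f := by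
  rw [cls, Submodule.mkQ_apply, Submodule.Quotient.mk_eq_zero, LinearMap.mem_range]

theorem cls_eq_iff {f g : Z1 κ A} : cls κ A f = cls κ A g ↔ ∃ a, dB κ A a = f - g := by
  rw [← sub_eq_zero, ← map_sub, cls_eq_zero_iff]

variable {A' A'' : Type*} [AddCommGroup A'] [Module Λ A'] [AddCommGroup A''] [Module Λ A'']

/-- Functoriality of cocycles in the coefficients. -/
def mapZ (g : A →ₗ[Λ] A') : Z1 κ A →ₗ[Λ] Z1 κ A' where
  toFun f := ⟨fun γ ↦ g (f.1 γ), by
    intro γ γ'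
    simp only [Z1_mul f, map_add, map_smul]⟩
  map_add' f f' := by ext γ; simp
  map_smul' r f := by ext γ; simp

@[simp] theorem mapZ_apply (g : A →ₗ[Λ] A') (f : Z1 κ A) (γ : Γ) : (mapZ g f).1 γ = g (f.1 γ) := rfl

theorem mapZ_dB (g : A →ₗ[Λ] A') (a : A) : mapZ g (dB κ A a) = dB κ A' (g a) := by
  ext γ; simp

/-- Functoriality of cohomology in the coefficients. -/
def mapH (g : A →ₗ[Λ] A') : H1 κ A →ₗ[Λ] H1 κ A' :=
  Submodule.mapQ _ _ (mapZ g) (by
    rintro _ ⟨a, rfl⟩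
    exact ⟨g a, (mapZ_dB g a).symm⟩)

@[simp] theorem mapH_cls (g : A →ₗ[Λ] A') (f : Z1 κ A) : mapH g (cls κ A f) = cls κ A' (mapZ g f) := rfl

theorem mapH_comp (g : A →ₗ[Λ] A') (g' : A' →ₗ[Λ] A'') (x : H1 κ A) :
    mapH (g'.comp g) x = mapH g' (mapH g x) := by
  obtain ⟨f, rfl⟩ := cls_surjective _ _ x
  rfl

theorem mapH_id (x : H1 κ A) : mapH (LinearMap.id : A →ₗ[Λ] A) x = x := by
  obtain ⟨f, rfl⟩ := cls_surjective _ _ x
  rfl

theorem mapH_add (g g' : A →ₗ[Λ] A') (x : H1 κ A) : mapH (g + g') x = mapH g x + mapH g' x := by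
  obtain ⟨f, rfl⟩ := cls_surjective _ _ x
  rw [mapH_cls, mapH_cls, mapH_cls, ← map_add]
  rfl

theorem mapH_zero (x : H1 κ A) : mapH (0 : A →ₗ[Λ] A') x = 0 := by
  obtain ⟨f, rfl⟩ := cls_surjective _ _ x
  rw [mapH_cls]
  exact map_zero (cls κ A')

theorem mapH_smul_id (r : Λ) (x : H1 κ A) : mapH (r • (LinearMap.id : A →ₗ[Λ] A)) x = r • x := by
  obtain ⟨f, rfl⟩ := cls_surjective _ _ x
  rfl

end Def

section Hecke

variable {Γ G : Type*} [Group Γ] [Group G] {ι : Γ →* G} {I I' : Type*} [Fintype I] [Fintype I']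
  (R : Reps ι I) (R' : Reps ι I')
variable {Λ : Type*} [CommRing Λ] {κ : Γ →* Λ}
variable {A : Type*} [AddCommGroup A] [Module Λ A] {A' : Type*} [AddCommGroup A'] [Module Λ A']

/-- Compatible weights. -/
def IsWeight (κ : Γ →* Λ) (w : I → Λ) : Prop := ∀ γ i, w i * κ (R.c γ i) = κ γ * w (R.σ γ i)

variable {R R'}
variable {w : I → Λ} (hw : IsWeight R κ w) {w' : I' → Λ} (hw' : IsWeight R' κ w')

theorem sum_perm (γ : Γ) (F : I → A) : ∑ i, F (R.σ γ i) = ∑ i, F i :=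
  Equiv.sum_comp (R.perm γ) F

variable (A) in
/-- The transfer operator on cocycles. -/
def opZ : Z1 κ A →ₗ[Λ] Z1 κ A where
  toFun f := ⟨fun γ ↦ ∑ i, w i • f.1 (R.c γ i), by
    intro γ γ'
    have h : ∀ i, w i • f.1 (R.c (γ * γ') i) =
        w i • f.1 (R.c γ i) + κ γ • (w (R.σ γ i) • f.1 (R.c γ' (R.σ γ i))) := by
      intro i
      rw [R.c_mul, Z1_mul f, smul_add, ← mul_smul, hw γ i, mul_smul]
    change ∑ i, w i • f.1 (R.c (γ * γ') i) =
      ∑ i, w i • f.1 (R.c γ i) + κ γ • ∑ i, w i • f.1 (R.c γ' i)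
    rw [Finset.sum_congr rfl fun i _ ↦ h i, Finset.sum_add_distrib, ← Finset.smul_sum,
      sum_perm γ (fun i ↦ w i • f.1 (R.c γ' i))]⟩
  map_add' f g := by
    ext γ
    simp [Finset.sum_add_distrib, smul_add]
  map_smul' r f := by
    ext γ
    simp only [SetLike.val_smul, Pi.smul_apply, RingHom.id_apply, Finset.smul_sum]
    exact Finset.sum_congr rfl fun i _ ↦ smul_comm _ _ _

theorem opZ_apply (f : Z1 κ A) (γ : Γ) : (opZ A hw f).1 γ = ∑ i, w i • f.1 (R.c γ i) := rfl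

theorem opZ_dB (a : A) : opZ A hw (dB κ A a) = dB κ A ((∑ i, w i) • a) := by
  refine Subtype.ext (funext fun γ ↦ ?_)
  rw [opZ_apply, dB_apply]
  have h : ∀ i, w i • (dB κ A a).1 (R.c γ i) = κ γ • (w (R.σ γ i) • a) - w i • a := by
    intro i
    rw [dB_apply, smul_sub, ← mul_smul, hw γ i, mul_smul]
  rw [Finset.sum_congr rfl fun i _ ↦ h i, Finset.sum_sub_distrib, ← Finset.smul_sum,
    sum_perm γ (fun i ↦ w i • a), ← Finset.sum_smul]

variable (A) in
/-- The transfer operator on cohomology. -/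
def opH : H1 κ A →ₗ[Λ] H1 κ A :=
  Submodule.mapQ _ _ (opZ A hw) (by
    rintro _ ⟨a, rfl⟩
    exact ⟨(∑ i, w i) • a, (opZ_dB hw a).symm⟩)

@[simp] theorem opH_cls (f : Z1 κ A) : opH A hw (cls κ A f) = cls κ A (opZ A hw f) := rfl

theorem opZ_mapZ (g : A →ₗ[Λ] A') (f : Z1 κ A) : opZ A' hw (mapZ g f) = mapZ g (opZ A hw f) := by
  refine Subtype.ext (funext fun γ ↦ ?_)
  rw [opZ_apply, mapZ_apply, opZ_apply, map_sum]
  simp

theorem opH_mapH (g : A →ₗ[Λ] A') (x : H1 κ A) : opH A' hw (mapH g x) = mapH g (opH A hw x) := by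
  obtain ⟨f, rfl⟩ := cls_surjective _ _ x
  rw [mapH_cls, opH_cls, opH_cls, mapH_cls, opZ_mapZ]

theorem IsWeight.comp (hw : IsWeight R κ w) (hw' : IsWeight R' κ w') :
    IsWeight (R.comp R') κ (fun x ↦ w x.1 * w' x.2) := by
  intro γ x
  change w x.1 * w' x.2 * κ (R.c (R'.c γ x.2) x.1) =
    κ γ * (w (R.σ (R'.c γ x.2) x.1) * w' (R'.σ γ x.2))
  rw [mul_right_comm, hw, mul_right_comm, mul_comm (κ _), hw']
  ring

theorem opZ_comp (f : Z1 κ A) : opZ A (hw.comp hw') f = opZ A hw' (opZ A hw f) := by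
  refine Subtype.ext (funext fun γ ↦ ?_)
  rw [opZ_apply, opZ_apply, Fintype.sum_prod_type_right]
  refine Finset.sum_congr rfl fun i' _ ↦ ?_
  rw [opZ_apply, Finset.smul_sum]
  refine Finset.sum_congr rfl fun i _ ↦ ?_
  rw [← mul_smul, mul_comm (w' i')]
  rfl

/-- Two equivalent weighted systems of representatives define the same operator on cohomology. -/
theorem opH_congr (uniq : ∀ (g : Γ) (i j : I), ι g * R.δ i = R.δ j → i = j)
    (uniq' : ∀ (g : Γ) (i j : I'), ι g * R'.δ i = R'.δ j → i = j)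
    (he : ∀ i, ∃ (g : Γ) (j : I'), R.δ i = ι g * R'.δ j ∧ w i * κ g = w' j)
    (hcard : Fintype.card I = Fintype.card I') (x : H1 κ A) :
    opH A hw x = opH A hw' x := by
  obtain ⟨f, rfl⟩ := cls_surjective _ _ x
  choose g e he hwe using he
  have hinj : Function.Injective e := by
    intro i j hij
    refine uniq (g j * (g i)⁻¹) i j ?_
    rw [he i, he j, hij, map_mul, map_inv]
    group
  have hbij : Function.Bijective e := (Fintype.bijective_iff_injective_and_card e).mpr ⟨hinj, hcard⟩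
  rw [opH_cls, opH_cls, cls_eq_iff]
  refine ⟨- ∑ i, w i • f.1 (g i), Subtype.ext (funext fun γ ↦ ?_)⟩
  have key : ∀ i, ι (R.c γ i * g (R.σ γ i)) * R'.δ (e (R.σ γ i)) =
      ι (g i * R'.c γ (e i)) * R'.δ (R'.σ γ (e i)) := by
    intro i
    rw [map_mul, mul_assoc, ← he, ← R.mul_eq, he i, mul_assoc, R'.mul_eq, map_mul, mul_assoc]
  have h1 : ∀ i, e (R.σ γ i) = R'.σ γ (e i) := by
    intro i
    refine uniq' ((g i * R'.c γ (e i))⁻¹ * (R.c γ i * g (R.σ γ i))) _ _ ?_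
    rw [map_mul, mul_assoc, key i, map_inv]
    group
  have h2 : ∀ i, R.c γ i * g (R.σ γ i) = g i * R'.c γ (e i) := by
    intro i
    have h3 := key i
    rw [h1 i] at h3
    exact R.inj (mul_right_cancel h3)
  have h3 : ∀ i, w i • f.1 (R.c γ i) + κ γ • (w (R.σ γ i) • f.1 (g (R.σ γ i))) =
      w i • f.1 (g i) + w' (e i) • f.1 (R'.c γ (e i)) := by
    intro i
    have h4 := congrArg (fun y ↦ w i • f.1 y) (h2 i)
    simp only [Z1_mul f, smul_add, ← mul_smul, hwe] at h4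
    rw [hw γ i] at h4
    rw [← mul_smul]
    exact h4
  have h5 : ∑ i, (w i • f.1 (R.c γ i) + κ γ • (w (R.σ γ i) • f.1 (g (R.σ γ i)))) =
      ∑ i, (w i • f.1 (g i) + w' (e i) • f.1 (R'.c γ (e i))) :=
    Finset.sum_congr rfl fun i _ ↦ h3 i
  rw [Finset.sum_add_distrib, Finset.sum_add_distrib, ← Finset.smul_sum,
    sum_perm γ (fun i ↦ w i • f.1 (g i))] at h5
  have h6 : ∑ i, w' (e i) • f.1 (R'.c γ (e i)) = ∑ i, w' i • f.1 (R'.c γ i) :=
    Equiv.sum_comp (Equiv.ofBijective e hbij) (fun i ↦ w' i • f.1 (R'.c γ i))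
  rw [h6] at h5
  rw [dB_apply, Submodule.coe_sub, Pi.sub_apply, opZ_apply, opZ_apply, smul_neg]
  rw [sub_neg_eq_add, neg_add_eq_sub, sub_eq_sub_iff_add_eq_add, h5]

end Hecke

end Fermat.Agent.TWMod
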