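import Fermat.Agent.TWMod.Gamma0
import Fermat.Agent.TWMod.Idem

set_option autoImplicit false

/-!
# Hecke polynomials acting on twisted cohomology
-/

open CongruenceSubgroup Fermat.Agent.Top MvPolynomial
open scoped MatrixGroups TensorProduct

namespace Fermat.Agent.TWMod

/-- primes outside `S` -/
abbrev Pr (S : Set ℕ) : Type := {ℓ : ℕ // ℓ.Prime ∧ ℓ ∉ S}

section EvalComm

variable {Λ : Type*} [CommRing Λ] {V : Type*} [AddCommGroup V] [Module Λ V] {σ : Type*}
  (T : σ → Module.End Λ V) (hT : ∀ i j, T i * T j = T j * T i)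

theorem adjoin_comm (hT : ∀ i j, T i * T j = T j * T i) (a b : Algebra.adjoin Λ (Set.range T)) :
    a * b = b * a := by
  let _ := Algebra.adjoinCommRingOfComm Λ (s := Set.range T) (by
    rintro _ ⟨i, rfl⟩ _ ⟨j, rfl⟩
    exact hT i j)
  exact mul_comm a b

/-- Evaluation of polynomials at commuting endomorphisms. -/
noncomputable def evC : MvPolynomial σ Λ →ₐ[Λ] Module.End Λ V :=
  let _ := Algebra.adjoinCommRingOfComm Λ (s := Set.range T) (by
    rintro _ ⟨i, rfl⟩ _ ⟨j, rfl⟩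
    exact hT i j)
  (Algebra.adjoin Λ (Set.range T)).val.comp
    (MvPolynomial.aeval (fun i ↦ (⟨T i, Algebra.subset_adjoin ⟨i, rfl⟩⟩ : Algebra.adjoin Λ (Set.range T))))

@[simp] theorem evC_X (i : σ) : evC T hT (X i) = T i := by
  let _ := Algebra.adjoinCommRingOfComm Λ (s := Set.range T) (by
    rintro _ ⟨i, rfl⟩ _ ⟨j, rfl⟩
    exact hT i j)
  change (Algebra.adjoin Λ (Set.range T)).val (MvPolynomial.aeval _ (X i)) = T i
  rw [aeval_X]
  rfl

@[simp] theorem evC_C (a : Λ) : evC T hT (C a) = algebraMap Λ _ a :=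
  (evC T hT).commutes a

/-- Naturality of evaluation. -/
theorem evC_natural {V' : Type*} [AddCommGroup V'] [Module Λ V'] {T : σ → Module.End Λ V}
    (hT : ∀ i j, T i * T j = T j * T i) {T' : σ → Module.End Λ V'}
    (hT' : ∀ i j, T' i * T' j = T' j * T' i) (g : V →ₗ[Λ] V') (hg : ∀ i x, g (T i x) = T' i (g x))
    (P : MvPolynomial σ Λ) (x : V) : g (evC T hT P x) = evC T' hT' P (g x) := by
  induction P using MvPolynomial.induction_on generalizing x with
  | C a => simp [Module.algebraMap_end_apply]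
  | add p q hp hq => simp [hp, hq]
  | mul_X p i hp => rw [map_mul, map_mul, Module.End.mul_apply, Module.End.mul_apply, hp, evC_X, hg, evC_X]

theorem evC_eigen {T : σ → Module.End Λ V} (hT : ∀ i j, T i * T j = T j * T i) {x : V} {a : σ → Λ}
    (hx : ∀ i, T i x = a i • x) (P : MvPolynomial σ Λ) : evC T hT P x = (MvPolynomial.eval a P) • x := by
  induction P using MvPolynomial.induction_on with
  | C r => simp [Module.algebraMap_end_apply]
  | add p q hp hq => simp [hp, hq, add_smul]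
  | mul_X p i hp =>
    rw [map_mul, Module.End.mul_apply, evC_X, hx, map_smul, hp, map_mul, eval_X, smul_smul, mul_comm]

theorem evC_tensor {T : σ → Module.End Λ V} (hT : ∀ i j, T i * T j = T j * T i)
    (A : Type*) [AddCommGroup A] [Module Λ A] {T' : σ → Module.End Λ (V ⊗[Λ] A)}
    (hT' : ∀ i j, T' i * T' j = T' j * T' i) (h : ∀ i, T' i = LinearMap.rTensor A (T i))
    (P : MvPolynomial σ Λ) : evC T' hT' P = LinearMap.rTensor A (evC T hT P) := by
  induction P using MvPolynomial.induction_on with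
  | C r =>
    rw [evC_C, evC_C]
    ext x a
    simp [Module.algebraMap_end_apply, TensorProduct.smul_tmul']
  | add p q hp hq => rw [map_add, map_add, hp, hq, LinearMap.rTensor_add]
  | mul_X p i hp =>
    rw [map_mul, map_mul, hp, evC_X, evC_X, h]
    exact (LinearMap.rTensor_mul A _ _).symm

end EvalComm

section Hecke

variable {N : ℕ} {Λ : Type*} [CommRing Λ] (χ : DirichletCharacter Λ N) (S : Set ℕ)
  (A : Type*) [AddCommGroup A] [Module Λ A] {A' : Type*} [AddCommGroup A'] [Module Λ A']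

/-- the Hecke operators -/
noncomputable def hkE (ℓ : Pr S) : Module.End Λ (H1 (kap χ) A) := hk χ A ℓ.2.1

theorem hkE_comm (ℓ ℓ' : Pr S) : hkE χ S A ℓ * hkE χ S A ℓ' = hkE χ S A ℓ' * hkE χ S A ℓ :=
  LinearMap.ext fun x ↦ hk_comm χ A ℓ.2.1 ℓ'.2.1 x

/-- Evaluation of Hecke polynomials on twisted cohomology. -/
noncomputable def ev : MvPolynomial (Pr S) Λ →ₐ[Λ] Module.End Λ (H1 (kap χ) A) :=
  evC (hkE χ S A) (hkE_comm χ S A)

@[simp] theorem ev_X (ℓ : Pr S) : ev χ S A (X ℓ) = hkE χ S A ℓ := evC_X _ _ _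

@[simp] theorem ev_C (a : Λ) : ev χ S A (C a) = algebraMap Λ _ a := evC_C _ _ _

theorem ev_C_apply (a : Λ) (x : H1 (kap χ) A) : ev χ S A (C a) x = a • x := by
  rw [ev_C, Module.algebraMap_end_apply]

variable {A}

theorem ev_mapH (g : A →ₗ[Λ] A') (P : MvPolynomial (Pr S) Λ) (x : H1 (kap χ) A) :
    ev χ S A' P (mapH g x) = mapH g (ev χ S A P x) :=
  (evC_natural (hkE_comm χ S A) (hkE_comm χ S A') (mapH g)
    (fun i x ↦ (opH_mapH (isWeight_hw χ i.2.1) g x).symm) P x).symm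

theorem ev_eigen {x : H1 (kap χ) A} {a : Pr S → Λ} (hx : ∀ ℓ, hkE χ S A ℓ x = a ℓ • x)
    (P : MvPolynomial (Pr S) Λ) : ev χ S A P x = (MvPolynomial.eval a P) • x :=
  evC_eigen _ hx P

variable (A)

theorem ev_tau (P : MvPolynomial (Pr S) Λ) (t : H1 (kap χ) Λ ⊗[Λ] A) :
    ev χ S A P (tau (kap χ) A t) = tau (kap χ) A (LinearMap.rTensor A (ev χ S Λ P) t) := by
  have hcomm : ∀ i j : Pr S, (LinearMap.rTensor A (hkE χ S Λ i) : Module.End Λ _) *
      LinearMap.rTensor A (hkE χ S Λ j) =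
      LinearMap.rTensor A (hkE χ S Λ j) * LinearMap.rTensor A (hkE χ S Λ i) := by
    intro i j
    rw [← LinearMap.rTensor_mul, ← LinearMap.rTensor_mul, hkE_comm]
  have h1 := evC_tensor (hkE_comm χ S Λ) A (T' := fun i ↦ LinearMap.rTensor A (hkE χ S Λ i))
    hcomm (fun i ↦ rfl) P
  rw [show ev χ S Λ P = evC (hkE χ S Λ) (hkE_comm χ S Λ) P from rfl, ← h1]
  refine (evC_natural hcomm (hkE_comm χ S A) (tau (kap χ) A) (fun i x ↦ ?_) P t).symm
  induction x using TensorProduct.induction_on with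
  | zero => simp
  | tmul y a =>
    rw [LinearMap.rTensor_tmul, tau_tmul, tau_tmul]
    exact (opH_mapH (isWeight_hw χ i.2.1) _ y).symm
  | add x y hx hy => rw [map_add, map_add, hx, hy, map_add, map_add]

/-- **Transfer principle**: a Hecke polynomial acting as zero on `H¹(Λ)` acts as zero on `H¹(A)`. -/
theorem ev_eq_zero_of [NeZero N] (h2 : IsUnit (2 : Λ)) (h3 : Three Λ N) {P : MvPolynomial (Pr S) Λ}
    (hP : ev χ S Λ P = 0) : ev χ S A P = 0 := by
  refine LinearMap.ext fun x ↦ ?_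
  obtain ⟨t, rfl⟩ := (tau_bijective (A := A) (isGood_kap χ h2 h3)).2 x
  rw [ev_tau, hP]
  simp

/-- The Eisenstein system. -/
noncomputable def eis (ℓ : Pr S) : Λ := ℓ.1 * χ⁻¹ (ℓ.1 : ZMod N) + χ (ℓ.1 : ZMod N)

variable {A}

/-- Hecke operators act on the kernel of a map of coefficients through the Eisenstein system. -/
theorem hkE_of_mapH_eq_zero (hS : ∀ q : ℕ, q.Prime → q ∣ N → q ∈ S) {g : A →ₗ[Λ] A'}
    (hg : Function.Injective g) {x : H1 (kap χ) A} (hx : mapH g x = 0) (ℓ : Pr S) :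
    hkE χ S A ℓ x = eis χ S ℓ • x := by
  obtain ⟨f, rfl⟩ := cls_surjective _ _ x
  rw [mapH_cls, cls_eq_zero_iff] at hx
  obtain ⟨a, ha⟩ := hx
  have hℓN : ¬ ℓ.1 ∣ N := fun h ↦ ℓ.2.2 (hS _ ℓ.2.1 h)
  change opH A (isWeight_hw χ ℓ.2.1) (cls (kap χ) A f) = _
  rw [opH_cls, ← map_smul]
  congr 1
  have h1 : mapZ g (opZ A (isWeight_hw χ ℓ.2.1) f) = mapZ g (eis χ S ℓ • f) := by
    rw [← opZ_mapZ, ← ha, opZ_dB, sum_hw χ hℓN, map_smul, map_smul, ← ha]
    rfl
  refine Subtype.ext (funext fun γ ↦ hg ?_)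
  have h2 := congrArg (fun w : Z1 (kap χ) A' ↦ w.1 γ) h1
  simpa only [mapZ_apply] using h2

end Hecke

end Fermat.Agent.TWMod
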