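import Mathlib

set_option autoImplicit false

/-!
# The universal property of `PSL₂(ℤ)` (free product of `ℤ/2` and `ℤ/3`)
-/

open Matrix Matrix.SpecialLinearGroup ModularGroup
open scoped MatrixGroups

namespace Fermat.Agent.TWMod

/-- The element `T S` of order six. -/
def UU : SL(2, ℤ) := T * S

/-- Action of `SL₂(ℤ)` on matrices by `g M gᵀ`. -/
def actM : SL(2, ℤ) →* Equiv.Perm (Matrix (Fin 2) (Fin 2) ℤ) where
  toFun g :=
    { toFun := fun M ↦ (g : Matrix (Fin 2) (Fin 2) ℤ) * M * (g : Matrix (Fin 2) (Fin 2) ℤ)ᵀ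
      invFun := fun M ↦ ((g⁻¹ : SL(2, ℤ)) : Matrix (Fin 2) (Fin 2) ℤ) * M *
        ((g⁻¹ : SL(2, ℤ)) : Matrix (Fin 2) (Fin 2) ℤ)ᵀ
      left_inv := fun M ↦ by
        have h : ((g⁻¹ : SL(2, ℤ)) : Matrix (Fin 2) (Fin 2) ℤ) * (g : Matrix (Fin 2) (Fin 2) ℤ) = 1 := by
          rw [← Matrix.SpecialLinearGroup.coe_mul, inv_mul_cancel, Matrix.SpecialLinearGroup.coe_one]
        calc _ = (((g⁻¹ : SL(2, ℤ)) : Matrix (Fin 2) (Fin 2) ℤ) * (g : Matrix (Fin 2) (Fin 2) ℤ)) * M *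
            (((g⁻¹ : SL(2, ℤ)) : Matrix (Fin 2) (Fin 2) ℤ) * (g : Matrix (Fin 2) (Fin 2) ℤ))ᵀ := by
              rw [Matrix.transpose_mul]; simp only [Matrix.mul_assoc]
          _ = M := by rw [h]; simp
      right_inv := fun M ↦ by
        have h : (g : Matrix (Fin 2) (Fin 2) ℤ) * ((g⁻¹ : SL(2, ℤ)) : Matrix (Fin 2) (Fin 2) ℤ) = 1 := by
          rw [← Matrix.SpecialLinearGroup.coe_mul, mul_inv_cancel, Matrix.SpecialLinearGroup.coe_one]
        calc _ = ((g : Matrix (Fin 2) (Fin 2) ℤ) * ((g⁻¹ : SL(2, ℤ)) : Matrix (Fin 2) (Fin 2) ℤ)) * M *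
            ((g : Matrix (Fin 2) (Fin 2) ℤ) * ((g⁻¹ : SL(2, ℤ)) : Matrix (Fin 2) (Fin 2) ℤ))ᵀ := by
              rw [Matrix.transpose_mul]; simp only [Matrix.mul_assoc]
          _ = M := by rw [h]; simp }
  map_one' := by
    ext M
    simp
  map_mul' g h := by
    refine Equiv.ext fun M ↦ ?_
    change ((g * h : SL(2, ℤ)) : Matrix (Fin 2) (Fin 2) ℤ) * M *
      ((g * h : SL(2, ℤ)) : Matrix (Fin 2) (Fin 2) ℤ)ᵀ =
      (g : Matrix (Fin 2) (Fin 2) ℤ) * ((h : Matrix (Fin 2) (Fin 2) ℤ) * M *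
      (h : Matrix (Fin 2) (Fin 2) ℤ)ᵀ) * (g : Matrix (Fin 2) (Fin 2) ℤ)ᵀ
    rw [Matrix.SpecialLinearGroup.coe_mul, Matrix.transpose_mul]
    simp only [Matrix.mul_assoc]

theorem actM_apply (g : SL(2, ℤ)) (M : Matrix (Fin 2) (Fin 2) ℤ) :
    actM g M = (g : Matrix (Fin 2) (Fin 2) ℤ) * M * (g : Matrix (Fin 2) (Fin 2) ℤ)ᵀ := rfl

theorem actM_S (M : Matrix (Fin 2) (Fin 2) ℤ) :
    actM S M = !![M 1 1, - M 1 0; - M 0 1, M 0 0] := by
  rw [actM_apply, coe_S]
  ext i j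
  fin_cases i <;> fin_cases j <;>
    simp [Matrix.mul_apply, Fin.sum_univ_two, Matrix.transpose_apply, -Matrix.cons_mul]

theorem coe_UU : ((UU : SL(2, ℤ)) : Matrix (Fin 2) (Fin 2) ℤ) = !![1, -1; 1, 0] := by
  rw [UU, Matrix.SpecialLinearGroup.coe_mul, coe_T, coe_S]
  ext i j
  fin_cases i <;> fin_cases j <;> simp [Matrix.mul_apply, Fin.sum_univ_two]

theorem actM_UU (M : Matrix (Fin 2) (Fin 2) ℤ) :
    actM UU M = !![M 0 0 - M 1 0 - M 0 1 + M 1 1, M 0 0 - M 1 0; M 0 0 - M 0 1, M 0 0] := by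
  rw [actM_apply, coe_UU]
  ext i j
  fin_cases i <;> fin_cases j <;>
    (simp [Matrix.mul_apply, Fin.sum_univ_two, Matrix.transpose_apply, -Matrix.cons_mul]; try ring)

theorem actM_S_sq : actM S ^ 2 = 1 := by
  refine Equiv.ext fun M ↦ ?_
  rw [pow_two, Equiv.Perm.mul_apply, actM_S, actM_S]
  ext i j
  fin_cases i <;> fin_cases j <;> simp

theorem actM_UU_cube : actM UU ^ 3 = 1 := by
  refine Equiv.ext fun M ↦ ?_
  rw [pow_succ, pow_two, Equiv.Perm.mul_apply, Equiv.Perm.mul_apply, actM_UU, actM_UU, actM_UU]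
  ext i j
  fin_cases i <;> fin_cases j <;> simp <;> ring

/-- sample matrix -/
def M0 : Matrix (Fin 2) (Fin 2) ℤ := !![1, 1; 1, 1]

theorem actM_S_ne : actM S ≠ 1 := by
  intro h
  have := congrArg (fun f : Equiv.Perm (Matrix (Fin 2) (Fin 2) ℤ) ↦ f M0 0 1) h
  simp [actM_S, M0] at this

theorem actM_UU_ne : actM UU ≠ 1 := by
  intro h
  have := congrArg (fun f : Equiv.Perm (Matrix (Fin 2) (Fin 2) ℤ) ↦ f M0 0 1) h
  simp [actM_UU, M0] at this

/-- the generators -/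
def gen : Bool → Equiv.Perm (Matrix (Fin 2) (Fin 2) ℤ)
  | true => actM S
  | false => actM UU

/-- the orders -/
def ordB : Bool → ℕ
  | true => 2
  | false => 3

theorem orderOf_gen (b : Bool) : orderOf (gen b) = ordB b := by
  cases b
  · exact orderOf_eq_prime (p := 3) actM_UU_cube actM_UU_ne
  · exact orderOf_eq_prime (p := 2) actM_S_sq actM_S_ne

/-- The ping-pong sets. -/
def pp : Bool → Set (Matrix (Fin 2) (Fin 2) ℤ)
  | true => {M | 0 < M 0 0 ∧ 0 < M 1 1 ∧ M 0 1 < 0 ∧ M 1 0 = M 0 1}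
  | false => {M | 0 < M 0 0 ∧ 0 < M 1 1 ∧ 0 < M 0 1 ∧ M 1 0 = M 0 1}

theorem gen_true_mem {M : Matrix (Fin 2) (Fin 2) ℤ} (hM : M ∈ pp false) : actM S M ∈ pp true := by
  obtain ⟨h1, h2, h3, h4⟩ := hM
  rw [actM_S]
  refine ⟨?_, ?_, ?_, ?_⟩ <;> simp <;> omega

theorem gen_false_mem {M : Matrix (Fin 2) (Fin 2) ℤ} (hM : M ∈ pp true) : actM UU M ∈ pp false := by
  obtain ⟨h1, h2, h3, h4⟩ := hM
  rw [actM_UU]
  refine ⟨?_, ?_, ?_, ?_⟩ <;> simp <;> omega

theorem gen_false_sq_mem {M : Matrix (Fin 2) (Fin 2) ℤ} (hM : M ∈ pp true) :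
    actM UU (actM UU M) ∈ pp false := by
  obtain ⟨h1, h2, h3, h4⟩ := hM
  rw [actM_UU, actM_UU]
  refine ⟨?_, ?_, ?_, ?_⟩ <;> simp <;> omega

open Subgroup in
/-- The injection of the free product into permutations. -/
theorem lift_injective : Function.Injective
    (Monoid.CoprodI.lift (fun b : Bool ↦ (zpowers (gen b)).subtype)) := by
  refine Monoid.CoprodI.lift_injective_of_ping_pong _ (Or.inr ⟨false, ?_⟩) pp ?_ ?_ ?_
  · have h : Nat.card (zpowers (gen false)) = 3 := by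
      rw [Nat.card_zpowers, orderOf_gen]; rfl
    have : Finite (zpowers (gen false)) := Nat.finite_of_card_ne_zero (by rw [h]; norm_num)
    rw [← Nat.cast_card, h]
    norm_num
  · intro b
    cases b
    · exact ⟨!![1, 1; 1, 1], by simp [pp]⟩
    · exact ⟨!![1, -1; -1, 1], by simp [pp]⟩
  · intro b b' hbb
    cases b <;> cases b' <;> first | exact absurd rfl hbb | skip
    · refine Set.disjoint_left.mpr fun M h1 h2 ↦ ?_
      have := h1.2.2.1
      have := h2.2.2.1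
      omega
    · refine Set.disjoint_left.mpr fun M h1 h2 ↦ ?_
      have := h1.2.2.1
      have := h2.2.2.1
      omega
  · intro b b' hbb h hh
    obtain ⟨⟨g, hg⟩⟩ : Nonempty {g : zpowers (gen b) // g = h} := ⟨⟨h, rfl⟩⟩
    rw [Set.smul_set_subset_iff]
    intro M hM
    obtain ⟨k, hk⟩ := mem_zpowers_iff.mp h.2
    have hk' : (h : Equiv.Perm (Matrix (Fin 2) (Fin 2) ℤ)) = gen b ^ (k % (ordB b : ℤ)) := by
      rw [← hk, ← orderOf_gen, zpow_mod_orderOf]
    have hne : (h : Equiv.Perm (Matrix (Fin 2) (Fin 2) ℤ)) ≠ 1 := fun h' ↦ hh (Subtype.ext h')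
    change (h : Equiv.Perm (Matrix (Fin 2) (Fin 2) ℤ)) M ∈ pp b
    cases b <;> cases b' <;> first | exact absurd rfl hbb | skip
    · have h3 : k % (ordB false : ℤ) = 0 ∨ k % (ordB false : ℤ) = 1 ∨ k % (ordB false : ℤ) = 2 := by
        rw [show (ordB false : ℤ) = 3 from rfl]
        omega
      rcases h3 with h3 | h3 | h3
      · rw [h3, zpow_zero] at hk'
        exact absurd hk' hne
      · rw [hk', h3, zpow_one]
        exact gen_false_mem hM
      · rw [hk', h3, show (2 : ℤ) = ((2 : ℕ) : ℤ) from rfl, zpow_natCast, pow_two]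
        exact gen_false_sq_mem hM
    · have h3 : k % (ordB true : ℤ) = 0 ∨ k % (ordB true : ℤ) = 1 := by
        rw [show (ordB true : ℤ) = 2 from rfl]
        omega
      rcases h3 with h3 | h3
      · rw [h3, zpow_zero] at hk'
        exact absurd hk' hne
      · rw [hk', h3, zpow_one]
        exact gen_true_mem hM

open Subgroup in
theorem range_actM_le : (actM).range ≤
    (Monoid.CoprodI.lift (fun b : Bool ↦ (zpowers (gen b)).subtype)).range := by
  rw [MonoidHom.range_eq_map, ← SpecialLinearGroup.SL2Z_generators, MonoidHom.map_closure,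
    Subgroup.closure_le]
  have hS : actM S ∈ (Monoid.CoprodI.lift (fun b : Bool ↦ (zpowers (gen b)).subtype)).range :=
    ⟨Monoid.CoprodI.of (i := true) ⟨actM S, mem_zpowers (gen true)⟩, by simp⟩
  have hU : actM UU ∈ (Monoid.CoprodI.lift (fun b : Bool ↦ (zpowers (gen b)).subtype)).range :=
    ⟨Monoid.CoprodI.of (i := false) ⟨actM UU, mem_zpowers (gen false)⟩, by simp⟩
  rintro _ ⟨x, hx, rfl⟩
  rcases hx with rfl | rfl
  · exact hS
  · have h : T = UU * S⁻¹ := by rw [UU, mul_inv_cancel_right]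
    rw [h, map_mul, map_inv]
    exact mul_mem hU (inv_mem hS)

/-- Universal property of `PSL₂(ℤ)`. -/
theorem exists_hom {H : Type*} [Group H] (s u : H) (hs : s ^ 2 = 1) (hu : u ^ 3 = 1) :
    ∃ φ : SL(2, ℤ) →* H, φ S = s ∧ φ UU = u := by
  classical
  let tgt : Bool → H := fun b ↦ if b then s else u
  have htgt : ∀ b, orderOf (tgt b) ∣ ordB b := by
    intro b
    cases b
    · exact orderOf_dvd_of_pow_eq_one hu
    · exact orderOf_dvd_of_pow_eq_one hs
  let zg : ∀ b : Bool, Subgroup.zpowers (gen b) := fun b ↦ ⟨gen b, Subgroup.mem_zpowers _⟩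
  have hzg : ∀ b, ∀ x : Subgroup.zpowers (gen b), x ∈ Subgroup.zpowers (zg b) := by
    rintro b ⟨x, k, rfl⟩
    exact ⟨k, rfl⟩
  have hord : ∀ b, orderOf (tgt b) ∣ orderOf (zg b) := by
    intro b
    rw [show orderOf (zg b) = orderOf (gen b) from Subgroup.orderOf_mk _ _, orderOf_gen]
    exact htgt b
  let gg : ∀ b : Bool, Subgroup.zpowers (gen b) →* H := fun b ↦
    monoidHomOfForallMemZpowers (hzg b) (hord b)
  have hgg : ∀ b, gg b (zg b) = tgt b := fun b ↦ monoidHomOfForallMemZpowers_apply_gen _ _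
  let Ψ := Monoid.CoprodI.lift (fun b : Bool ↦ (Subgroup.zpowers (gen b)).subtype)
  let e := MonoidHom.ofInjective (f := Ψ) lift_injective
  let ρ : SL(2, ℤ) →* Ψ.range := actM.codRestrict Ψ.range (fun g ↦ range_actM_le ⟨g, rfl⟩)
  refine ⟨((Monoid.CoprodI.lift gg).comp e.symm.toMonoidHom).comp ρ, ?_, ?_⟩
  · have h : e.symm (ρ S) = Monoid.CoprodI.of (i := true) (zg true) := by
      rw [MulEquiv.symm_apply_eq]
      apply Subtype.ext
      change actM S = Ψ _
      exact (Monoid.CoprodI.lift_of (fun b : Bool ↦ (Subgroup.zpowers (gen b)).subtype) (zg true)).symm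
    change Monoid.CoprodI.lift gg (e.symm (ρ S)) = s
    rw [h, Monoid.CoprodI.lift_of, hgg]
    rfl
  · have h : e.symm (ρ UU) = Monoid.CoprodI.of (i := false) (zg false) := by
      rw [MulEquiv.symm_apply_eq]
      apply Subtype.ext
      change actM UU = Ψ _
      exact (Monoid.CoprodI.lift_of (fun b : Bool ↦ (Subgroup.zpowers (gen b)).subtype) (zg false)).symm
    change Monoid.CoprodI.lift gg (e.symm (ρ UU)) = u
    rw [h, Monoid.CoprodI.lift_of, hgg]
    rfl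

/-- Uniqueness. -/
theorem hom_ext {H : Type*} [Group H] {φ ψ : SL(2, ℤ) →* H} (h1 : φ S = ψ S)
    (h2 : φ UU = ψ UU) : φ = ψ := by
  have hT : T = UU * S⁻¹ := by rw [UU, mul_inv_cancel_right]
  refine MonoidHom.eq_of_eqOn_dense SpecialLinearGroup.SL2Z_generators ?_
  rintro x (rfl | rfl)
  · exact h1
  · rw [hT, map_mul, map_mul, map_inv, map_inv, h1, h2]

end Fermat.Agent.TWMod
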