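import Fermat.Agent.TWMod.BaseChange
import Fermat.Agent.Top.HeckeHom

set_option autoImplicit false

/-!
# Hecke operators on twisted cohomology of `Γ₀(N)`

For a Dirichlet character `χ` modulo `N` with values in `Λ`, `kap χ : Γ₀(N) → Λ` is the character
`γ ↦ χ(d) χ⁻¹(a) (= χ(d)²)`.  The Hecke operator `T_ℓ` (`ℓ ∤ N`) on `H1 (kap χ) A` has weights
`χ(ℓ)⁻¹` at `(1, j; 0, ℓ)` and `χ(ℓ)` at `(ℓ, 0; 0, 1)`.
-/

open CongruenceSubgroup Fermat.Agent.Top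
open scoped MatrixGroups

namespace Fermat.Agent.TWMod

open Matrix.SpecialLinearGroup

variable {N : ℕ} {Λ : Type*} [CommRing Λ] (χ : DirichletCharacter Λ N)

/-- weight of an integral matrix -/
noncomputable def wt (M : Matrix (Fin 2) (Fin 2) ℤ) : Λ :=
  χ ((M 0 0 : ℤ) : ZMod N) * χ⁻¹ ((M 1 1 : ℤ) : ZMod N)

theorem wt_mul {A B : Matrix (Fin 2) (Fin 2) ℤ} (hA : (N : ℤ) ∣ A 1 0) (hB : (N : ℤ) ∣ B 1 0) :
    wt χ (A * B) = wt χ A * wt χ B := by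
  have hA' : ((A 1 0 : ℤ) : ZMod N) = 0 := (ZMod.intCast_zmod_eq_zero_iff_dvd _ _).mpr hA
  have hB' : ((B 1 0 : ℤ) : ZMod N) = 0 := (ZMod.intCast_zmod_eq_zero_iff_dvd _ _).mpr hB
  simp only [wt, Matrix.mul_apply, Fin.sum_univ_two]
  push_cast
  rw [hA', hB', mul_zero, add_zero, zero_mul, zero_add, map_mul, map_mul]
  ring

theorem isUnit_cast_of_mem (γ : Gamma0 N) :
    IsUnit ((((γ : SL(2, ℤ)) : Matrix (Fin 2) (Fin 2) ℤ) 0 0 : ℤ) : ZMod N) ∧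
    IsUnit ((((γ : SL(2, ℤ)) : Matrix (Fin 2) (Fin 2) ℤ) 1 1 : ℤ) : ZMod N) := by
  have h10 : ((((γ : SL(2, ℤ)) : Matrix (Fin 2) (Fin 2) ℤ) 1 0 : ℤ) : ZMod N) = 0 :=
    Gamma0_mem.mp γ.2
  have hdet := congrArg (Int.cast : ℤ → ZMod N) (γ : SL(2, ℤ)).det_coe
  rw [Matrix.det_fin_two] at hdet
  push_cast at hdet
  rw [h10, mul_zero, sub_zero] at hdet
  exact ⟨IsUnit.of_mul_eq_one _ hdet, IsUnit.of_mul_eq_one _ (by rw [mul_comm]; exact hdet)⟩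

theorem char_mul_inv {u : ZMod N} (hu : IsUnit u) : χ u * χ⁻¹ u = 1 := by
  rw [← MulChar.mul_apply, mul_inv_cancel, MulChar.one_apply hu]

/-- The character of `Γ₀(N)` attached to `χ`. -/
noncomputable def kap : Gamma0 N →* Λ where
  toFun γ := wt χ (((γ⁻¹ : Gamma0 N) : SL(2, ℤ)) : Matrix (Fin 2) (Fin 2) ℤ)
  map_one' := by
    simp [wt]
  map_mul' γ γ' := by
    rw [mul_inv_rev, mul_comm (wt χ _) (wt χ _), Subgroup.coe_mul,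
      Matrix.SpecialLinearGroup.coe_mul, wt_mul χ (isDelta_of_mem _).1 (isDelta_of_mem _).1]

theorem kap_eq (γ : Gamma0 N) :
    kap χ γ = χ ((((γ : SL(2, ℤ)) : Matrix (Fin 2) (Fin 2) ℤ) 1 1 : ℤ) : ZMod N) *
      χ⁻¹ ((((γ : SL(2, ℤ)) : Matrix (Fin 2) (Fin 2) ℤ) 0 0 : ℤ) : ZMod N) := by
  change wt χ _ = _
  rw [wt, Subgroup.coe_inv, Matrix.SpecialLinearGroup.coe_inv, Matrix.adjugate_fin_two]
  simp

theorem kap_eq_sq (γ : Gamma0 N) :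
    kap χ γ = χ ((((γ : SL(2, ℤ)) : Matrix (Fin 2) (Fin 2) ℤ) 1 1 : ℤ) : ZMod N) ^ 2 := by
  obtain ⟨ha, hd⟩ := isUnit_cast_of_mem γ
  have h10 : ((((γ : SL(2, ℤ)) : Matrix (Fin 2) (Fin 2) ℤ) 1 0 : ℤ) : ZMod N) = 0 :=
    Gamma0_mem.mp γ.2
  have hdet := congrArg (Int.cast : ℤ → ZMod N) (γ : SL(2, ℤ)).det_coe
  rw [Matrix.det_fin_two] at hdet
  push_cast at hdet
  rw [h10, mul_zero, sub_zero] at hdet
  have h1 := congrArg χ hdet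
  rw [map_mul, map_one] at h1
  have h2 := char_mul_inv χ ha
  rw [kap_eq]
  linear_combination (- χ⁻¹ ((((γ : SL(2, ℤ)) : Matrix (Fin 2) (Fin 2) ℤ) 0 0 : ℤ) : ZMod N) *
    χ ((((γ : SL(2, ℤ)) : Matrix (Fin 2) (Fin 2) ℤ) 1 1 : ℤ) : ZMod N)) * h1 +
    (χ ((((γ : SL(2, ℤ)) : Matrix (Fin 2) (Fin 2) ℤ) 1 1 : ℤ) : ZMod N) ^ 2) * h2

theorem wt_mul_kap (γ : Gamma0 N) :
    wt χ ((γ : SL(2, ℤ)) : Matrix (Fin 2) (Fin 2) ℤ) * kap χ γ = 1 := by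
  obtain ⟨ha, hd⟩ := isUnit_cast_of_mem γ
  rw [kap_eq, wt]
  linear_combination (χ ((((γ : SL(2, ℤ)) : Matrix (Fin 2) (Fin 2) ℤ) 1 1 : ℤ) : ZMod N) *
      χ⁻¹ ((((γ : SL(2, ℤ)) : Matrix (Fin 2) (Fin 2) ℤ) 1 1 : ℤ) : ZMod N)) * char_mul_inv χ ha +
    char_mul_inv χ hd

theorem neg_one_mem_Gamma0 : (-1 : SL(2, ℤ)) ∈ Gamma0 N := by
  rw [Gamma0_mem]
  simp

/-- Either `3` is invertible in `Λ`, or `Γ₀(N)` has no element of order three modulo `±1`. -/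
abbrev Three (Λ : Type*) [CommRing Λ] (N : ℕ) : Prop :=
  IsUnit (3 : Λ) ∨ ∃ r : ℕ, r.Prime ∧ r % 3 = 2 ∧ r ∣ N

/-- no elements of order three in `Γ₀(N)/±1` if `N` is divisible by a prime `r ≡ 2 mod 3` -/
theorem conj_UU_notMem (hN : ∃ r : ℕ, r.Prime ∧ r % 3 = 2 ∧ r ∣ N) (g : SL(2, ℤ)) :
    g * UU * g⁻¹ ∉ Gamma0 N := by
  intro h
  obtain ⟨r, hr, hr3, hrN⟩ := hN
  have hfact : Fact r.Prime := ⟨hr⟩
  have h10 : (((((g * UU * g⁻¹ : SL(2, ℤ))) : Matrix (Fin 2) (Fin 2) ℤ) 1 0 : ℤ) : ZMod r) = 0 := by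
    have h1 := Gamma0_mem.mp h
    rw [ZMod.intCast_zmod_eq_zero_iff_dvd] at h1 ⊢
    exact (Int.natCast_dvd_natCast.mpr hrN).trans h1
  have htr : ((g * UU * g⁻¹ : SL(2, ℤ)) : Matrix (Fin 2) (Fin 2) ℤ).trace = 1 := by
    rw [Matrix.SpecialLinearGroup.coe_mul, Matrix.trace_mul_comm,
      ← Matrix.SpecialLinearGroup.coe_mul, ← mul_assoc, inv_mul_cancel, one_mul, coe_UU]
    simp [Matrix.trace_fin_two]
  have hdet := (g * UU * g⁻¹ : SL(2, ℤ)).det_coe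
  rw [Matrix.det_fin_two] at hdet
  rw [Matrix.trace_fin_two] at htr
  set a := (((g * UU * g⁻¹ : SL(2, ℤ))) : Matrix (Fin 2) (Fin 2) ℤ) 0 0
  set b := (((g * UU * g⁻¹ : SL(2, ℤ))) : Matrix (Fin 2) (Fin 2) ℤ) 0 1
  set c := (((g * UU * g⁻¹ : SL(2, ℤ))) : Matrix (Fin 2) (Fin 2) ℤ) 1 0
  set d := (((g * UU * g⁻¹ : SL(2, ℤ))) : Matrix (Fin 2) (Fin 2) ℤ) 1 1
  have h1 : d = 1 - a := by omega
  have hq : (-(a : ZMod r)) ^ 2 + -(a : ZMod r) + 1 = 0 := by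
    have h2 := congrArg (Int.cast : ℤ → ZMod r) hdet
    rw [h1] at h2
    push_cast at h2
    rw [h10] at h2
    linear_combination -h2
  set x : ZMod r := -(a : ZMod r) with hx
  have hx3 : x ^ 3 = 1 := by linear_combination (x - 1) * hq
  have h3ne : (3 : ZMod r) ≠ 0 := by
    intro h3
    have h4 : ((3 : ℕ) : ZMod r) = 0 := by exact_mod_cast h3
    rw [ZMod.natCast_eq_zero_iff] at h4
    have h5 := (Nat.prime_dvd_prime_iff_eq hr Nat.prime_three).mp h4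
    rw [h5] at hr3
    omega
  have hx1 : x ≠ 1 := by
    intro h4
    rw [h4] at hq
    apply h3ne
    linear_combination hq
  have hx0 : x ≠ 0 := by
    intro h4
    rw [h4] at hq
    simp at hq
  have hord : orderOf x = 3 := orderOf_eq_prime hx3 hx1
  have hdvd := ZMod.orderOf_dvd_card_sub_one hx0
  rw [hord] at hdvd
  have := hr.two_le
  omega

theorem isGood_kap (h2 : IsUnit (2 : Λ)) (h3 : Three Λ N) : IsGood (kap χ) where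
  two := h2
  three := h3.imp id conj_UU_notMem
  mem := neg_one_mem_Gamma0
  κ_neg := by
    rw [kap_eq]
    simp only [Matrix.SpecialLinearGroup.coe_neg, Matrix.SpecialLinearGroup.coe_one,
      Matrix.neg_apply, Matrix.one_apply_eq, Int.cast_neg, Int.cast_one]
    exact char_mul_inv χ isUnit_one.neg

/-- The weights of the Hecke operator. -/
noncomputable def hw (ℓ : ℕ) (i : HI N ℓ) : Λ := wt χ (HM ℓ i.1)

theorem dvd_HM (ℓ : ℕ) (i : Option (Fin ℓ)) : (N : ℤ) ∣ HM ℓ i 1 0 := by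
  cases i <;> simp [HM]

theorem int_of_GL {A B C D : Matrix (Fin 2) (Fin 2) ℤ} {a b c d : GL (Fin 2) ℝ}
    (ha : (a : Matrix (Fin 2) (Fin 2) ℝ) = A.map (Int.cast : ℤ → ℝ))
    (hb : (b : Matrix (Fin 2) (Fin 2) ℝ) = B.map (Int.cast : ℤ → ℝ))
    (hc : (c : Matrix (Fin 2) (Fin 2) ℝ) = C.map (Int.cast : ℤ → ℝ))
    (hd : (d : Matrix (Fin 2) (Fin 2) ℝ) = D.map (Int.cast : ℤ → ℝ)) (h : a * b = c * d) :
    A * B = C * D := by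
  apply map_cast_injective
  rw [map_mul_cast, map_mul_cast, ← ha, ← hb, ← hc, ← hd, ← Units.val_mul, ← Units.val_mul, h]

theorem isWeight_hw {ℓ : ℕ} (hℓ : ℓ.Prime) : IsWeight (hreps N hℓ) (kap χ) (hw χ ℓ) := by
  intro γ i
  have h : HM ℓ i.1 * ((γ : SL(2, ℤ)) : Matrix (Fin 2) (Fin 2) ℤ) =
      (((hreps N hℓ).c γ i : SL(2, ℤ)) : Matrix (Fin 2) (Fin 2) ℤ) *
        HM ℓ ((hreps N hℓ).σ γ i).1 :=
    int_of_GL (HR_apply hℓ.ne_zero _) (mapGL_coe _) (mapGL_coe _)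
      (HR_apply hℓ.ne_zero _) ((hreps N hℓ).mul_eq γ i)
  have h1 := congrArg (wt χ) h
  rw [wt_mul χ (dvd_HM ℓ _) (isDelta_of_mem γ).1, wt_mul χ (isDelta_of_mem _).1 (dvd_HM ℓ _)] at h1
  have h2 := wt_mul_kap χ γ
  have h3 := wt_mul_kap χ ((hreps N hℓ).c γ i)
  simp only [hw]
  linear_combination (kap χ γ * kap χ ((hreps N hℓ).c γ i)) * h1 -
    (wt χ (HM ℓ i.1) * kap χ ((hreps N hℓ).c γ i)) * h2 +
    (kap χ γ * wt χ (HM ℓ ((hreps N hℓ).σ γ i).1)) * h3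

variable (A : Type*) [AddCommGroup A] [Module Λ A]

/-- The Hecke operator `T_ℓ` on twisted cohomology. -/
noncomputable def hk {ℓ : ℕ} (hℓ : ℓ.Prime) : H1 (kap χ) A →ₗ[Λ] H1 (kap χ) A :=
  opH A (isWeight_hw χ hℓ)

/-- The Hecke operators commute. -/
theorem hk_comm {ℓ ℓ' : ℕ} (hℓ : ℓ.Prime) (hℓ' : ℓ'.Prime) (x : H1 (kap χ) A) :
    hk χ A hℓ (hk χ A hℓ' x) = hk χ A hℓ' (hk χ A hℓ x) := by
  rcases eq_or_ne ℓ ℓ' with rfl | hne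
  · rfl
  obtain ⟨f, rfl⟩ := cls_surjective _ _ x
  have e1 : hk χ A hℓ (hk χ A hℓ' (cls (kap χ) A f)) =
      opH A ((isWeight_hw χ hℓ').comp (isWeight_hw χ hℓ)) (cls (kap χ) A f) := by
    rw [hk, hk, opH_cls, opH_cls, opH_cls, opZ_comp]
  have e2 : hk χ A hℓ' (hk χ A hℓ (cls (kap χ) A f)) =
      opH A ((isWeight_hw χ hℓ).comp (isWeight_hw χ hℓ')) (cls (kap χ) A f) := by
    rw [hk, hk, opH_cls, opH_cls, opH_cls, opZ_comp]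
  rw [e1, e2]
  refine opH_congr _ _ (fun g i j h ↦ comp_unique hℓ' hℓ hne.symm g i j h)
      (fun g i j h ↦ comp_unique hℓ hℓ' hne g i j h) (fun i ↦ ?_)
      (by rw [Fintype.card_prod, Fintype.card_prod, mul_comm]) _
  obtain ⟨g, j, h⟩ := comp_exists hℓ' hℓ i
  refine ⟨g, j, h, ?_⟩
  have h1 : HM ℓ' i.1.1 * HM ℓ i.2.1 =
      ((g : SL(2, ℤ)) : Matrix (Fin 2) (Fin 2) ℤ) * (HM ℓ j.1.1 * HM ℓ' j.2.1) := by
    refine int_of_GL (HR_apply hℓ'.ne_zero i.1.1) (HR_apply hℓ.ne_zero i.2.1)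
      (mapGL_coe _) (HR_mul_apply hℓ hℓ' j.1.1 j.2.1) h
  have h2 := congrArg (wt χ) h1
  have h3 : (N : ℤ) ∣ (HM ℓ j.1.1 * HM ℓ' j.2.1) 1 0 := by
    simp only [Matrix.mul_apply, Fin.sum_univ_two]
    exact dvd_add ((dvd_HM ℓ _).mul_right _) ((dvd_HM ℓ' _).mul_left _)
  rw [wt_mul χ (dvd_HM ℓ' _) (dvd_HM ℓ _), wt_mul χ (isDelta_of_mem _).1 h3,
    wt_mul χ (dvd_HM ℓ _) (dvd_HM ℓ' _)] at h2
  have h4 := wt_mul_kap χ g
  simp only [hw]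
  rw [h2]
  linear_combination (wt χ (HM ℓ j.1.1) * wt χ (HM ℓ' j.2.1)) * h4

/-- The sum of the weights. -/
theorem sum_hw {ℓ : ℕ} (hℓN : ¬ ℓ ∣ N) :
    ∑ i, hw χ ℓ i = ℓ * χ⁻¹ (ℓ : ZMod N) + χ (ℓ : ZMod N) := by
  classical
  have h := sum_HI N ℓ (fun i ↦ wt χ (HM ℓ i))
  rw [if_neg hℓN] at h
  change ∑ i : HI N ℓ, wt χ (HM ℓ i.1) = _
  rw [h]
  simp [wt, Finset.sum_const, Finset.card_univ]

end Fermat.Agent.TWMod
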