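import Fermat.Agent.TWMod.Shapiro
import Fermat.Agent.TWMod.FreeProd

set_option autoImplicit false

/-!
# Right exactness of twisted cohomology of finite index subgroups of `SL₂(ℤ)`
-/

open Matrix Matrix.SpecialLinearGroup ModularGroup
open scoped MatrixGroups

namespace Fermat.Agent.TWMod

open CSys

theorem S_sq : (S : SL(2, ℤ)) * S = -1 := by
  apply Subtype.ext
  rw [Matrix.SpecialLinearGroup.coe_mul, coe_S, Matrix.SpecialLinearGroup.coe_neg,
    Matrix.SpecialLinearGroup.coe_one]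
  ext i j
  fin_cases i <;> fin_cases j <;> simp [Matrix.mul_apply, Fin.sum_univ_two]

theorem UU_cube : UU * UU * UU = -1 := by
  apply Subtype.ext
  rw [Matrix.SpecialLinearGroup.coe_mul, Matrix.SpecialLinearGroup.coe_mul, coe_UU,
    Matrix.SpecialLinearGroup.coe_neg, Matrix.SpecialLinearGroup.coe_one]
  ext i j
  fin_cases i <;> fin_cases j <;> simp [Matrix.mul_apply, Fin.sum_univ_two]

theorem closure_S_UU : Subgroup.closure {S, UU} = (⊤ : Subgroup SL(2, ℤ)) := by
  rw [eq_top_iff, ← SpecialLinearGroup.SL2Z_generators, Subgroup.closure_le]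
  rintro x (rfl | rfl)
  · exact Subgroup.subset_closure (by simp)
  · have hT : T = UU * S⁻¹ := by rw [UU, mul_inv_cancel_right]
    rw [hT]
    exact mul_mem (Subgroup.subset_closure (by simp)) (inv_mem (Subgroup.subset_closure (by simp)))

section Rep

variable {Λ : Type*} [CommRing Λ] {V : Type*} [AddCommGroup V] [Module Λ V]
  {ρ : SL(2, ℤ) →* Module.End Λ V}

theorem rep_inv_apply (g : SL(2, ℤ)) (v : V) : ρ g⁻¹ (ρ g v) = v := by
  rw [← Module.End.mul_apply, ← map_mul, inv_mul_cancel, map_one, Module.End.one_apply]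

theorem rep_apply_inv (g : SL(2, ℤ)) (v : V) : ρ g (ρ g⁻¹ v) = v := by
  rw [← Module.End.mul_apply, ← map_mul, mul_inv_cancel, map_one, Module.End.one_apply]

/-- the affine permutation `x ↦ ρ g (x - v) + v` -/
def affPerm (ρ : SL(2, ℤ) →* Module.End Λ V) (g : SL(2, ℤ)) (v : V) : Equiv.Perm V where
  toFun x := ρ g (x - v) + v
  invFun x := ρ g⁻¹ (x - v) + v
  left_inv x := by
    change ρ g⁻¹ (ρ g (x - v) + v - v) + v = x
    rw [add_sub_cancel_right, rep_inv_apply, sub_add_cancel]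
  right_inv x := by
    change ρ g (ρ g⁻¹ (x - v) + v - v) + v = x
    rw [add_sub_cancel_right, rep_apply_inv, sub_add_cancel]

theorem affPerm_apply (g : SL(2, ℤ)) (v x : V) : affPerm ρ g v x = ρ g (x - v) + v := rfl

theorem affPerm_mul (g h : SL(2, ℤ)) (v : V) : affPerm ρ g v * affPerm ρ h v = affPerm ρ (g * h) v := by
  refine Equiv.ext fun x ↦ ?_
  rw [Equiv.Perm.mul_apply, affPerm_apply, affPerm_apply, affPerm_apply, add_sub_cancel_right,
    map_mul, Module.End.mul_apply]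

theorem affPerm_neg_one (hρ : ρ (-1) = 1) (v : V) : affPerm ρ (-1) v = 1 := by
  refine Equiv.ext fun x ↦ ?_
  rw [affPerm_apply, hρ, Module.End.one_apply, sub_add_cancel, Equiv.Perm.one_apply]

theorem IsCoc.one {F : SL(2, ℤ) → V} (hF : IsCoc ρ F) : F 1 = 0 := by
  have h := hF 1 1
  rw [mul_one, map_one, Module.End.one_apply] at h
  simpa using h

/-- Cocycles on `SL₂(ℤ)` are determined by their values on generators. -/
theorem IsCoc.ext {F F' : SL(2, ℤ) → V} (hF : IsCoc ρ F) (hF' : IsCoc ρ F') (h1 : F S = F' S)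
    (h2 : F UU = F' UU) : F = F' := by
  funext g
  have hg : g ∈ Subgroup.closure ({S, UU} : Set SL(2, ℤ)) := by rw [closure_S_UU]; trivial
  induction hg using Subgroup.closure_induction with
  | mem x hx =>
    rcases hx with rfl | rfl
    · exact h1
    · exact h2
  | one => rw [hF.one, hF'.one]
  | mul x y _ _ hx hy => rw [hF, hF', hx, hy]
  | inv x _ hx =>
    have e1 := hF x⁻¹ x
    have e2 := hF' x⁻¹ x
    rw [inv_mul_cancel, hF.one] at e1
    rw [inv_mul_cancel, hF'.one] at e2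
    rw [eq_neg_of_add_eq_zero_left e1.symm, eq_neg_of_add_eq_zero_left e2.symm, hx]

/-- Existence of cocycles with prescribed values on generators. -/
theorem exists_isCoc (hρ : ρ (-1) = 1) (v1 v2 : V) :
    ∃ F : SL(2, ℤ) → V, IsCoc ρ F ∧ F S = v1 - ρ S v1 ∧ F UU = v2 - ρ UU v2 := by
  obtain ⟨φ, hφ1, hφ2⟩ := exists_hom (affPerm ρ S v1) (affPerm ρ UU v2)
    (by rw [pow_two, affPerm_mul, S_sq, affPerm_neg_one hρ])
    (by rw [pow_succ, pow_two, affPerm_mul, affPerm_mul, UU_cube, affPerm_neg_one hρ])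
  have key : ∀ g : SL(2, ℤ), ∀ x y, φ g x - φ g y = ρ g (x - y) := by
    intro g
    have hg : g ∈ Subgroup.closure ({S, UU} : Set SL(2, ℤ)) := by rw [closure_S_UU]; trivial
    induction hg using Subgroup.closure_induction with
    | mem g hg =>
      intro x y
      rcases hg with rfl | rfl
      · rw [hφ1, affPerm_apply, affPerm_apply, add_sub_add_right_eq_sub, ← map_sub, sub_sub_sub_cancel_right]
      · rw [hφ2, affPerm_apply, affPerm_apply, add_sub_add_right_eq_sub, ← map_sub, sub_sub_sub_cancel_right]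
    | one => intro x y; simp
    | mul g h _ _ hg hh =>
      intro x y
      rw [map_mul, Equiv.Perm.mul_apply, Equiv.Perm.mul_apply, hg, hh, map_mul, Module.End.mul_apply]
    | inv g _ hg =>
      intro x y
      have h := hg (φ g⁻¹ x) (φ g⁻¹ y)
      rw [← Equiv.Perm.mul_apply, ← Equiv.Perm.mul_apply, ← map_mul, mul_inv_cancel, map_one,
        Equiv.Perm.one_apply, Equiv.Perm.one_apply] at h
      rw [h, rep_inv_apply]
  refine ⟨fun g ↦ φ g 0, ?_, ?_, ?_⟩
  · intro g h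
    change φ (g * h) 0 = φ g 0 + ρ g (φ h 0)
    have := key g (φ h 0) 0
    rw [sub_zero] at this
    rw [map_mul, Equiv.Perm.mul_apply, ← this]
    abel
  · change φ S 0 = _
    rw [hφ1, affPerm_apply, zero_sub, map_neg]
    abel
  · change φ UU 0 = _
    rw [hφ2, affPerm_apply, zero_sub, map_neg]
    abel

theorem IsCoc.neg_one (hρ : ρ (-1) = 1) (h2 : IsUnit (2 : Λ)) {F : SL(2, ℤ) → V}
    (hF : IsCoc ρ F) : F (-1) = 0 := by
  have h := hF (-1) (-1)
  rw [neg_mul_neg, one_mul, hF.one, hρ, Module.End.one_apply, ← two_smul Λ] at h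
  obtain ⟨u, hu⟩ := h2
  rw [← hu] at h
  have := congrArg (fun y ↦ (↑u⁻¹ : Λ) • y) h
  simp only [smul_zero, ← mul_smul, Units.inv_mul, one_smul] at this
  exact this.symm

/-- The value of a cocycle at `S`. -/
theorem IsCoc.exists_S (hρ : ρ (-1) = 1) (h2 : IsUnit (2 : Λ)) {F : SL(2, ℤ) → V}
    (hF : IsCoc ρ F) : ∃ v, F S = v - ρ S v := by
  obtain ⟨u, hu⟩ := h2
  have h := hF S S
  rw [S_sq, hF.neg_one hρ ⟨u, hu⟩] at h
  refine ⟨(↑u⁻¹ : Λ) • F S, ?_⟩
  rw [map_smul, eq_neg_of_add_eq_zero_right h.symm, smul_neg, sub_neg_eq_add, ← two_smul Λ, ← hu,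
    ← mul_smul, Units.mul_inv, one_smul]

theorem IsCoc.exists_UU (hρ : ρ (-1) = 1) (h2 : IsUnit (2 : Λ)) (h3 : IsUnit (3 : Λ))
    {F : SL(2, ℤ) → V} (hF : IsCoc ρ F) : ∃ v, F UU = v - ρ UU v := by
  obtain ⟨u, hu⟩ := h3
  have h := hF (UU * UU) UU
  rw [UU_cube, hF.neg_one hρ h2, hF UU UU, map_mul, Module.End.mul_apply] at h
  refine ⟨(↑u⁻¹ : Λ) • ((2 : Λ) • F UU + ρ UU (F UU)), ?_⟩
  rw [map_smul, ← smul_sub, map_add, map_smul]
  have e : (2 : Λ) • F UU + ρ UU (F UU) - ((2 : Λ) • ρ UU (F UU) + ρ UU (ρ UU (F UU))) =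
      (3 : Λ) • F UU := by
    have h' : ρ UU (ρ UU (F UU)) = - (F UU + ρ UU (F UU)) := eq_neg_of_add_eq_zero_right h.symm
    rw [h']
    module
  rw [e, ← hu, ← mul_smul, Units.inv_mul, one_smul]

/-- Lifting of cocycles along a surjection of representations. -/
theorem exists_lift_isCoc {W : Type*} [AddCommGroup W] [Module Λ W]
    {ρ' : SL(2, ℤ) →* Module.End Λ W} (hρ : ρ (-1) = 1) (hρ' : ρ' (-1) = 1)
    (h2 : IsUnit (2 : Λ)) (g : V →ₗ[Λ] W) (hg : Function.Surjective g)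
    (hgρ : ∀ s v, g (ρ s v) = ρ' s (g v)) {F : SL(2, ℤ) → W} (hF : IsCoc ρ' F)
    (h3 : ∃ v, F UU = v - ρ' UU v) :
    ∃ F' : SL(2, ℤ) → V, IsCoc ρ F' ∧ ∀ s, g (F' s) = F s := by
  obtain ⟨w1, hw1⟩ := hF.exists_S hρ' h2
  obtain ⟨w2, hw2⟩ := h3
  obtain ⟨v1, rfl⟩ := hg w1
  obtain ⟨v2, rfl⟩ := hg w2
  obtain ⟨F', hF', e1, e2⟩ := exists_isCoc hρ v1 v2
  refine ⟨F', hF', ?_⟩
  have hc : IsCoc ρ' (fun s ↦ g (F' s)) := by
    intro s s'
    change g (F' (s * s')) = _
    rw [hF', map_add, hgρ]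
  have := hc.ext hF (by rw [hw1]; change g (F' S) = _; rw [e1, map_sub, hgρ])
    (by rw [hw2]; change g (F' UU) = _; rw [e2, map_sub, hgρ])
  exact fun s ↦ congrFun this s

end Rep

section Sub

variable {Γ : Subgroup SL(2, ℤ)} {Λ : Type*} [CommRing Λ] {κ : Γ →* Λ}
  {A A' A'' : Type*} [AddCommGroup A] [Module Λ A] [AddCommGroup A'] [Module Λ A']
  [AddCommGroup A''] [Module Λ A'']

/-- The conditions on `(Γ, κ)`. -/
structure IsGood (κ : Γ →* Λ) : Prop where
  two : IsUnit (2 : Λ)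
  three : IsUnit (3 : Λ) ∨ ∀ g : SL(2, ℤ), g * UU * g⁻¹ ∉ Γ
  mem : (-1 : SL(2, ℤ)) ∈ Γ
  κ_neg : κ ⟨-1, mem⟩ = 1

theorem IsGood.ind_neg_one (h : IsGood κ) {X : Type*} (C : CSys Γ X) :
    C.ind κ A (-1) = 1 := by
  refine LinearMap.ext fun v ↦ funext fun x ↦ ?_
  have e : C.r x * (-1) = ((⟨-1, h.mem⟩ : Γ) : SL(2, ℤ)) * C.r x := by
    simp
  rw [ind_apply, C.c_eq _ e, C.σ_eq _ e, h.κ_neg, one_smul, Module.End.one_apply]

/-- a fundamental domain for a free action of a group of order three -/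
theorem exists_fund {X : Type*} (s : X → X) (hs : ∀ x, s (s (s x)) = x) (hf : ∀ x, s x ≠ x) :
    ∃ Y : Set X, ∀ x, (x ∈ Y ∧ s x ∉ Y ∧ s (s x) ∉ Y) ∨ (x ∉ Y ∧ s x ∈ Y ∧ s (s x) ∉ Y) ∨
      (x ∉ Y ∧ s x ∉ Y ∧ s (s x) ∈ Y) := by
  classical
  let r : Setoid X :=
    { r := fun x y ↦ y = x ∨ y = s x ∨ y = s (s x)
      iseqv :=
        { refl := fun x ↦ Or.inl rfl
          symm := by
            rintro x y (rfl | rfl | rfl)
            · exact Or.inl rfl
            · exact Or.inr (Or.inr (hs x).symm)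
            · exact Or.inr (Or.inl (hs x).symm)
          trans := by
            rintro x y z (rfl | rfl | rfl) (rfl | rfl | rfl)
            · exact Or.inl rfl
            · exact Or.inr (Or.inl rfl)
            · exact Or.inr (Or.inr rfl)
            · exact Or.inr (Or.inl rfl)
            · exact Or.inr (Or.inr rfl)
            · exact Or.inl (hs x)
            · exact Or.inr (Or.inr rfl)
            · exact Or.inl (hs x)
            · exact Or.inr (Or.inl (by rw [hs])) } }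
  have hrs : ∀ x, (Quotient.mk r (s x)) = Quotient.mk r x :=
    fun x ↦ Quotient.sound (Or.inr (Or.inr (hs x).symm))
  have hne2 : ∀ x, s (s x) ≠ x := by
    intro x h
    have := congrArg s h
    rw [hs] at this
    exact hf x this.symm
  refine ⟨{x | (Quotient.mk r x).out = x}, fun x ↦ ?_⟩
  simp only [Set.mem_ofPred_eq, hrs]
  have h := Quotient.exact (Quotient.out_eq (Quotient.mk r x)).symm
  change (Quotient.mk r x).out = x ∨ (Quotient.mk r x).out = s x ∨
    (Quotient.mk r x).out = s (s x) at h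
  rcases h with h | h | h
  · rw [h]
    exact Or.inl ⟨rfl, (hf x).symm, (hne2 x).symm⟩
  · rw [h]
    exact Or.inr (Or.inl ⟨hf x, rfl, fun h' ↦ hf (s x) h'.symm⟩)
  · rw [h]
    exact Or.inr (Or.inr ⟨hne2 x, hf (s x), rfl⟩)

section Free

variable {X : Type*} (C : CSys Γ X) (hf : ∀ g : SL(2, ℤ), g * UU * g⁻¹ ∉ Γ)

theorem ind_UU3 (h : IsGood κ) (v : X → A) :
    C.ind κ A UU (C.ind κ A UU (C.ind κ A UU v)) = v := by
  rw [← Module.End.mul_apply, ← map_mul, ← Module.End.mul_apply, ← map_mul, UU_cube,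
    h.ind_neg_one C, Module.End.one_apply]

theorem σ_UU3 (hm : (-1 : SL(2, ℤ)) ∈ Γ) (x : X) : C.σ UU (C.σ UU (C.σ UU x)) = x := by
  rw [← C.σ_mul, ← C.σ_mul, ← mul_assoc, UU_cube]
  exact C.σ_eq ⟨-1, hm⟩ (by simp)

include hf in
theorem σ_UU_ne (x : X) : C.σ UU x ≠ x := by
  intro hx
  have h := (C.c UU x).2
  have h' : C.r x * UU * (C.r (C.σ UU x))⁻¹ ∈ Γ := h
  rw [hx] at h'
  exact hf _ h'

include hf in
theorem exists_of_norm (h : IsGood κ) {w : X → A}
    (hw : w + C.ind κ A UU w + C.ind κ A UU (C.ind κ A UU w) = 0) :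
    ∃ v, w = v - C.ind κ A UU v := by
  classical
  obtain ⟨Y, hY⟩ := exists_fund (C.σ UU) (σ_UU3 C h.mem) (σ_UU_ne C hf)
  refine ⟨fun x ↦ if x ∈ Y then 0 else if C.σ UU x ∈ Y then w x
    else w x + κ (C.c UU x) • w (C.σ UU x), funext fun x ↦ ?_⟩
  have hx := congrFun hw x
  simp only [Pi.add_apply, ind_apply, Pi.zero_apply] at hx
  rw [Pi.sub_apply, ind_apply]
  have h3 := σ_UU3 C h.mem x
  rcases hY x with ⟨h0, h1, h2⟩ | ⟨h0, h1, h2⟩ | ⟨h0, h1, h2⟩
  · simp only [h0, h1, h2, if_true, if_false, zero_sub, smul_add]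
    rw [eq_neg_iff_add_eq_zero, ← hx]
    abel
  · simp only [h0, h1, if_true, if_false, smul_zero, sub_zero]
  · simp only [h0, h1, h2, if_true, if_false]
    abel

include hf in
theorem exists_of_inv (h : IsGood κ) {b : X → A} (hb : C.ind κ A UU b = b) :
    ∃ v, b = v + C.ind κ A UU v + C.ind κ A (UU * UU) v := by
  classical
  obtain ⟨Y, hY⟩ := exists_fund (C.σ UU) (σ_UU3 C h.mem) (σ_UU_ne C hf)
  refine ⟨fun x ↦ if x ∈ Y then b x else 0, funext fun x ↦ ?_⟩
  have e1 := congrFun hb x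
  have e2 := congrFun (congrArg (C.ind κ A UU) hb) x
  rw [map_mul, Module.End.mul_apply]
  simp only [Pi.add_apply, ind_apply] at e1 e2 ⊢
  rcases hY x with ⟨h0, h1, h2⟩ | ⟨h0, h1, h2⟩ | ⟨h0, h1, h2⟩
  · simp only [h0, h1, h2, if_true, if_false, smul_zero, add_zero]
  · simp only [h0, h1, h2, if_true, if_false, smul_zero, add_zero, zero_add, e1]
  · simp only [h0, h1, h2, if_true, if_false, smul_zero, zero_add, e2, e1]

end Free

/-- The value at `UU` of a cocycle in a coinduced module. -/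
theorem IsGood.exists_UU (h : IsGood κ) {X : Type*} (C : CSys Γ X) {F : SL(2, ℤ) → X → A}
    (hF : IsCoc (C.ind κ A) F) : ∃ v, F UU = v - C.ind κ A UU v := by
  rcases h.three with h3 | h3
  · exact hF.exists_UU (h.ind_neg_one C) h.two h3
  · refine exists_of_norm C h3 h ?_
    have e := hF (UU * UU) UU
    rw [UU_cube, hF.neg_one (h.ind_neg_one C) h.two, hF UU UU, map_mul,
      Module.End.mul_apply] at e
    exact e.symm

theorem IsGood.exists_inv_UU (h : IsGood κ) {X : Type*} (C : CSys Γ X) {b : X → A}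
    (hb : C.ind κ A UU b = b) : ∃ v, b = v + C.ind κ A UU v + C.ind κ A (UU * UU) v := by
  rcases h.three with h3 | h3
  · obtain ⟨t, ht⟩ := h3
    refine ⟨(↑t⁻¹ : Λ) • b, ?_⟩
    rw [map_mul, Module.End.mul_apply, map_smul, hb, map_smul, hb]
    have e : (↑t⁻¹ : Λ) • b + (↑t⁻¹ : Λ) • b + (↑t⁻¹ : Λ) • b = (3 : Λ) • ((↑t⁻¹ : Λ) • b) := by
      module
    rw [e, ← ht, ← mul_smul, Units.mul_inv, one_smul]
  · exact exists_of_inv C h3 h hb

/-- **Right exactness**: cocycles lift along surjections of coefficients. -/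
theorem mapZ_surjective (h : IsGood κ) {g : A →ₗ[Λ] A'} (hg : Function.Surjective g) :
    Function.Surjective (mapZ (κ := κ) g) := by
  intro f
  obtain ⟨C⟩ := exists_csys Γ
  obtain ⟨F', hF', e⟩ := exists_lift_isCoc (h.ind_neg_one C) (h.ind_neg_one C) h.two
    (CSys.mapV _ g) (CSys.mapV_surjective hg) (fun s v ↦ C.mapV_ind g s v) (C.isCoc_up f)
    (h.exists_UU C (C.isCoc_up f))
  refine ⟨C.down hF', ?_⟩
  rw [← C.down_up f]
  refine Subtype.ext (funext fun γ ↦ ?_)
  rw [mapZ_apply, down_apply, down_apply, ← e]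
  rfl

theorem mapH_surjective (h : IsGood κ) {g : A →ₗ[Λ] A'} (hg : Function.Surjective g) :
    Function.Surjective (mapH (κ := κ) g) := by
  intro x
  obtain ⟨f, rfl⟩ := cls_surjective _ _ x
  obtain ⟨f', rfl⟩ := mapZ_surjective h hg f
  exact ⟨cls κ A f', rfl⟩

/-- Exactness in the middle. -/
theorem exact_mapH (h : IsGood κ) {f : A →ₗ[Λ] A'} {g : A' →ₗ[Λ] A''} (hfg : Function.Exact f g)
    (hg : Function.Surjective g) : Function.Exact (mapH (κ := κ) f) (mapH (κ := κ) g) := by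
  intro x
  constructor
  · intro hx
    obtain ⟨z, rfl⟩ := cls_surjective _ _ x
    rw [mapH_cls, cls_eq_zero_iff] at hx
    obtain ⟨b, hb⟩ := hx
    obtain ⟨a, rfl⟩ := hg b
    -- `z - d a` has values in `ker g = range f`
    have hz : ∀ γ, (z - dB κ A' a).1 γ ∈ LinearMap.range f := by
      intro γ
      have h1 : g ((z - dB κ A' a).1 γ) = 0 := by
        have h2 := congrArg (fun w : Z1 κ A'' ↦ w.1 γ) hb
        simp only [dB_apply, mapZ_apply] at h2
        rw [Submodule.coe_sub, Pi.sub_apply, map_sub, dB_apply, map_sub, map_smul, ← h2, sub_self]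
      exact (hfg _).mp h1
    let z' : Z1 κ (LinearMap.range f) := ⟨fun γ ↦ ⟨(z - dB κ A' a).1 γ, hz γ⟩, by
      intro γ γ'
      apply Subtype.ext
      exact Z1_mul (z - dB κ A' a) γ γ'⟩
    obtain ⟨y, hy⟩ := mapZ_surjective h f.surjective_rangeRestrict z'
    refine ⟨cls κ A y, ?_⟩
    rw [mapH_cls, cls_eq_iff]
    refine ⟨-a, ?_⟩
    have : mapZ f y = z - dB κ A' a := by
      refine Subtype.ext (funext fun γ ↦ ?_)
      have h3 := congrArg (fun w : Z1 κ (LinearMap.range f) ↦ ((w.1 γ : LinearMap.range f) : A')) hy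
      exact h3
    rw [this, map_neg]
    abel
  · rintro ⟨y, rfl⟩
    rw [← mapH_comp, hfg.linearMap_comp_eq_zero, mapH_zero]

end Sub

end Fermat.Agent.TWMod
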