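import Fermat.Agent.TWMod.Cocycle

set_option autoImplicit false

/-!
# Coinduced modules and Shapiro's lemma for twisted coefficients
-/

namespace Fermat.Agent.TWMod

open Finset

/-- A system of representatives of right cosets `Γ \ G`, with trivial representative at `x0`. -/
structure CSys {G : Type*} [Group G] (Γ : Subgroup G) (X : Type*) where
  /-- representatives -/
  r : X → G
  /-- base point -/
  x0 : X
  r_x0 : r x0 = 1
  /-- index of the coset -/
  idx : G → X
  idx_spec : ∀ g, g * (r (idx g))⁻¹ ∈ Γ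
  idx_uniq : ∀ g x, g * (r x)⁻¹ ∈ Γ → idx g = x

theorem exists_csys {G : Type*} [Group G] (Γ : Subgroup G) :
    Nonempty (CSys Γ (Quotient (QuotientGroup.rightRel Γ))) := by
  classical
  let x0 : Quotient (QuotientGroup.rightRel Γ) := Quotient.mk _ 1
  let r : Quotient (QuotientGroup.rightRel Γ) → G := Function.update Quotient.out x0 1
  have hr : ∀ x, (Quotient.mk _ (r x) : Quotient (QuotientGroup.rightRel Γ)) = x := by
    intro x
    by_cases hx : x = x0
    · rw [hx]; simp [r, x0]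
    · simp only [r, Function.update_of_ne hx]
      exact Quotient.out_eq x
  have key : ∀ g x, g * (r x)⁻¹ ∈ Γ ↔ (Quotient.mk _ g : Quotient (QuotientGroup.rightRel Γ)) = x := by
    intro g x
    conv_rhs => rw [← hr x]
    rw [Quotient.eq, QuotientGroup.rightRel_apply]
    constructor
    · intro h
      have := Γ.inv_mem h
      rwa [mul_inv_rev, inv_inv] at this
    · intro h
      have := Γ.inv_mem h
      rwa [mul_inv_rev, inv_inv] at this
  exact ⟨{ r := r, x0 := x0, r_x0 := by simp [r], idx := fun g ↦ Quotient.mk _ g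
           idx_spec := fun g ↦ (key g _).mpr rfl
           idx_uniq := fun g x h ↦ (key g x).mp h }⟩

/-- One-cocycles with values in a representation. -/
def IsCoc {G Λ V : Type*} [Group G] [CommRing Λ] [AddCommGroup V] [Module Λ V]
    (ρ : G →* Module.End Λ V) (F : G → V) : Prop :=
  ∀ s s', F (s * s') = F s + ρ s (F s')

namespace CSys

variable {G : Type*} [Group G] {Γ : Subgroup G} {X : Type*} (C : CSys Γ X)

/-- permutation -/
def σ (s : G) (x : X) : X := C.idx (C.r x * s)

/-- factor -/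
def c (s : G) (x : X) : Γ := ⟨C.r x * s * (C.r (C.σ s x))⁻¹, C.idx_spec _⟩

theorem r_mul (s : G) (x : X) : C.r x * s = (C.c s x : G) * C.r (C.σ s x) := by
  rw [c]; simp

theorem σ_eq {s : G} {x y : X} (γ : Γ) (h : C.r x * s = γ * C.r y) : C.σ s x = y :=
  C.idx_uniq _ _ (by rw [h, mul_inv_cancel_right]; exact γ.2)

theorem c_eq {s : G} {x y : X} (γ : Γ) (h : C.r x * s = γ * C.r y) : C.c s x = γ := by
  apply Subtype.ext
  change C.r x * s * (C.r (C.σ s x))⁻¹ = γ
  rw [C.σ_eq γ h, h, mul_inv_cancel_right]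

theorem r_mul_mul (s s' : G) (x : X) : C.r x * (s * s') =
    ((C.c s x * C.c s' (C.σ s x) : Γ) : G) * C.r (C.σ s' (C.σ s x)) := by
  rw [← mul_assoc, C.r_mul, mul_assoc, C.r_mul, ← mul_assoc, Subgroup.coe_mul]

theorem σ_mul (s s' : G) (x : X) : C.σ (s * s') x = C.σ s' (C.σ s x) :=
  C.σ_eq _ (C.r_mul_mul s s' x)

theorem c_mul (s s' : G) (x : X) : C.c (s * s') x = C.c s x * C.c s' (C.σ s x) :=
  C.c_eq _ (C.r_mul_mul s s' x)

theorem σ_one (x : X) : C.σ 1 x = x := C.σ_eq 1 (by simp)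

theorem c_one (x : X) : C.c 1 x = 1 := C.c_eq 1 (y := x) (by simp)

theorem σ_x0 (γ : Γ) : C.σ (γ : G) C.x0 = C.x0 := C.σ_eq γ (by rw [C.r_x0]; simp)

theorem c_x0 (γ : Γ) : C.c (γ : G) C.x0 = γ := C.c_eq γ (y := C.x0) (by rw [C.r_x0]; simp)

theorem σ_r (x : X) : C.σ (C.r x) C.x0 = x := C.σ_eq 1 (by rw [C.r_x0]; simp)

theorem c_r (x : X) : C.c (C.r x) C.x0 = 1 := C.c_eq 1 (y := x) (by rw [C.r_x0]; simp)

variable {Λ : Type*} [CommRing Λ] (κ : Γ →* Λ)
variable (A : Type*) [AddCommGroup A] [Module Λ A]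

/-- The coinduced representation on `X → A`. -/
def ind : G →* Module.End Λ (X → A) where
  toFun s :=
    { toFun := fun v x ↦ κ (C.c s x) • v (C.σ s x)
      map_add' := fun v w ↦ by ext x; simp
      map_smul' := fun a v ↦ by
        ext x
        simp only [Pi.smul_apply, RingHom.id_apply]
        rw [smul_comm] }
  map_one' := by
    refine LinearMap.ext fun v ↦ funext fun x ↦ ?_
    change κ (C.c 1 x) • v (C.σ 1 x) = v x
    rw [C.c_one, C.σ_one, map_one, one_smul]
  map_mul' s s' := by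
    refine LinearMap.ext fun v ↦ funext fun x ↦ ?_
    change κ (C.c (s * s') x) • v (C.σ (s * s') x) =
      κ (C.c s x) • (κ (C.c s' (C.σ s x)) • v (C.σ s' (C.σ s x)))
    rw [C.c_mul, C.σ_mul, map_mul, mul_smul]

variable {κ A}

theorem ind_apply (s : G) (v : X → A) (x : X) :
    C.ind κ A s v x = κ (C.c s x) • v (C.σ s x) := rfl

/-- Extension of a twisted cocycle of `Γ` to a cocycle of `G` in the coinduced module. -/
def up (f : Z1 κ A) (s : G) : X → A := fun x ↦ f.1 (C.c s x)

theorem isCoc_up (f : Z1 κ A) : IsCoc (C.ind κ A) (C.up f) := by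
  intro s s'
  funext x
  rw [Pi.add_apply, ind_apply]
  change f.1 (C.c (s * s') x) = f.1 (C.c s x) + κ (C.c s x) • f.1 (C.c s' (C.σ s x))
  rw [C.c_mul, Z1_mul f]

/-- Restriction of a cocycle of `G` in the coinduced module. -/
def down {F : G → X → A} (hF : IsCoc (C.ind κ A) F) : Z1 κ A :=
  ⟨fun γ ↦ F (γ : G) C.x0, by
    intro γ γ'
    change F ((γ : G) * (γ' : G)) C.x0 = F (γ : G) C.x0 + κ γ • F (γ' : G) C.x0
    rw [hF, Pi.add_apply, ind_apply, C.c_x0, C.σ_x0]⟩

theorem down_apply {F : G → X → A} (hF : IsCoc (C.ind κ A) F) (γ : Γ) :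
    (C.down hF).1 γ = F (γ : G) C.x0 := rfl

theorem down_up (f : Z1 κ A) : C.down (C.isCoc_up f) = f := by
  refine Subtype.ext (funext fun γ ↦ ?_)
  rw [down_apply, up, C.c_x0]

/-- If the restriction of a cocycle in the coinduced module is a coboundary, then so is the
cocycle. -/
theorem exists_of_down {F : G → X → A} (hF : IsCoc (C.ind κ A) F) {a : A}
    (ha : dB κ A a = C.down hF) : ∃ b : X → A, ∀ s, F s = C.ind κ A s b - b := by
  refine ⟨fun x ↦ F (C.r x) C.x0 + a, fun s ↦ funext fun x ↦ ?_⟩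
  have h1 : F (C.r x * s) C.x0 = F (C.r x) C.x0 + F s x := by
    rw [hF, Pi.add_apply, ind_apply, C.c_r, C.σ_r, map_one, one_smul]
  have h2 : F (C.r x * s) C.x0 = (κ (C.c s x) • a - a) + κ (C.c s x) • F (C.r (C.σ s x)) C.x0 := by
    rw [C.r_mul, hF, Pi.add_apply, ind_apply, C.c_x0, C.σ_x0, ← C.down_apply hF, ← ha, dB_apply]
  rw [h1] at h2
  rw [Pi.sub_apply, ind_apply, smul_add, eq_sub_of_add_eq' h2]
  abel

variable {A' : Type*} [AddCommGroup A'] [Module Λ A']

/-- Functoriality of coinduced modules. -/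
def mapV (X : Type*) (g : A →ₗ[Λ] A') : (X → A) →ₗ[Λ] (X → A') where
  toFun v x := g (v x)
  map_add' v w := by ext; simp
  map_smul' a v := by ext; simp

@[simp] theorem mapV_apply (g : A →ₗ[Λ] A') (v : X → A) (x : X) : mapV X g v x = g (v x) := rfl

theorem mapV_surjective {g : A →ₗ[Λ] A'} (hg : Function.Surjective g) :
    Function.Surjective (mapV X g) := by
  intro v
  choose w hw using fun x ↦ hg (v x)
  exact ⟨w, funext hw⟩

theorem mapV_ind (g : A →ₗ[Λ] A') (s : G) (v : X → A) :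
    mapV X g (C.ind κ A s v) = C.ind κ A' s (mapV X g v) := by
  funext x
  rw [mapV_apply, ind_apply, ind_apply, map_smul, mapV_apply]

end CSys

end Fermat.Agent.TWMod
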