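import Fermat.Agent.TWMod.LocalPart
import Fermat.Prelude.Thm_IsLocalRing_isAdicComplete_of_module_finite

set_option autoImplicit false

/-!
# The local Hecke algebra
-/

open CongruenceSubgroup Fermat.Agent.Top MvPolynomial IsLocalRing
open scoped MatrixGroups TensorProduct

namespace Fermat.Agent.TWMod

variable {Λ : Type} [CommRing Λ] [IsLocalRing Λ]
variable {N : ℕ} [NeZero N] {χ₁ χ₂ : DirichletCharacter Λ N} {S : Set ℕ}
variable {a : Pr S → ResidueField Λ} {E : MvPolynomial (Pr S) Λ}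

/-- All the data of a localisation. -/
structure IsLoc (χ₁ χ₂ : DirichletCharacter Λ N) (S : Set ℕ) (a : Pr S → ResidueField Λ)
    (E : MvPolynomial (Pr S) Λ) : Prop extends IsProj χ₁ χ₂ S a E where
  two : IsUnit (2 : Λ)
  three : Three Λ N
  occ : ∀ P, ev χ₁ S Λ P = 0 → ev χ₂ S Λ P = 0 → resE S a P = 0

variable (χ₁ χ₂ S E) in
/-- The annihilator of the local components. -/
noncomputable def annT : Ideal (MvPolynomial (Pr S) Λ) :=
  Submodule.colon (RingHom.ker ((ev χ₁ S Λ).prod (ev χ₂ S Λ)) : Ideal (MvPolynomial (Pr S) Λ)) {E}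

omit [IsLocalRing Λ] [NeZero N] in
theorem mem_annT {P : MvPolynomial (Pr S) Λ} :
    P ∈ annT χ₁ χ₂ S E ↔ ev χ₁ S Λ (P * E) = 0 ∧ ev χ₂ S Λ (P * E) = 0 := by
  rw [annT, Submodule.mem_colon_singleton, smul_eq_mul, RingHom.mem_ker]
  exact Prod.ext_iff

variable (χ₁ χ₂ S E) in
/-- The local Hecke algebra. -/
abbrev TT : Type := MvPolynomial (Pr S) Λ ⧸ annT χ₁ χ₂ S E

variable (hE : IsLoc χ₁ χ₂ S a E)

include hE

theorem finite_TT [IsNoetherianRing Λ] : Module.Finite Λ (TT χ₁ χ₂ S E) := by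
  have hf1 := finite_H1 (isGood_kap χ₁ hE.two hE.three) Λ
  have hf2 := finite_H1 (isGood_kap χ₂ hE.two hE.three) Λ
  have hf3 := finite_end (Λ := Λ) (H1 (kap χ₁) Λ)
  have hf4 := finite_end (Λ := Λ) (H1 (kap χ₂) Λ)
  let Φ : MvPolynomial (Pr S) Λ →ₐ[Λ] Module.End Λ (H1 (kap χ₁) Λ) × Module.End Λ (H1 (kap χ₂) Λ) :=
    (ev χ₁ S Λ).prod (ev χ₂ S Λ)
  have hfin : Module.Finite Λ (MvPolynomial (Pr S) Λ ⧸ RingHom.ker Φ) :=
    Module.Finite.of_injective (Ideal.kerLiftAlg Φ).toLinearMap (Ideal.kerLiftAlg_injective Φ)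
  have hle : RingHom.ker Φ ≤ annT χ₁ χ₂ S E := by
    intro P hP
    rw [mem_annT, map_mul, map_mul]
    have := Prod.ext_iff.mp (RingHom.mem_ker.mp hP)
    have h1 : ev χ₁ S Λ P = 0 := this.1
    have h2 : ev χ₂ S Λ P = 0 := this.2
    rw [h1, h2]
    simp
  exact Module.Finite.of_surjective (Ideal.Quotient.factorₐ Λ hle).toLinearMap
    (Ideal.Quotient.factor_surjective hle)

theorem resE_eq_zero_of_mem {P : MvPolynomial (Pr S) Λ} (hP : P ∈ annT χ₁ χ₂ S E) :
    resE S a P = 0 := by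
  rw [mem_annT] at hP
  have h := hE.occ _ hP.1 hP.2
  rw [map_mul, hE.res, mul_one] at h
  exact h

/-- The residue map of the local Hecke algebra. -/
noncomputable def resT : TT χ₁ χ₂ S E →+* ResidueField Λ :=
  Ideal.Quotient.lift _ (resE S a) (fun _ hP ↦ resE_eq_zero_of_mem hE hP)

@[simp] theorem resT_mk (P : MvPolynomial (Pr S) Λ) :
    resT hE (Ideal.Quotient.mk _ P) = resE S a P := rfl

theorem isLocalHom_resT : IsLocalHom (resT hE) := by
  constructor
  intro x hx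
  obtain ⟨P, rfl⟩ := Ideal.Quotient.mk_surjective x
  rw [resT_mk, isUnit_iff_ne_zero] at hx
  obtain ⟨Q, hQ⟩ := hE.unit P hx
  refine IsUnit.of_mul_eq_one (Ideal.Quotient.mk _ Q) ?_
  rw [← map_mul, ← map_one (Ideal.Quotient.mk _), Ideal.Quotient.eq, mem_annT]
  have h : ∀ χ ∈ ({χ₁, χ₂} : Set (DirichletCharacter Λ N)), ev χ S Λ ((P * Q - 1) * E) = 0 := by
    intro χ hχ
    have h1 := hQ χ hχ
    rw [sub_mul, one_mul, map_sub, ← h1, mul_comm P Q, sub_self]
  exact ⟨h χ₁ (by simp), h χ₂ (by simp)⟩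

theorem isLocalRing_TT : IsLocalRing (TT χ₁ χ₂ S E) :=
  haveI := isLocalHom_resT hE
  RingHom.domain_isLocalRing (resT hE)

omit hE [IsLocalRing Λ] [NeZero N] in
theorem algebraMap_TT (r : Λ) : algebraMap Λ (TT χ₁ χ₂ S E) r = Ideal.Quotient.mk _ (C r) := rfl

theorem resT_algebraMap (r : Λ) : resT hE (algebraMap Λ _ r) = residue Λ r := by
  rw [algebraMap_TT, resT_mk, resE_C]

theorem isLocalHom_algebraMap_TT : IsLocalHom (algebraMap Λ (TT χ₁ χ₂ S E)) := by
  constructor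
  intro r hr
  have h := hr.map (resT hE)
  rw [resT_algebraMap] at h
  exact isUnit_of_map_unit (residue Λ) r h

theorem isNoetherianRing_TT [IsNoetherianRing Λ] : IsNoetherianRing (TT χ₁ χ₂ S E) := by
  have := finite_TT hE
  exact IsNoetherianRing.of_finite Λ _

theorem isAdicComplete_TT [IsNoetherianRing Λ] [IsAdicComplete (maximalIdeal Λ) Λ] :
    letI := isLocalRing_TT hE
    IsAdicComplete (maximalIdeal (TT χ₁ χ₂ S E)) (TT χ₁ χ₂ S E) := by
  letI := isLocalRing_TT hE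
  have := finite_TT hE
  have := isLocalHom_algebraMap_TT hE
  exact IsLocalRing.isAdicComplete_of_module_finite (𝒪 := Λ)

/-- Elements of the maximal ideal. -/
theorem mem_maximalIdeal_TT (x : TT χ₁ χ₂ S E) :
    letI := isLocalRing_TT hE
    x ∈ maximalIdeal (TT χ₁ χ₂ S E) ↔ resT hE x = 0 := by
  letI := isLocalRing_TT hE
  have := isLocalHom_resT hE
  rw [mem_maximalIdeal, mem_nonunits_iff, ← isUnit_map_iff (resT hE), isUnit_iff_ne_zero, not_not]

section Action

variable {χ : DirichletCharacter Λ N} (hχ : χ ∈ ({χ₁, χ₂} : Set (DirichletCharacter Λ N)))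
  (A : Type*) [AddCommGroup A] [Module Λ A] {A' : Type*} [AddCommGroup A'] [Module Λ A']

omit hE [IsLocalRing Λ] [NeZero N] in
theorem ev_mul_eq_zero {P : MvPolynomial (Pr S) Λ} (hP : P ∈ annT χ₁ χ₂ S E) :
    ∀ χ ∈ ({χ₁, χ₂} : Set (DirichletCharacter Λ N)), ev χ S Λ (P * E) = 0 := by
  rw [mem_annT] at hP
  rintro χ (rfl | rfl)
  · exact hP.1
  · exact hP.2

include hχ in
theorem ev_annT {P : MvPolynomial (Pr S) Λ} (hP : P ∈ annT χ₁ χ₂ S E) {x : H1 (kap χ) A}
    (hx : x ∈ MM A χ S E) : ev χ S A P x = 0 := by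
  have h := ev_eq_zero_of χ S A hE.two hE.three (ev_mul_eq_zero hP χ hχ)
  have h' := LinearMap.congr_fun h x
  rw [map_mul, Module.End.mul_apply, hE.eq_of_mem hE.two hE.three hχ A hx] at h'
  exact h'

/-- Action of Hecke polynomials on the local component. -/
noncomputable def actP : MvPolynomial (Pr S) Λ →+* Module.End Λ (MM A χ S E) where
  toFun P := (ev χ S A P).restrict (fun _ hx ↦ ev_mem_MM A P hx)
  map_one' := by
    refine LinearMap.ext fun x ↦ Subtype.ext ?_
    change ev χ S A 1 x = x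
    rw [map_one, Module.End.one_apply]
  map_mul' P Q := by
    refine LinearMap.ext fun x ↦ Subtype.ext ?_
    change ev χ S A (P * Q) x = ev χ S A P (ev χ S A Q x)
    rw [map_mul, Module.End.mul_apply]
  map_zero' := by
    refine LinearMap.ext fun x ↦ Subtype.ext ?_
    change ev χ S A 0 x = 0
    rw [map_zero, LinearMap.zero_apply]
  map_add' P Q := by
    refine LinearMap.ext fun x ↦ Subtype.ext ?_
    change ev χ S A (P + Q) x = ev χ S A P x + ev χ S A Q x
    rw [map_add, LinearMap.add_apply]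

/-- Action of the local Hecke algebra on the local component. -/
noncomputable def actT : TT χ₁ χ₂ S E →+* Module.End Λ (MM A χ S E) :=
  Ideal.Quotient.lift _ (actP (χ := χ) (S := S) (E := E) A) (fun P hP ↦ by
    refine LinearMap.ext fun x ↦ Subtype.ext ?_
    exact ev_annT hE hχ A hP x.2)

theorem actT_mk (P : MvPolynomial (Pr S) Λ) (x : MM A χ S E) :
    ((actT hE hχ A (Ideal.Quotient.mk _ P) x : MM A χ S E) : H1 (kap χ) A) = ev χ S A P x := rfl

end Action

/-- The joint action is faithful. -/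
theorem eq_zero_of_actT {t : TT χ₁ χ₂ S E}
    (h1 : actT hE (χ := χ₁) (by simp) Λ t = 0) (h2 : actT hE (χ := χ₂) (by simp) Λ t = 0) : t = 0 := by
  obtain ⟨P, rfl⟩ := Ideal.Quotient.mk_surjective t
  rw [Ideal.Quotient.eq_zero_iff_mem, mem_annT]
  constructor
  · refine LinearMap.ext fun x ↦ ?_
    rw [map_mul, Module.End.mul_apply]
    exact congrArg Subtype.val (LinearMap.congr_fun h1 ⟨ev χ₁ S Λ E x, x, rfl⟩)
  · refine LinearMap.ext fun x ↦ ?_
    rw [map_mul, Module.End.mul_apply]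
    exact congrArg Subtype.val (LinearMap.congr_fun h2 ⟨ev χ₂ S Λ E x, x, rfl⟩)

end Fermat.Agent.TWMod
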